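/-
S55 / G-ADAPTER (helper955): extension of divisors `Div^S(K) → Div^S(L)` along an extension of
number fields `K → L`, `v ↦ ∑_{w | v} e(w | v) [w]`, compatible with the divisor maps
(`ord_w(x) = e(w | v) · ord_v(x)` for `x ∈ Kˣ`).  Mathlib + `G/Defs.lean` only.  No `sorry`.
-/
import Fermat.Agent.S55.G.Defs

set_option autoImplicit false
set_option linter.unusedSectionVars false

open scoped NumberField
open IsDedekindDomain

namespace Fermat.Agent.S55.GAD

open Fermat.Agent.S55.G

noncomputable section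

variable (S : Finset Nat.Primes) (K L : Type) [Field K] [NumberField K] [Field L] [NumberField L]
  [Algebra K L]

/-- The prime of `K` below a prime of `L`. -/
def underPrime (w : HeightOneSpectrum (𝓞 L)) : HeightOneSpectrum (𝓞 K) := w.under (𝓞 K)

instance underPrime_liesOver (w : HeightOneSpectrum (𝓞 L)) :
    w.asIdeal.LiesOver (underPrime K L w).asIdeal := ⟨rfl⟩

lemma mem_underPrime_iff (w : HeightOneSpectrum (𝓞 L)) (x : 𝓞 K) :
    x ∈ (underPrime K L w).asIdeal ↔ algebraMap (𝓞 K) (𝓞 L) x ∈ w.asIdeal := Iff.rfl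

lemma isAbove_underPrime_iff (w : HeightOneSpectrum (𝓞 L)) :
    IsAbove S K (underPrime K L w) ↔ IsAbove S L w := by
  unfold IsAbove
  simp only [mem_underPrime_iff, map_natCast]

/-- The prime of `K` outside `S` below a prime of `L` outside `S`. -/
def underOut (w : PrimeOut S L) : PrimeOut S K :=
  ⟨underPrime K L w.1, fun h => w.2 ((isAbove_underPrime_iff S K L w.1).1 h)⟩

/-- The ramification index `e(w | v)`, `v` the prime below `w`. -/
def ramIdx (w : HeightOneSpectrum (𝓞 L)) : ℕ :=
  (underPrime K L w).asIdeal.ramificationIdx' w.asIdeal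

/-- `ord_w(x) = e(w | v) · ord_v(x)` for `x ∈ Kˣ`. -/
lemma ordAt_lMap (w : HeightOneSpectrum (𝓞 L)) (x : Additive Kˣ) :
    ordAt w (lMap K L x) = (ramIdx K L w : ℤ) * ordAt (underPrime K L w) x := by
  have h := HeightOneSpectrum.valuation_liesOver (K := K) L (underPrime K L w) w
    ((x.toMul : Kˣ) : K)
  rw [ordAt_apply, ordAt_apply]
  have h2 : ((lMap K L x).toMul : Lˣ).val = algebraMap K L ((x.toMul : Kˣ) : K) := rfl
  rw [h2, ← h, WithZero.log_pow]
  simp only [ramIdx, nsmul_eq_mul]
  ring

lemma ramIdx_ne_zero (w : HeightOneSpectrum (𝓞 L)) : ramIdx K L w ≠ 0 :=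
  Ideal.IsDedekindDomain.ramificationIdx'_ne_zero_of_liesOver w.asIdeal
    (underPrime K L w).ne_bot

/-- The primes of `L` above a given prime of `K` are finite in number. -/
lemma underPrime_fiber_finite (v : HeightOneSpectrum (𝓞 K)) :
    {w : HeightOneSpectrum (𝓞 L) | underPrime K L w = v}.Finite := by
  have hfin := IsDedekindDomain.primesOver_finite v.asIdeal (𝓞 L)
  refine Set.Finite.of_finite_image (f := HeightOneSpectrum.asIdeal) (hfin.subset ?_)
    (fun a _ b _ hab => HeightOneSpectrum.ext hab)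
  rintro _ ⟨w, hw, rfl⟩
  refine ⟨w.isPrime, ⟨?_⟩⟩
  rw [← hw]
  rfl

lemma underOut_fiber_finite (v : PrimeOut S K) :
    (underOut S K L ⁻¹' {v}).Finite := by
  have h := underPrime_fiber_finite K L v.1
  refine Set.Finite.of_finite_image (f := Subtype.val) (h.subset ?_)
    (fun a _ b _ hab => Subtype.ext hab)
  rintro _ ⟨w, hw, rfl⟩
  exact congrArg Subtype.val hw

/-- Extension of divisors `Div^S(K) → Div^S(L)`: `v ↦ ∑_{w | v} e(w | v) [w]`. -/
def divExt : (PrimeOut S K →₀ ℤ) →+ (PrimeOut S L →₀ ℤ) where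
  toFun d := Finsupp.ofSupportFinite
    (fun w : PrimeOut S L => (ramIdx K L w.1 : ℤ) * d (underOut S K L w)) (by
      refine (Set.Finite.preimage' d.hasFiniteSupport
        (fun v _ => underOut_fiber_finite S K L v)).subset ?_
      intro w hw
      simp only [Function.mem_support, ne_eq, mul_eq_zero, not_or] at hw
      simpa using hw.2)
  map_zero' := by
    ext w
    simp [Finsupp.ofSupportFinite_coe]
  map_add' d d' := by
    ext w
    simp [Finsupp.ofSupportFinite_coe, mul_add]

@[simp] lemma divExt_apply (d : PrimeOut S K →₀ ℤ) (w : PrimeOut S L) :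
    divExt S K L d w = (ramIdx K L w.1 : ℤ) * d (underOut S K L w) := rfl

/-- The divisor maps are compatible with extension of divisors. -/
lemma divExt_ordHom (x : Additive Kˣ) :
    divExt S K L (ordHom S K x) = ordHom S L (lMap K L x) := by
  ext w
  rw [divExt_apply]
  exact (ordAt_lMap K L w.1 x).symm

lemma divExt_injective : Function.Injective (divExt S K L) := by
  intro d d' h
  ext v
  obtain ⟨P, hPm, hP⟩ := Ideal.exists_maximal_ideal_liesOver_of_isIntegral (S := 𝓞 L) v.1.asIdeal
  have hPbot : P ≠ ⊥ := Ideal.ne_bot_of_liesOver_of_ne_bot v.1.ne_bot P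
  let w : HeightOneSpectrum (𝓞 L) := ⟨P, hPm.isPrime, hPbot⟩
  have hwv : underPrime K L w = v.1 := HeightOneSpectrum.ext hP.over.symm
  have hw : ¬ IsAbove S L w := fun hh =>
    v.2 (by rw [← hwv]; exact (isAbove_underPrime_iff S K L w).2 hh)
  have h2 : underOut S K L ⟨w, hw⟩ = v := Subtype.ext hwv
  have h1 : (ramIdx K L w : ℤ) * d (underOut S K L ⟨w, hw⟩) =
      (ramIdx K L w : ℤ) * d' (underOut S K L ⟨w, hw⟩) :=
    DFunLike.congr_fun h (⟨w, hw⟩ : PrimeOut S L)
  rw [h2] at h1
  exact mul_left_cancel₀ (Nat.cast_ne_zero.2 (ramIdx_ne_zero K L w)) h1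

/-! ### Galois equivariance -/

section Equivariance

variable (G G' : Type) [Group G] [Group G'] [MulSemiringAction G K] [MulSemiringAction G' L]
  (π : G' →* G)

variable {K L G G'} in
lemma algebraMap_int_smul {π : G' →* G}
    (hπ : ∀ (g : G') (x : K), algebraMap K L (π g • x) = g • algebraMap K L x)
    (g : G') (x : 𝓞 K) :
    algebraMap (𝓞 K) (𝓞 L) (π g • x) = g • algebraMap (𝓞 K) (𝓞 L) x :=
  Subtype.ext (hπ g (x : K))

variable {K L G G'} in
lemma underPrime_primeSMul {π : G' →* G}
    (hπ : ∀ (g : G') (x : K), algebraMap K L (π g • x) = g • algebraMap K L x)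
    (g : G') (w : HeightOneSpectrum (𝓞 L)) :
    underPrime K L (primeSMul G' g w) = primeSMul G (π g) (underPrime K L w) := by
  refine HeightOneSpectrum.ext (Ideal.ext fun x => ?_)
  rw [mem_underPrime_iff, mem_primeSMul_iff, mem_primeSMul_iff, mem_underPrime_iff,
    ← map_inv, algebraMap_int_smul hπ]

variable {K L G G'} in
lemma underOut_primeOutMap {π : G' →* G}
    (hπ : ∀ (g : G') (x : K), algebraMap K L (π g • x) = g • algebraMap K L x)
    (g : G') (w : PrimeOut S L) :
    underOut S K L (primeOutMap S G' L g w) = primeOutMap S G K (π g) (underOut S K L w) :=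
  Subtype.ext (underPrime_primeSMul hπ g w.1)

variable {K L G G'} in
lemma lMap_lRepr {π : G' →* G}
    (hπ : ∀ (g : G') (x : K), algebraMap K L (π g • x) = g • algebraMap K L x)
    (g : G') (x : Additive Kˣ) :
    lMap K L (lRepr G K (π g) x) = lRepr G' L g (lMap K L x) := by
  apply Additive.toMul.injective
  apply Units.ext
  exact hπ g _

variable {K L G G'} in
/-- The ramification index is Galois invariant. -/
lemma ramIdx_primeSMul {π : G' →* G}
    (hπ : ∀ (g : G') (x : K), algebraMap K L (π g • x) = g • algebraMap K L x)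
    (g : G') (w : HeightOneSpectrum (𝓞 L)) :
    ramIdx K L (primeSMul G' g w) = ramIdx K L w := by
  obtain ⟨ϖ, hϖ⟩ := (underPrime K L w).valuation_exists_uniformizer K
  have hϖ0 : ϖ ≠ 0 := by
    rintro rfl
    rw [map_zero] at hϖ
    exact WithZero.exp_ne_zero hϖ.symm
  let x : Additive Kˣ := Additive.ofMul (Units.mk0 ϖ hϖ0)
  have hx : ordAt (underPrime K L w) x = 1 := by
    rw [ordAt_apply]
    change -WithZero.log ((underPrime K L w).valuation K ϖ) = 1
    rw [hϖ]
    simp
  have h1 := ordAt_lMap K L w x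
  have h2 := ordAt_lMap K L (primeSMul G' g w) (lRepr G K (π g) x)
  rw [lMap_lRepr hπ, ordAt_primeSMul, underPrime_primeSMul hπ, ordAt_primeSMul, hx, mul_one] at h2
  rw [hx, mul_one] at h1
  exact_mod_cast h2.symm.trans h1

variable {K L G G'} in
/-- Extension of divisors is Galois equivariant. -/
lemma divExt_equivariant {π : G' →* G}
    (hπ : ∀ (g : G') (x : K), algebraMap K L (π g • x) = g • algebraMap K L x)
    (g : G') (d : PrimeOut S K →₀ ℤ) :
    divExt S K L (divRepr S G K (π g) d) = divRepr S G' L g (divExt S K L d) := by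
  ext w
  have hw : w = primeOutMap S G' L g (primeOutMap S G' L g⁻¹ w) := by
    rw [← primeOutMap_mul, mul_inv_cancel, primeOutMap_one]
  rw [hw, divRepr_apply_apply, divExt_apply, divExt_apply, underOut_primeOutMap S hπ,
    divRepr_apply_apply, primeOutMap_val, ramIdx_primeSMul hπ]

end Equivariance

end

end Fermat.Agent.S55.GAD
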