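/-
S55 / G-ADAPTER (sub-architect helper955): the CONCRETE tower datum.
Target: `Tow.GlobalSpecMu S p` (`Spec/Datum2.lean`).  No `sorry`.

`C(L) := (∏_{q ∈ S} J_q(L) × Div^S(L)) / Lˣ`, with
* `J_q(L) = L.J q` the tower's coinduced module (`Spec/Tower.lean`),
* `Div^S(L) = ℤ[primes of L.F not above S]` (layer G, `G/Defs.lean`), Galois action through
  helper594's `levelAction`,
* `Lˣ = L.units` embedded by `x ↦ ((diag_q x)_q, div x)`.
`j_q` = inclusion of the `q`-th factor, `tr` = `trJ × divExt`, `γ` chosen by `Classical.choice`.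
-/
import Fermat.Agent.S55.Spec.Datum2
import Fermat.Agent.S55.E1.H594.LevelUnits
import Fermat.Agent.S55.E1.H594.LevelUnram
import Fermat.Agent.S55.GAD.DivExt

set_option autoImplicit false
set_option linter.unusedSectionVars false

open CategoryTheory

namespace Fermat.Agent.S55.GAD

open Fermat.Agent.S55 Fermat.Agent.S55.Tow Fermat.Agent.S55.E1.H594 Fermat.Agent.S55.G

noncomputable section

variable {S : Finset Nat.Primes} (L : Level S)

/-- The underlying group of `∏_{q ∈ S} J_q(L)`. -/
abbrev JSV : Type := ∀ q : S, (L.J q.1).V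

/-- The representation of `Gal(L/ℚ)` on `∏_{q ∈ S} J_q(L)`. -/
def jsRepr : Representation ℤ L.Gal (JSV L) where
  toFun g := LinearMap.pi fun q => ((L.J q.1).ρ g) ∘ₗ LinearMap.proj q
  map_one' := by
    refine LinearMap.ext fun x => funext fun q => ?_
    show (L.J q.1).ρ 1 (x q) = x q
    rw [map_one]
    rfl
  map_mul' g h := by
    refine LinearMap.ext fun x => funext fun q => ?_
    show (L.J q.1).ρ (g * h) (x q) = (L.J q.1).ρ g ((L.J q.1).ρ h (x q))
    rw [map_mul]
    rfl

@[simp] lemma jsRepr_apply (g : L.Gal) (x : JSV L) (q : S) :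
    jsRepr L g x q = (L.J q.1).ρ g (x q) := rfl

/-- The underlying group of `∏_{q ∈ S} J_q(L) × Div^S(L)`. -/
abbrev JDV : Type := JSV L × (PrimeOut S L.F →₀ ℤ)

/-- The representation of `Gal(L/ℚ)` on `∏_{q ∈ S} J_q(L) × Div^S(L)`. -/
def jdRepr : Representation ℤ L.Gal (JDV L) := (jsRepr L).prod (divRepr S L.Gal L.F)

/-- `L.units → Additive (L.F)ˣ`: the tower's `Fˣ` as the layer-G `Fˣ` (helper594's LVL). -/
def toField : L.units.V →ₗ[ℤ] Additive (L.F)ˣ := (levelUnitsIso L).inv.hom.toLinearMap

lemma toField_equivariant (g : L.Gal) (x : L.units.V) :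
    toField L (L.units.ρ g x) = lRepr L.Gal L.F g (toField L x) :=
  Rep.hom_comm_apply (levelUnitsIso L).inv g x

/-- The element of `ℚ̄` underlying `toField L y` is the element underlying `y`. -/
lemma coe_toField (y : L.units.V) :
    ((((toField L y).toMul : (L.F)ˣ) : L.F) : Qbar) = levelInvVal L y := by
  have h1 := coe_levelUnitsIso_hom_apply L (toField L y)
  have h2 : (levelUnitsIso L).hom.hom (toField L y) = y :=
    Rep.hom_inv_apply _ _ (levelUnitsIso L) y
  rw [h2] at h1
  exact h1.symm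

lemma toField_injective : Function.Injective (toField L) := by
  intro x y h
  have hx := Rep.hom_inv_apply _ _ (levelUnitsIso L) x
  have hy := Rep.hom_inv_apply _ _ (levelUnitsIso L) y
  have h' : (levelUnitsIso L).inv.hom x = (levelUnitsIso L).inv.hom y := h
  rw [← hx, ← hy, h']

/-- The divisor of `x ∈ Fˣ` (outside `S`). -/
def divT : L.units.V →ₗ[ℤ] (PrimeOut S L.F →₀ ℤ) :=
  (ordHom S L.F).toIntLinearMap ∘ₗ toField L

/-- The diagonal embedding `Fˣ → ∏_{q ∈ S} J_q(L) × Div^S(L)`. -/
def diagT : L.units.V →ₗ[ℤ] JDV L :=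
  LinearMap.prod (LinearMap.pi fun q : S => (L.diag q.1).hom.toLinearMap) (divT L)

lemma diagT_fst (x : L.units.V) (q : S) : (diagT L x).1 q = (L.diag q.1).hom x := rfl

lemma diagT_snd (x : L.units.V) : (diagT L x).2 = ordHom S L.F (toField L x) := rfl

lemma diagT_equivariant (g : L.Gal) (x : L.units.V) :
    diagT L (L.units.ρ g x) = jdRepr L g (diagT L x) := by
  refine Prod.ext (funext fun q => ?_) ?_
  · exact Rep.hom_comm_apply (L.diag q.1) g x
  · show ordHom S L.F (toField L (L.units.ρ g x)) = divRepr S L.Gal L.F g (ordHom S L.F (toField L x))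
    rw [toField_equivariant, ordHom_equivariant]

/-- The principal elements: the image of `Fˣ`. -/
def princ : Submodule ℤ (JDV L) := LinearMap.range (diagT L)

lemma princ_stable (g : L.Gal) : princ L ≤ (princ L).comap (jdRepr L g) := by
  rintro _ ⟨x, rfl⟩
  exact ⟨L.units.ρ g x, diagT_equivariant L g x⟩

/-- **The class module** `C(L) = (∏_{q ∈ S} J_q(L) × Div^S(L)) / Lˣ`. -/
def CT : Rep.{0} ℤ L.Gal := Rep.of ((jdRepr L).quotient (princ L) (princ_stable L))

/-- The class of an element of `∏_{q ∈ S} J_q(L) × Div^S(L)` (an additive map). -/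
def mkC : JDV L →+ (CT L).V := (princ L).mkQ.toAddMonoidHom

lemma mkC_surjective : Function.Surjective (mkC L) := Submodule.mkQ_surjective _

lemma mkC_eq_zero_iff (y : JDV L) : mkC L y = 0 ↔ ∃ x : L.units.V, diagT L x = y :=
  Submodule.Quotient.mk_eq_zero (princ L)

lemma mkC_diagT (x : L.units.V) : mkC L (diagT L x) = 0 :=
  (mkC_eq_zero_iff L _).2 ⟨x, rfl⟩

lemma CT_ρ_mkC (g : L.Gal) (y : JDV L) : (CT L).ρ g (mkC L y) = mkC L (jdRepr L g y) := rfl

/-- The quotient morphism `∏_{q ∈ S} J_q(L) × Div^S(L) → C(L)` in `Rep ℤ Gal(L/ℚ)`. -/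
def mkCHom : Rep.of (jdRepr L) ⟶ CT L :=
  Rep.ofHom ⟨(princ L).mkQ, fun _ => rfl⟩

/-- The inclusion of the `q`-th factor `J_q(L) → ∏_{q ∈ S} J_q(L) × Div^S(L)` (`q ∈ S`). -/
def inclJ (q : S) : L.J q.1 ⟶ Rep.of (jdRepr L) :=
  Rep.ofHom
    { toLinearMap := LinearMap.inl ℤ (JSV L) (PrimeOut S L.F →₀ ℤ) ∘ₗ
        LinearMap.single ℤ (fun q : S => (L.J q.1).V) q
      isIntertwining' := fun g => by
        refine LinearMap.ext fun (x : (L.J q.1).V) => Prod.ext (funext fun q' => ?_) ?_
        · show (Pi.single q ((L.J q.1).ρ g x) : JSV L) q' =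
            (L.J q'.1).ρ g ((Pi.single q x : JSV L) q')
          by_cases h : q' = q
          · subst h
            have h1 : (Pi.single q' ((L.J q'.1).ρ g x) : JSV L) q' = (L.J q'.1).ρ g x :=
              Pi.single_eq_same _ _
            have h2 : (Pi.single q' x : JSV L) q' = x := Pi.single_eq_same _ _
            rw [h1, h2]
          · have h1 : (Pi.single q ((L.J q.1).ρ g x) : JSV L) q' = 0 :=
              Pi.single_eq_of_ne h _
            have h2 : (Pi.single q x : JSV L) q' = 0 := Pi.single_eq_of_ne h _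
            rw [h1, h2, map_zero]
        · show (0 : PrimeOut S L.F →₀ ℤ) = divRepr S L.Gal L.F g 0
          rw [map_zero] }

/-- `j_q : J_q(L) → C(L)`: inclusion of the `q`-th factor for `q ∈ S` (and `0` otherwise). -/
def jT (q : Nat.Primes) : L.J q ⟶ CT L :=
  if hq : q ∈ S then inclJ L ⟨q, hq⟩ ≫ mkCHom L else 0

lemma jT_apply_of_mem (q : S) (x : (L.J q.1).V) :
    (jT L q.1).hom x = mkC L (Pi.single q x, 0) := by
  have h : jT L q.1 = inclJ L q ≫ mkCHom L := dif_pos q.2
  rw [h]
  rfl

lemma sum_jT (x : JSV L) : ∑ q : S, (jT L q.1).hom (x q) = mkC L (x, 0) := by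
  classical
  simp only [jT_apply_of_mem]
  rw [← map_sum]
  congr 1
  refine Prod.ext ?_ ?_
  · rw [Prod.fst_sum]
    funext q
    rw [Finset.sum_apply]
    simp
  · rw [Prod.snd_sum]
    simp

/-! ### Transition maps -/

variable {L} {L' : Level S}

/-- The algebra structure `L.F → L'.F` for `L ≤ L'`. -/
@[reducible] def levelAlgebra (h : L ≤ L') : Algebra L.F L'.F :=
  (IntermediateField.inclusion h).toRingHom.toAlgebra

lemma levelAlgebra_apply (h : L ≤ L') (x : L.F) :
    ((@algebraMap L.F L'.F _ _ (levelAlgebra h) x : L'.F) : Qbar) = (x : Qbar) := rfl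

lemma levelAlgebra_smul (h : L ≤ L') (g : L'.Gal) (x : L.F) :
    @algebraMap L.F L'.F _ _ (levelAlgebra h) (Level.proj h g • x) =
      g • @algebraMap L.F L'.F _ _ (levelAlgebra h) x := by
  induction g using QuotientGroup.induction_on with
  | H σ =>
    apply Subtype.ext
    have h1 : (((QuotientGroup.mk σ : L.Gal) • x : L.F) : Qbar) = σ (x : Qbar) :=
      level_mk_smul L σ x
    have h2 := level_mk_smul L' σ (@algebraMap L.F L'.F _ _ (levelAlgebra h) x)
    rw [levelAlgebra_apply] at h2
    rw [h2, levelAlgebra_apply]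
    exact h1

/-- Extension of divisors along `L ≤ L'`. -/
def divTr (h : L ≤ L') : (PrimeOut S L.F →₀ ℤ) →+ (PrimeOut S L'.F →₀ ℤ) :=
  @divExt S L.F L'.F _ _ _ _ (levelAlgebra h)

lemma divTr_equivariant (h : L ≤ L') (g : L'.Gal) (d : PrimeOut S L.F →₀ ℤ) :
    divTr h (divRepr S L.Gal L.F (Level.proj h g) d) = divRepr S L'.Gal L'.F g (divTr h d) :=
  @divExt_equivariant S L.F L'.F _ _ _ _ (levelAlgebra h) L.Gal L'.Gal _ _ _ _
    (Level.proj h) (levelAlgebra_smul h) g d

lemma toField_trUnits (h : L ≤ L') (x : L.units.V) :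
    toField L' ((Level.trUnits h).hom x) = @lMap L.F L'.F _ _ (levelAlgebra h) (toField L x) := by
  apply Additive.toMul.injective
  apply Units.ext
  apply Subtype.ext
  rw [coe_toField]
  have h1 : ((((@lMap L.F L'.F _ _ (levelAlgebra h) (toField L x)).toMul : (L'.F)ˣ) : L'.F) : Qbar)
      = ((((toField L x).toMul : (L.F)ˣ) : L.F) : Qbar) := rfl
  rw [h1, coe_toField]
  rfl

/-- The divisor maps are compatible with the transition maps. -/
lemma divTr_divT (h : L ≤ L') (x : L.units.V) :
    divTr h (divT L x) = divT L' ((Level.trUnits h).hom x) := by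
  show divTr h (ordHom S L.F (toField L x)) = ordHom S L'.F (toField L' ((Level.trUnits h).hom x))
  rw [toField_trUnits]
  exact @divExt_ordHom S L.F L'.F _ _ _ _ (levelAlgebra h) (toField L x)

/-- The diagonal maps are compatible with the transition maps. -/
lemma trJ_diag (h : L ≤ L') (q : Nat.Primes) (x : L.units.V) :
    (Level.trJ h q).hom ((L.diag q).hom x) = (L'.diag q).hom ((Level.trUnits h).hom x) := by
  apply L'.J_ext q
  intro g
  induction g using QuotientGroup.induction_on with
  | H g => rfl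

/-- The transition map on `∏_{q ∈ S} J_q × Div^S`. -/
def trJD (h : L ≤ L') : JDV L →+ JDV L' where
  toFun y := (fun q => (Level.trJ h q.1).hom (y.1 q), divTr h y.2)
  map_zero' := by
    refine Prod.ext (funext fun q => ?_) ?_
    · exact map_zero (Level.trJ h q.1).hom
    · exact map_zero (divTr h)
  map_add' y y' := by
    refine Prod.ext (funext fun q => ?_) ?_
    · exact map_add (Level.trJ h q.1).hom (y.1 q) (y'.1 q)
    · exact map_add (divTr h) y.2 y'.2

lemma trJD_diagT (h : L ≤ L') (x : L.units.V) :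
    trJD h (diagT L x) = diagT L' ((Level.trUnits h).hom x) :=
  Prod.ext (funext fun q => trJ_diag h q.1 x) (divTr_divT h x)

lemma trJD_equivariant (h : L ≤ L') (g : L'.Gal) (y : JDV L) :
    trJD h (jdRepr L (Level.proj h g) y) = jdRepr L' g (trJD h y) :=
  Prod.ext (funext fun q => Rep.hom_comm_apply (Level.trJ h q.1) g (y.1 q))
    (divTr_equivariant h g y.2)

/-- **The transition map** `C(L) → C(L')` for `L ≤ L'`. -/
def trT (h : L ≤ L') : Rep.res (Level.proj h) (CT L) ⟶ CT L' :=
  Rep.ofHom
    { toLinearMap := (princ L).mapQ (princ L') (trJD h).toIntLinearMap (by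
        rintro _ ⟨x, rfl⟩
        exact ⟨(Level.trUnits h).hom x, (trJD_diagT h x).symm⟩)
      isIntertwining' := fun g => by
        refine LinearMap.ext fun c => ?_
        obtain ⟨y, rfl⟩ := mkC_surjective L c
        exact congrArg (mkC L') (trJD_equivariant h g y) }

lemma trT_mkC (h : L ≤ L') (y : JDV L) : (trT h).hom (mkC L y) = mkC L' (trJD h y) := rfl

/-! ### The datum -/

variable (S)

/-- The fundamental class at `p`: any `γ` making `(C(L), γ)` a class module at `p`, if one
exists (and `0` otherwise). -/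
def gammaT (p : ℕ) (L : Level S) : groupCohomology (CT L) 2 :=
  open Classical in
  if h : ∃ γ : groupCohomology (CT L) 2, E1.IsClassModuleAt p (CT L) γ then h.choose else 0

lemma gammaT_spec (p : ℕ) (L : Level S)
    (h : ∃ γ : groupCohomology (CT L) 2, E1.IsClassModuleAt p (CT L) γ) :
    E1.IsClassModuleAt p (CT L) (gammaT S p L) := by
  unfold gammaT
  rw [dif_pos h]
  exact h.choose_spec

/-- **THE CONCRETE TOWER DATUM.** -/
def datum (p : ℕ) : TowerDatum S where
  C := fun L => CT L
  γ := fun L => gammaT S p L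
  j := fun L q => jT L q
  tr := fun h => trT h

@[simp] lemma datum_C (p : ℕ) (L : Level S) : (datum S p).C L = CT L := rfl
@[simp] lemma datum_j (p : ℕ) (L : Level S) (q : Nat.Primes) : (datum S p).j L q = jT L q := rfl
@[simp] lemma datum_tr (p : ℕ) {L L' : Level S} (h : L ≤ L') : (datum S p).tr h = trT h := rfl
@[simp] lemma datum_γ (p : ℕ) (L : Level S) : (datum S p).γ L = gammaT S p L := rfl

end

end Fermat.Agent.S55.GAD
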