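/-
S55 / G-ADAPTER (sub-architect helper955): LEAF SPECS for the concrete tower datum
`GAD.datum S p` (`GAD/Defs.lean`).  Only `def XxxSpec : Prop`; no `sorry`.
Producers prove `theorem xxx : XxxSpec S p`; the assembly `GAD/Assembly.lean` proves
`globalSpecMu_of : (all leaf specs) → Tow.GlobalSpecMu S p`.
Blueprint + owners: coord/S55-E1-GAD.md (origin/helper955 and main).
-/
import Fermat.Agent.S55.GAD.Defs

set_option autoImplicit false

open CategoryTheory

namespace Fermat.Agent.S55.GAD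

open Fermat.Agent.S55 Fermat.Agent.S55.Tow Fermat.Agent.S55.E1.H594 Fermat.Agent.S55.G

noncomputable section

variable (S : Finset Nat.Primes) (p : ℕ)

/-- **GAD-SU (dictionary of `S`-units).**  `x ∈ Fˣ` has trivial divisor outside `S`
(`ord_w x = 0` for all primes `w` of `𝓞_F` not above `S`, layer-G language) iff it is an `S`-unit
in the tower's sense (unit at every valuation subring of `ℚ̄` over a prime `ℓ ∉ S`). -/
def SUnitDictSpec : Prop :=
  ∀ (L : Level S) (e : L.units.V), divT L e = 0 ↔ L.IsSUnit e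

/-- **GAD-7b (transitivity of the extension of divisors)**, i.e. multiplicativity of the
ramification index in towers `L ≤ L' ≤ L''`. -/
def DivTrTransSpec : Prop :=
  ∀ {L L' L'' : Level S} (h : L ≤ L') (h' : L' ≤ L'') (d : PrimeOut S L.F →₀ ℤ),
    divTr h' (divTr h d) = divTr (h.trans h') d

/-- **GAD-CAP (capitulation).**  If `p^a • d` is the divisor (outside `S`) of some `x ∈ Fˣ`, then
`d` becomes principal in some level `F' ≥ F`.
(helper893: `F' ∋ x^{1/p^a}` and its conjugates, `μ_{p^a}`; `p ∈ S`.) -/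
def CapitulationSpec : Prop :=
  ∀ (L : Level S) (d : PrimeOut S L.F →₀ ℤ) (a : ℕ) (x : L.units.V), divT L x = p ^ a • d →
    ∃ (L' : Level S) (h : L ≤ L') (z : L'.units.V), divT L' z = divTr h d

/-- **GAD-EX (existence theorem mod `p`) = gd6** for the concrete datum. -/
def ExistenceSpec : Prop :=
  ∀ L₀ : Level S, L₀.HasMu p → ∃ L₁ : Level S, L₀ ≤ L₁ ∧
    ∀ (L : Level S) (h : L₀ ≤ L), L₁ ≤ L →
      @E1.NormInP p L.Gal _ (Level.relGal h) (Fintype.ofFinite _) (CT L)

/-- **GAD-CM (class module at `p`) = gd1** for the concrete datum (existence of `γ`). -/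
def ClassModuleSpec : Prop :=
  ∀ L : Level S, L.HasMu p →
    ∃ γ : groupCohomology (CT L) 2, E1.IsClassModuleAt p (CT L) γ

/-- **GAD-J = gd3** for the concrete datum: `(j_q)_*` is injective on the `p`-torsion of
`H²(Gal(L/ℚ), J_q(L))`, `q ∈ S`, `L ⊇ μ_p`. -/
def JInjSpec : Prop :=
  ∀ L : Level S, L.HasMu p → ∀ q : Nat.Primes, q ∈ S → ∀ y : groupCohomology (L.J q) 2,
    p • y = 0 → (T.coeffMap (jT L q) 2).hom y = 0 → y = 0

/-- **GAD-INF = gd8** for the concrete datum: inflation
`H²(Gal(L/ℚ), C(L)) → H²(Gal(L'/ℚ), C(L'))` is injective on `p`-torsion, `L ⊇ μ_p`. -/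
def InfInjSpec : Prop :=
  ∀ {L L' : Level S} (h : L ≤ L'), L.HasMu p → ∀ z : groupCohomology (CT L) 2,
    p • z = 0 → (groupCohomology.map (Level.proj h) (trT h) 2).hom z = 0 → z = 0

end

end Fermat.Agent.S55.GAD
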