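/-
S55 / G-ADAPTER (helper955): **GAD-ISO** — the comparison isomorphism
`isoC L : G.CRep S L.Gal L.F ≅ GAD.CT L` between the layer-G `S`-idèle class module
`(J_S(F) × Div^S(F)) / Fˣ`, `J_S(F) = (F ⊗ ℚ_S)ˣ`, and the class module of the concrete tower
datum `(∏_{q ∈ S} J_q(F) × Div^S(F)) / Fˣ`, `J_q(F) = Coind_{D_q} F_qˣ`.
Built on helper897's J-bridge (`G/LocH897/TowJ*.lean`).
-/
import Fermat.Agent.S55.GAD.Defs
import Fermat.Agent.S55.G.LocH897.TowJCompat
import Fermat.Agent.S55.G.DescH773.Base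

set_option autoImplicit false
set_option linter.unusedSectionVars false

open CategoryTheory

namespace Fermat.Agent.S55.GAD

open Fermat.Agent.S55 Fermat.Agent.S55.Tow Fermat.Agent.S55.G Fermat.Agent.S55.G.LocH897
open scoped Fermat.Agent.S55.E1.H594

noncomputable section

variable {S : Finset Nat.Primes} (L : Level S)

/-! ### The isomorphism on `J × Div` -/

/-- `J_S(F) × Div^S(F) ≃ ∏_{q ∈ S} J_q(F) × Div^S(F)`. -/
def jdLinEquiv : G.JD S L.F ≃ₗ[ℤ] JDV L :=
  LinearEquiv.prodCongr (jEquiv L) (LinearEquiv.refl ℤ (PrimeOut S L.F →₀ ℤ))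

lemma jdLinEquiv_fst (y : G.JD S L.F) (q : S) : (jdLinEquiv L y).1 q = (jTow L q).hom y.1 := rfl

lemma jdLinEquiv_snd (y : G.JD S L.F) : (jdLinEquiv L y).2 = y.2 := rfl

lemma jdLinEquiv_equivariant (g : L.Gal) (y : G.JD S L.F) :
    jdLinEquiv L (G.jdRepr S L.Gal L.F g y) = jdRepr L g (jdLinEquiv L y) :=
  Prod.ext (funext fun q => jAll_ρ L g y.1 q) rfl

lemma toField_levelUnitsIso (u : Additive (L.F)ˣ) :
    toField L ((E1.H594.levelUnitsIso L).hom.hom u) = u :=
  Rep.inv_hom_apply _ _ (E1.H594.levelUnitsIso L) u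

lemma levelUnitsIso_toField (x : L.units.V) :
    (E1.H594.levelUnitsIso L).hom.hom (toField L x) = x :=
  Rep.hom_inv_apply _ _ (E1.H594.levelUnitsIso L) x

/-- The comparison is compatible with the diagonal embeddings of `Fˣ`. -/
lemma jdLinEquiv_diagHom (u : Additive (L.F)ˣ) :
    jdLinEquiv L (G.diagHom S L.F u) = diagT L ((E1.H594.levelUnitsIso L).hom.hom u) := by
  refine Prod.ext (funext fun q => ?_) ?_
  · exact jTow_unitsDiag L q u
  · show ordHom S L.F u = ordHom S L.F (toField L ((E1.H594.levelUnitsIso L).hom.hom u))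
    rw [toField_levelUnitsIso]

lemma jdLinEquiv_diagT (x : L.units.V) :
    jdLinEquiv L (G.diagHom S L.F (toField L x)) = diagT L x := by
  rw [jdLinEquiv_diagHom, levelUnitsIso_toField]

lemma map_principal :
    (G.principal S L.F).map (jdLinEquiv L : G.JD S L.F →ₗ[ℤ] JDV L) = princ L := by
  apply le_antisymm
  · rintro _ ⟨_, ⟨u, rfl⟩, rfl⟩
    exact ⟨_, (jdLinEquiv_diagHom L u).symm⟩
  · rintro _ ⟨x, rfl⟩
    exact ⟨_, ⟨toField L x, rfl⟩, jdLinEquiv_diagT L x⟩

/-! ### The isomorphism on class modules -/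

/-- `C_S(F) ≃ C(L)` on underlying groups. -/
def cLinEquiv : G.CS S L.F ≃ₗ[ℤ] (CT L).V :=
  Submodule.Quotient.equiv (G.principal S L.F) (princ L) (jdLinEquiv L) (map_principal L)

lemma cLinEquiv_mk (y : G.JD S L.F) :
    cLinEquiv L (Submodule.Quotient.mk y) = mkC L (jdLinEquiv L y) := rfl

lemma cLinEquiv_equivariant (g : L.Gal) (c : G.CS S L.F) :
    cLinEquiv L (G.cRepr S L.Gal L.F g c) = (CT L).ρ g (cLinEquiv L c) := by
  obtain ⟨y, rfl⟩ := Submodule.Quotient.mk_surjective _ c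
  exact congrArg (mkC L) (jdLinEquiv_equivariant L g y)

/-- **GAD-ISO.**  The comparison isomorphism `C_S(F) ≅ C(L)` in `Rep ℤ Gal(F/ℚ)`. -/
def isoC : G.CRep S L.Gal L.F ≅ CT L :=
  Rep.mkIso (Representation.Equiv.mk (cLinEquiv L)
    (fun g => LinearMap.ext fun c => cLinEquiv_equivariant L g c))

lemma isoC_hom_apply (c : G.CS S L.F) : (isoC L).hom.hom c = cLinEquiv L c := rfl

lemma isoC_hom_mk (y : G.JD S L.F) :
    (isoC L).hom.hom (Submodule.Quotient.mk y) = mkC L (jdLinEquiv L y) := rfl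

lemma isoC_inv_mkC (y : G.JD S L.F) :
    (isoC L).inv.hom (mkC L (jdLinEquiv L y)) = Submodule.Quotient.mk y := by
  rw [← isoC_hom_mk]
  exact Rep.inv_hom_apply _ _ (isoC L) _

/-- The comparison isomorphism on `J × Div`, in `Rep ℤ Gal(F/ℚ)`. -/
def isoJD : G.JDRep S L.Gal L.F ≅ Rep.of (jdRepr L) :=
  Rep.mkIso (Representation.Equiv.mk (jdLinEquiv L)
    (fun g => LinearMap.ext fun y => jdLinEquiv_equivariant L g y))

lemma isoJD_hom_apply (y : G.JD S L.F) : (isoJD L).hom.hom y = jdLinEquiv L y := rfl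

/-- The comparison isomorphisms commute with the quotient maps. -/
lemma quotRepHom_isoC :
    G.quotRepHom S L.Gal L.F ≫ (isoC L).hom = (isoJD L).hom ≫ mkCHom L := by
  ext y
  rfl

/-! ### Compatibility with the maps `j_q` -/

/-- The class of an `S`-idèle `b` corresponds to `∑_q j_q (b_q)`. -/
lemma isoC_jToC (b : (G.JRep L.Gal S L.F).V) :
    (isoC L).hom.hom ((G.jToCRepHom S L.Gal L.F).hom b) =
      ∑ q : S, (jT L q.1).hom ((jTow L q).hom b) := by
  rw [sum_jT]
  rfl

/-- `j_q` of the concrete datum is the inclusion of the `q`-component of `J_S(F)` followed by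
`J_S(F) → C_S(F) ≅ C(L)`. -/
lemma jTowInv_jToC_isoC (q : S) :
    jTowInv L q ≫ G.jToCRepHom S L.Gal L.F ≫ (isoC L).hom = jT L q.1 := by
  ext x
  show (isoC L).hom.hom ((G.jToCRepHom S L.Gal L.F).hom ((jTowInv L q).hom x)) = (jT L q.1).hom x
  rw [isoC_jToC]
  classical
  rw [Finset.sum_eq_single q]
  · rw [jTow_jTowInv_same]
  · intro q' _ hq'
    rw [jTow_jTowInv_ne L q hq', map_zero]
  · intro hq
    exact absurd (Finset.mem_univ q) hq

lemma jT_comp_isoC_inv (q : S) :
    jT L q.1 ≫ (isoC L).inv = jTowInv L q ≫ G.jToCRepHom S L.Gal L.F := by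
  rw [← jTowInv_jToC_isoC, Category.assoc, Category.assoc, Iso.hom_inv_id, Category.comp_id]

/-! ### Compatibility with the transition maps -/

section Transition

variable {L} {L' : Level S} (h : L ≤ L')

/-- The two `Algebra L.F L'.F` structures in use (helper594's and `GAD`'s) coincide. -/
lemma levelAlgebra_eq_h594 : GAD.levelAlgebra h = E1.H594.levelAlgebra h := rfl

/-- `GAD.divTr` is helper773's base change of divisors `G.DescH773.divBase`. -/
lemma divTr_eq_divBase (d : PrimeOut S L.F →₀ ℤ) :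
    divTr h d = @DescH773.divBase S L.F L'.F _ _ _ _ (E1.H594.levelAlgebra h) d := by
  ext w
  rfl

/-- `G.jMap` is helper773's `jBase`. -/
lemma jMap_eq_jBase (b : Additive (AS S L.F)ˣ) :
    @G.jMap S L.F L'.F _ _ _ _ (E1.H594.levelAlgebra h) b =
      @DescH773.jBase S L.F L'.F _ _ _ _ (E1.H594.levelAlgebra h) b := rfl

lemma jdLinEquiv_jdBase (y : G.JD S L.F) :
    jdLinEquiv L' (@DescH773.jdBase S L.F L'.F _ _ _ _ (E1.H594.levelAlgebra h) y) =
      trJD h (jdLinEquiv L y) := by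
  refine Prod.ext (funext fun q => ?_) ?_
  · exact jTow_jMap h q y.1
  · exact (divTr_eq_divBase h y.2).symm

/-- **The comparison isomorphisms intertwine** helper773's base change `C_S(F) → C_S(F')`
(`G.DescH773.cBase`) **with the transition map** `trT h` of the concrete datum. -/
theorem isoC_cBase (c : G.CS S L.F) :
    (isoC L').hom.hom (@DescH773.cBase S L.F L'.F _ _ _ _ (E1.H594.levelAlgebra h) c) =
      (trT h).hom ((isoC L).hom.hom c) := by
  obtain ⟨y, rfl⟩ := Submodule.Quotient.mk_surjective _ c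
  exact congrArg (mkC L') (jdLinEquiv_jdBase h y)

/-- The base change `C_S(F) → C_S(F')` as a morphism `Res (C_S(F)) ⟶ C_S(F')` of
`Rep ℤ Gal(F'/ℚ)`, by transport of `trT h`. -/
def cTrG : Rep.res (Level.proj h) (G.CRep S L.Gal L.F) ⟶ G.CRep S L'.Gal L'.F :=
  (Rep.resFunctor (Level.proj h)).map (isoC L).hom ≫ trT h ≫ (isoC L').inv

lemma cTrG_apply (c : G.CS S L.F) :
    (cTrG h).hom c = @DescH773.cBase S L.F L'.F _ _ _ _ (E1.H594.levelAlgebra h) c := by
  show (isoC L').inv.hom ((trT h).hom ((isoC L).hom.hom c)) = _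
  rw [← isoC_cBase]
  exact Rep.inv_hom_apply _ _ (isoC L') _

lemma cTrG_comp_isoC :
    cTrG h ≫ (isoC L').hom = (Rep.resFunctor (Level.proj h)).map (isoC L).hom ≫ trT h := by
  rw [cTrG, Category.assoc, Category.assoc, Iso.inv_hom_id, Category.comp_id]

end Transition

end

end Fermat.Agent.S55.GAD
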