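/-
S55 / G-ADAPTER (helper955): **transport along the comparison isomorphism** `isoC`.
The leaf specs GAD-EX / GAD-CM / GAD-J / GAD-INF of `GAD/Spec.lean` are about the concrete class
module `GAD.CT L`; here they are reduced to the SAME statements about the layer-G class module
`G.CRep S L.Gal L.F` (the language of the REC / EXIST producers).
-/
import Fermat.Agent.S55.GAD.Iso
import Fermat.Agent.S55.GAD.Spec

set_option autoImplicit false
set_option linter.unusedSectionVars false

open CategoryTheory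

namespace Fermat.Agent.S55.GAD

open Fermat.Agent.S55 Fermat.Agent.S55.Tow Fermat.Agent.S55.G Fermat.Agent.S55.G.LocH897
open scoped Fermat.Agent.S55.E1.H594

noncomputable section

/-! ### Generic transport lemmas -/

section Generic

variable {G : Type} [Group G]

/-- `NormInP` is invariant under isomorphism of the module. -/
theorem normInP_of_iso (p : ℕ) (H : Subgroup G) [Fintype H] {C C' : Rep.{0} ℤ G} (e : C ≅ C')
    (hC : E1.NormInP p H C) : E1.NormInP p H C' := by
  intro c'
  obtain ⟨c₀, hinv, hsum⟩ := hC (e.inv.hom c')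
  refine ⟨e.hom.hom c₀, fun h hh => ?_, ?_⟩
  · rw [← Rep.hom_comm_apply, hinv h hh]
  · have h1 : ∀ h : H, C'.ρ (h : G) c' = e.hom.hom (C.ρ (h : G) (e.inv.hom c')) := by
      intro h
      rw [Rep.hom_comm_apply, Rep.hom_inv_apply]
    simp only [h1]
    rw [← map_sum, hsum, map_nsmul]

/-- Restriction to a subgroup commutes with change of coefficients. -/
theorem resMap_coeffMap {C C' : Rep.{0} ℤ G} (f : C ⟶ C') (H : Subgroup G) (n : ℕ) :
    T.coeffMap f n ≫ T.resMap C' H n =
      T.resMap C H n ≫ T.coeffMap ((Rep.resFunctor H.subtype).map f) n := by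
  rw [← groupCohomology.map_comp, ← groupCohomology.map_comp]
  exact groupCohomology.map_congr rfl rfl n

theorem resMap_coeffMap_apply {C C' : Rep.{0} ℤ G} (f : C ⟶ C') (H : Subgroup G) (n : ℕ)
    (x : groupCohomology C n) :
    (T.resMap C' H n).hom ((T.coeffMap f n).hom x) =
      (T.coeffMap ((Rep.resFunctor H.subtype).map f) n).hom ((T.resMap C H n).hom x) := by
  have := congrArg (fun φ => φ.hom x) (resMap_coeffMap f H n)
  exact this

/-- The isomorphism on the cohomology of a subgroup induced by an isomorphism of modules. -/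
def subCohIso {C C' : Rep.{0} ℤ G} (e : C ≅ C') (H : Subgroup G) (n : ℕ) :
    groupCohomology (T.resSub C H) n ≅ groupCohomology (T.resSub C' H) n :=
  (groupCohomology.functor ℤ H n).mapIso ((Rep.resFunctor H.subtype).mapIso e)

lemma subCohIso_hom {C C' : Rep.{0} ℤ G} (e : C ≅ C') (H : Subgroup G) (n : ℕ) :
    (subCohIso e H n).hom = T.coeffMap ((Rep.resFunctor H.subtype).map e.hom) n := rfl

/-- Class modules at `p` are transported along isomorphisms. -/
theorem isClassModuleAt_of_iso [Finite G] (p : ℕ) {C C' : Rep.{0} ℤ G} (e : C ≅ C')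
    (γ : groupCohomology C 2) (hγ : E1.IsClassModuleAt p C γ) :
    E1.IsClassModuleAt p C' ((T.coeffMap e.hom 2).hom γ) := by
  intro H hH
  obtain ⟨h1, h2, h3⟩ := hγ H hH
  refine ⟨Limits.IsZero.of_iso h1 (subCohIso e H 1).symm, ?_, ?_⟩
  · rw [← h2]
    exact Nat.card_congr (subCohIso e H 2).symm.toLinearEquiv.toEquiv
  · intro x'
    obtain ⟨n, hn⟩ := h3 ((subCohIso e H 2).inv.hom x')
    refine ⟨n, ?_⟩
    have hx : x' = (subCohIso e H 2).hom.hom ((subCohIso e H 2).inv.hom x') := by
      rw [← ModuleCat.comp_apply, Iso.inv_hom_id]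
      rfl
    rw [hx, hn, map_nsmul, resMap_coeffMap_apply]
    rfl

theorem exists_isClassModuleAt_of_iso [Finite G] (p : ℕ) {C C' : Rep.{0} ℤ G} (e : C ≅ C')
    (h : ∃ γ : groupCohomology C 2, E1.IsClassModuleAt p C γ) :
    ∃ γ' : groupCohomology C' 2, E1.IsClassModuleAt p C' γ' := by
  obtain ⟨γ, hγ⟩ := h
  exact ⟨_, isClassModuleAt_of_iso p e γ hγ⟩

/-- Change of coefficients along an isomorphism is injective. -/
theorem coeffMap_iso_injective {C C' : Rep.{0} ℤ G} (e : C ≅ C') (n : ℕ) :
    Function.Injective (T.coeffMap e.hom n).hom := by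
  intro x y hxy
  have h := congrArg (T.coeffMap e.inv n).hom hxy
  have hc : T.coeffMap e.hom n ≫ T.coeffMap e.inv n = 𝟙 _ := by
    rw [← groupCohomology.map_id_comp, Iso.hom_inv_id]
    exact groupCohomology.map_id n
  have hx : ∀ z, (T.coeffMap e.inv n).hom ((T.coeffMap e.hom n).hom z) = z := fun z => by
    rw [← ModuleCat.comp_apply, hc]
    rfl
  rwa [hx, hx] at h

theorem coeffMap_comp_apply' {A B C : Rep.{0} ℤ G} (f : A ⟶ B) (g : B ⟶ C) (n : ℕ)
    (x : groupCohomology A n) :
    (T.coeffMap (f ≫ g) n).hom x = (T.coeffMap g n).hom ((T.coeffMap f n).hom x) := by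
  have h : T.coeffMap (f ≫ g) n = T.coeffMap f n ≫ T.coeffMap g n :=
    groupCohomology.map_id_comp f g n
  rw [h]
  rfl

end Generic

/-! ### The leaf specs in layer-G language -/

variable (S : Finset Nat.Primes) (p : ℕ)

/-- **GAD-EX in layer-G language**: gd6 for `C_S(F) = G.CRep S Gal(F/ℚ) F`. -/
def ExistenceSpecG : Prop :=
  ∀ L₀ : Level S, L₀.HasMu p → ∃ L₁ : Level S, L₀ ≤ L₁ ∧
    ∀ (L : Level S) (h : L₀ ≤ L), L₁ ≤ L →
      @E1.NormInP p L.Gal _ (Level.relGal h) (Fintype.ofFinite _) (G.CRep S L.Gal L.F)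

theorem existenceSpec_of_G (h : ExistenceSpecG S p) : ExistenceSpec S p := by
  intro L₀ hμ
  obtain ⟨L₁, h01, hL⟩ := h L₀ hμ
  refine ⟨L₁, h01, fun L h0 h1 => ?_⟩
  let _ : Fintype (Level.relGal h0) := Fintype.ofFinite _
  exact normInP_of_iso p (Level.relGal h0) (isoC L) (hL L h0 h1)

/-- **GAD-CM in layer-G language**: gd1 for `C_S(F)`. -/
def ClassModuleSpecG : Prop :=
  ∀ L : Level S, L.HasMu p →
    ∃ γ : groupCohomology (G.CRep S L.Gal L.F) 2, E1.IsClassModuleAt p (G.CRep S L.Gal L.F) γ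

theorem classModuleSpec_of_G (h : ClassModuleSpecG S p) : ClassModuleSpec S p :=
  fun L hμ => exists_isClassModuleAt_of_iso p (isoC L) (h L hμ)

/-- **GAD-J in layer-G language**: gd3 for `J_q(F) → J_S(F) → C_S(F)`
(`jTowInv` = helper897's inclusion of the `q`-component). -/
def JInjSpecG : Prop :=
  ∀ L : Level S, L.HasMu p → ∀ q : S, ∀ y : groupCohomology (L.J q.1) 2,
    p • y = 0 → (T.coeffMap (jTowInv L q ≫ G.jToCRepHom S L.Gal L.F) 2).hom y = 0 → y = 0

theorem jInjSpec_of_G (h : JInjSpecG S p) : JInjSpec S p := by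
  intro L hμ q hq y hy hy0
  refine h L hμ ⟨q, hq⟩ y hy ?_
  rw [← jT_comp_isoC_inv L ⟨q, hq⟩, coeffMap_comp_apply', hy0, map_zero]

/-- **GAD-INF in layer-G language**: gd8 for the base change `C_S(F) → C_S(F')`
(`cTrG h`, whose underlying map is helper773's `G.DescH773.cBase`, see `cTrG_apply`). -/
def InfInjSpecG : Prop :=
  ∀ {L L' : Level S} (h : L ≤ L'), L.HasMu p → ∀ z : groupCohomology (G.CRep S L.Gal L.F) 2,
    p • z = 0 → (groupCohomology.map (Level.proj h) (cTrG h) 2).hom z = 0 → z = 0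

variable {S} in
/-- Inflation commutes with the comparison isomorphisms. -/
theorem map_cTrG_coeffMap {L L' : Level S} (h : L ≤ L') (n : ℕ) :
    T.coeffMap (isoC L).hom n ≫ groupCohomology.map (Level.proj h) (trT h) n =
      groupCohomology.map (Level.proj h) (cTrG h) n ≫ T.coeffMap (isoC L').hom n := by
  rw [← groupCohomology.map_comp, ← groupCohomology.map_comp]
  refine groupCohomology.map_congr rfl ?_ n
  exact congrArg (fun f => (Rep.Hom.hom f).toLinearMap) (cTrG_comp_isoC h).symm

theorem infInjSpec_of_G (h : InfInjSpecG S p) : InfInjSpec S p := by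
  intro L L' hLL hμ z hz hz0
  have hz' : z = (T.coeffMap (isoC L).hom 2).hom ((T.coeffMap (isoC L).inv 2).hom z) := by
    rw [← coeffMap_comp_apply', Iso.inv_hom_id]
    exact (congrArg (fun φ => φ.hom z) (groupCohomology.map_id (B := CT L) 2)).symm
  set z₀ := (T.coeffMap (isoC L).inv 2).hom z with hz₀
  have h1 : p • z₀ = 0 := by rw [hz₀, ← map_nsmul, hz, map_zero]
  have h2 : (groupCohomology.map (Level.proj hLL) (cTrG hLL) 2).hom z₀ = 0 := by
    apply coeffMap_iso_injective (isoC L') 2
    have := congrArg (fun φ => φ.hom z₀) (map_cTrG_coeffMap hLL 2)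
    rw [map_zero]
    refine Eq.trans this.symm ?_
    show (groupCohomology.map (Level.proj hLL) (trT hLL) 2).hom
      ((T.coeffMap (isoC L).hom 2).hom z₀) = 0
    rw [← hz', hz0]
  rw [hz', h hLL hμ z₀ h1 h2, map_zero]

end

end Fermat.Agent.S55.GAD
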