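import Fermat.Agent.S55.G.Exist121.Tow
import Fermat.Agent.S55.G.Exist121.Main
import Fermat.Agent.S55.GAD.Transport

/-!
# S55 / G-ADAPTER, leaf GAD-EX (gd6): the existence theorem mod `p` for the tower datum

Author: helper121.  `p` an odd prime, `p ∈ S`.

* `existenceSpecG_of_core : ExistCoreSpec → GAD.ExistenceSpecG S p`  (layer-G language);
* `existenceSpec_of_core : ExistCoreSpec → GAD.ExistenceSpec S p`  (concrete datum `CT L`);
* **`existenceSpec_of_classModule : G.PClassModuleSpec → GAD.ExistenceSpec S p`**: gd6 is closed
  modulo the reciprocity input `PClassModuleSpec` (layer G, block REC).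

No descent hypothesis is needed (transitivity of norms is done in layer-G language,
`Exist121.norm_in_p_trans`, with helper773's descent).
-/

set_option autoImplicit false

noncomputable section

namespace Fermat.Agent.S55.GAD.H121

open Fermat.Agent.S55 Fermat.Agent.S55.Tow Fermat.Agent.S55.G

variable (S : Finset Nat.Primes) (p : ℕ) [hp : Fact p.Prime]

/-- gd6 in layer-G language from the finite-level existence theorem. -/
theorem existenceSpecG_of_core (hp2 : p ≠ 2) (hpS : (⟨p, hp.out⟩ : Nat.Primes) ∈ S)
    (hCore : Exist121.ExistCoreSpec) : GAD.ExistenceSpecG S p :=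
  Exist121.existenceG_of_core p hp2 hpS hCore

/-- gd6 for the concrete tower datum from the finite-level existence theorem. -/
theorem existenceSpec_of_core (hp2 : p ≠ 2) (hpS : (⟨p, hp.out⟩ : Nat.Primes) ∈ S)
    (hCore : Exist121.ExistCoreSpec) : GAD.ExistenceSpec S p :=
  GAD.existenceSpec_of_G S p (existenceSpecG_of_core S p hp2 hpS hCore)

/-- gd6 in layer-G language, modulo the class-module input of layer G. -/
theorem existenceSpecG_of_classModule (hp2 : p ≠ 2) (hpS : (⟨p, hp.out⟩ : Nat.Primes) ∈ S)
    (hCM : PClassModuleSpec) : GAD.ExistenceSpecG S p :=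
  existenceSpecG_of_core S p hp2 hpS (Exist121.existCore_of_classModule hCM)

/-- **gd6 for the concrete tower datum, modulo the class-module input of layer G.** -/
theorem existenceSpec_of_classModule (hp2 : p ≠ 2) (hpS : (⟨p, hp.out⟩ : Nat.Primes) ∈ S)
    (hCM : PClassModuleSpec) : GAD.ExistenceSpec S p :=
  existenceSpec_of_core S p hp2 hpS (Exist121.existCore_of_classModule hCM)

end Fermat.Agent.S55.GAD.H121
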