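import Fermat.Agent.S55.GAD.Spec
import Fermat.Agent.S55.Bridge.SUnitsDiv
import Fermat.Agent.S55.Bridge.SUnitDict

/-!
# S55 / G-ADAPTER, leaf GAD-CAP (helper57): capitulation (`gd5`)

`capitulation (hp : p.Prime) (hpS : ⟨p, hp⟩ ∈ S) : GAD.CapitulationSpec S p`.

If `p ^ a • d = div x` (divisor outside `S`) for some `x ∈ Fˣ`, pick `β ∈ ℚ̄` with
`β ^ (p ^ a) = x`.  At a place `A` of `ℚ̄` over `ℓ ∉ S` with prime `w = A ∩ 𝓞_F`, the element
`t = ϖ ^ (d w)` (`ϖ ∈ F` a uniformiser at `w`) satisfies `v_A(β) = v_A(t)`, so `β / t` is a unit at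
`A` whose `p ^ a`-th power lies in `F`; inertia at `A` fixes `F` and hence `β / t` (Kummer), so
`F(β)` is unramified outside `S`.  Its Galois closure is a level `F' ∋ β`, and
`p ^ a • div β = div x = p ^ a • divTr d` in the torsion-free group `Div^S(F')`.
-/

set_option autoImplicit false
set_option linter.unusedSectionVars false
set_option linter.style.haveILetI false

namespace Fermat.Agent.S55.GAD.H57

open Fermat.Agent.S55 Fermat.Agent.S55.Tow Fermat.Agent.S55.E1.H594 Fermat.Agent.S55.G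
open Fermat.Agent.S55.Bridge ExtCitation IntermediateField NumberField IsDedekindDomain

attribute [local instance] isAlgebraic_Qbar isGalois_Qbar

/-- **Kummer, non-unit form.**  `F(β)` is unramified outside `S ∋ p` if `β ^ n ∈ F`, `n` is a unit
at all places outside `S`, and at every place outside `S` the valuation of `β` is attained by a
nonzero element of `F`. -/
theorem isUnramifiedOutside_sup_adjoin_root_of_val (S : Finset Nat.Primes) {n : ℕ} (hn0 : n ≠ 0)
    (hn : ∀ q : Nat.Primes, q ∉ S → ∀ A : ValuationSubring (AlgebraicClosure ℚ),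
      A.LiesOverPrime (q : ℕ) → A.valuation (n : AlgebraicClosure ℚ) = 1)
    {F : IntermediateField ℚ (AlgebraicClosure ℚ)} (hF : F.IsUnramifiedOutside S)
    {β : AlgebraicClosure ℚ} (hβ : β ^ n ∈ F)
    (hval : ∀ q : Nat.Primes, q ∉ S → ∀ A : ValuationSubring (AlgebraicClosure ℚ),
      A.LiesOverPrime (q : ℕ) →
        ∃ t : AlgebraicClosure ℚ, t ∈ F ∧ t ≠ 0 ∧ A.valuation β = A.valuation t) :
    (F ⊔ ℚ⟮β⟯).IsUnramifiedOutside S := by
  haveI := hF.1
  haveI : FiniteDimensional ℚ ℚ⟮β⟯ :=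
    IntermediateField.adjoin.finiteDimensional (Algebra.IsIntegral.isIntegral β)
  refine ⟨IntermediateField.finiteDimensional_sup F ℚ⟮β⟯, fun q hq A hA σ hσ => ?_⟩
  have hσF : σ ∈ F.fixingSubgroup := hF.2 q hq A hA hσ
  rw [IntermediateField.fixingSubgroup_sup]
  refine ⟨hσF, ?_⟩
  show σ ∈ ℚ⟮β⟯.fixingSubgroup
  obtain ⟨t, htF, ht0, hvt⟩ := hval q hq A hA
  have hσt : σ t = t := (IntermediateField.mem_fixingSubgroup_iff F σ).1 hσF t htF
  have hvt0 : A.valuation t ≠ 0 := (Valuation.ne_zero_iff _).2 ht0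
  have hγv : A.valuation (β / t) = 1 := by
    rw [map_div₀, hvt, div_self hvt0]
  have hγF : (β / t) ^ n ∈ F := by
    rw [div_pow]
    exact F.div_mem hβ (pow_mem htF n)
  have hσγ : σ (β / t) = β / t :=
    kummer_unit_fixed_of_mem_inertia hn0 (hn q hq A hA) hσ
      ((IntermediateField.mem_fixingSubgroup_iff F σ).1 hσF _ hγF) hγv
  have hσβ : σ β = β := by
    have h1 : β = β / t * t := by field_simp
    rw [h1, map_mul, hσγ, hσt]
  rw [IntermediateField.mem_fixingSubgroup_iff]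
  intro x hx
  have hle : ℚ⟮β⟯ ≤ IntermediateField.fixedField (Subgroup.zpowers σ) := by
    rw [IntermediateField.adjoin_simple_le_iff]
    rintro ⟨τ, hτ⟩
    obtain ⟨k, rfl⟩ := Subgroup.mem_zpowers_iff.1 hτ
    show (σ ^ k) • β = β
    have hstab : σ ∈ MulAction.stabilizer (AlgebraicClosure ℚ ≃ₐ[ℚ] AlgebraicClosure ℚ) β :=
      MulAction.mem_stabilizer_iff.2 hσβ
    exact MulAction.mem_stabilizer_iff.1 (Subgroup.zpow_mem _ hstab k)
  exact hle hx ⟨σ, Subgroup.mem_zpowers σ⟩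


variable {S : Finset Nat.Primes}

/-- A place of `ℚ̄` over `ℓ ∉ S` induces a prime of `F` not above `S`. -/
theorem not_isAbove_placePrime (L : Level S) (q : Nat.Primes) (hq : q ∉ S)
    (A : ValuationSubring (AlgebraicClosure ℚ)) (hA : A.LiesOverPrime (q : ℕ)) :
    ¬ G.IsAbove S L.F (placePrime L.F A q.2 hA) := by
  rintro ⟨q', hq'S, hq'⟩
  have hq'' : ((q' : ℕ) : AlgebraicClosure ℚ) ∈ A.nonunits := by
    have := (Bridge.H594.mem_primeBelowF L.F A _).1 hq'
    rwa [map_natCast] at this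
  have hne : (q : ℕ) ≠ q' := by
    intro heq
    apply hq
    have : q = q' := Subtype.ext heq
    rw [this]
    exact hq'S
  have hv := val_prime_eq_one (A := A) hA q.2 q'.2 hne
  rw [ValuationSubring.mem_nonunits_iff, hv] at hq''
  exact lt_irrefl _ hq''

/-- If `div u = n • d` outside `S` and `β ^ n = u`, then at every place `A` of `ℚ̄` outside `S` the
valuation of `β` is attained by a nonzero element of `F`. -/
theorem exists_valuation_eq (L : Level S) (u : Additive (L.F)ˣ) (d : PrimeOut S L.F →₀ ℤ)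
    (n : ℕ) (hn : n ≠ 0) (hord : ∀ w : PrimeOut S L.F, ordAt w.1 u = (n : ℤ) * d w)
    (β : AlgebraicClosure ℚ) (hβ : β ^ n = (((u.toMul : (L.F)ˣ) : L.F) : AlgebraicClosure ℚ))
    (q : Nat.Primes) (hq : q ∉ S) (A : ValuationSubring (AlgebraicClosure ℚ))
    (hA : A.LiesOverPrime (q : ℕ)) :
    ∃ t : AlgebraicClosure ℚ, t ∈ L.F ∧ t ≠ 0 ∧ A.valuation β = A.valuation t := by
  set w : HeightOneSpectrum (𝓞 L.F) := placePrime L.F A q.2 hA with hw
  have hout : ¬ G.IsAbove S L.F w := not_isAbove_placePrime L q hq A hA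
  obtain ⟨ϖ, hϖ⟩ := w.valuation_exists_uniformizer L.F
  have hϖ0 : ϖ ≠ 0 := by
    rintro rfl
    rw [map_zero] at hϖ
    exact WithZero.exp_ne_zero hϖ.symm
  -- the element `t = ϖ ^ d(w)` of `F`
  let m : ℤ := d ⟨w, hout⟩
  let tu : (L.F)ˣ := (Units.mk0 ϖ hϖ0) ^ m
  have htu : w.valuation L.F (tu : L.F) = WithZero.exp (-m) := by
    show w.valuation L.F (((Units.mk0 ϖ hϖ0) ^ m : (L.F)ˣ) : L.F) = _
    rw [Units.val_zpow_eq_zpow_val, Units.val_mk0, map_zpow₀, hϖ, ← WithZero.exp_zsmul]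
    congr 1
    simp
  -- the unit `u / t ^ n` of `F` has valuation one at `w`
  let e : (L.F)ˣ := u.toMul / tu ^ n
  have he : w.valuation L.F (e : L.F) = 1 := by
    show w.valuation L.F ((u.toMul / tu ^ n : (L.F)ˣ) : L.F) = 1
    rw [Units.val_div_eq_div_val, Units.val_pow_eq_pow_val, map_div₀, map_pow, htu,
      G.valuation_eq_exp_neg_ordAt w u, hord ⟨w, hout⟩, ← WithZero.exp_nsmul, div_eq_one_iff_eq]
    · congr 1
      simp only [nsmul_eq_mul, m]
      ring
    · exact WithZero.exp_ne_zero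
  have heA := (unit_iff_valuation_eq_one L.F A q.2 hA e).2 he
  -- hence `β / t` is a unit at `A`
  have hEq : (((e : (L.F)ˣ) : L.F) : AlgebraicClosure ℚ) = (β / ((tu : L.F) : AlgebraicClosure ℚ)) ^ n := by
    rw [div_pow, hβ]
    show (((u.toMul / tu ^ n : (L.F)ˣ) : L.F) : AlgebraicClosure ℚ) = _
    rw [Units.val_div_eq_div_val, Units.val_pow_eq_pow_val]
    push_cast
    rfl
  have hvE : A.valuation (((e : (L.F)ˣ) : L.F) : AlgebraicClosure ℚ) = 1 := by
    have h1 : A.valuation (((e : (L.F)ˣ) : L.F) : AlgebraicClosure ℚ) ≤ 1 :=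
      (A.valuation_le_one_iff _).2 heA.1
    have h2 : A.valuation ((((e⁻¹ : (L.F)ˣ) : L.F) : AlgebraicClosure ℚ)) ≤ 1 :=
      (A.valuation_le_one_iff _).2 heA.2
    have h3 : A.valuation (((e : (L.F)ˣ) : L.F) : AlgebraicClosure ℚ)
        * A.valuation ((((e⁻¹ : (L.F)ˣ) : L.F) : AlgebraicClosure ℚ)) = 1 := by
      rw [← map_mul, ← IntermediateField.coe_mul, ← Units.val_mul, mul_inv_cancel, Units.val_one,
        IntermediateField.coe_one, map_one]
    refine le_antisymm h1 ?_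
    calc (1 : A.ValueGroup)
        = A.valuation (((e : (L.F)ˣ) : L.F) : AlgebraicClosure ℚ)
          * A.valuation ((((e⁻¹ : (L.F)ˣ) : L.F) : AlgebraicClosure ℚ)) := h3.symm
      _ ≤ A.valuation (((e : (L.F)ˣ) : L.F) : AlgebraicClosure ℚ) * 1 := by gcongr
      _ = A.valuation (((e : (L.F)ˣ) : L.F) : AlgebraicClosure ℚ) := mul_one _
  have hγ : A.valuation (β / ((tu : L.F) : AlgebraicClosure ℚ)) = 1 := by
    rw [hEq, map_pow] at hvE
    exact (pow_eq_one_iff.1 hvE).resolve_right hn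
  have ht0 : ((tu : L.F) : AlgebraicClosure ℚ) ≠ 0 := by
    intro h
    exact tu.ne_zero (Subtype.ext h)
  refine ⟨((tu : L.F) : AlgebraicClosure ℚ), (tu : L.F).2, ht0, ?_⟩
  have hvt0 : A.valuation ((tu : L.F) : AlgebraicClosure ℚ) ≠ 0 := (Valuation.ne_zero_iff _).2 ht0
  rw [map_div₀, div_eq_one_iff_eq hvt0] at hγ
  exact hγ


/-- **GAD-CAP (capitulation) = gd5 for the concrete datum.** -/
theorem capitulation (S : Finset Nat.Primes) (p : ℕ) (hp : p.Prime)
    (hpS : (⟨p, hp⟩ : Nat.Primes) ∈ S) : CapitulationSpec S p := by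
  intro L d a x hx
  have hn0 : p ^ a ≠ 0 := pow_ne_zero a hp.ne_zero
  -- the divisor of `x`
  have hord : ∀ w : PrimeOut S L.F, ordAt w.1 (toField L x) = ((p ^ a : ℕ) : ℤ) * d w := by
    intro w
    have h1 := DFunLike.congr_fun hx w
    have h2 : divT L x w = ordAt w.1 (toField L x) := rfl
    rw [h2] at h1
    rw [h1, Finsupp.smul_apply]
    simp
  -- a `p ^ a`-th root of `x`
  obtain ⟨β, hβ⟩ := IsAlgClosed.exists_pow_nat_eq
    ((((toField L x).toMul : (L.F)ˣ) : L.F) : AlgebraicClosure ℚ) (Nat.pos_of_ne_zero hn0)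
  have hβ0 : β ≠ 0 := by
    rintro rfl
    rw [zero_pow hn0] at hβ
    have h0 : (((toField L x).toMul : (L.F)ˣ) : L.F) = 0 := Subtype.ext hβ.symm
    exact ((toField L x).toMul : (L.F)ˣ).ne_zero h0
  -- the Kummer level
  have hnv : ∀ q : Nat.Primes, q ∉ S → ∀ A : ValuationSubring (AlgebraicClosure ℚ),
      A.LiesOverPrime (q : ℕ) → A.valuation ((p ^ a : ℕ) : AlgebraicClosure ℚ) = 1 := by
    intro q hq A hA
    have hqp : (q : ℕ) ≠ p := by
      intro h
      apply hq
      have : q = ⟨p, hp⟩ := Subtype.ext h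
      rw [this]
      exact hpS
    rw [Nat.cast_pow, map_pow, val_prime_eq_one (A := A) hA q.2 hp hqp, one_pow]
  have hK : (L.F ⊔ ℚ⟮β⟯).IsUnramifiedOutside S :=
    isUnramifiedOutside_sup_adjoin_root_of_val S hn0 hnv L.unram
      (by rw [hβ]; exact (((toField L x).toMul : (L.F)ˣ) : L.F).2)
      (fun q hq A hA => exists_valuation_eq L (toField L x) d (p ^ a) hn0 hord β hβ q hq A hA)
  obtain ⟨F', hF', hgal, hle⟩ := exists_galois_level_ge S _ hK
  let L' : Tow.Level S := ⟨F', hF', (InfiniteGalois.normal_iff_isGalois _).2 hgal⟩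
  have h : L ≤ L' := le_sup_left.trans hle
  have hβF' : β ∈ F' :=
    hle (le_sup_right (a := L.F) (IntermediateField.mem_adjoin_simple_self ℚ β))
  have hfix : ∀ g ∈ L'.U, Tow.unitsQbar.ρ g (Additive.ofMul (Units.mk0 β hβ0))
      = Additive.ofMul (Units.mk0 β hβ0) := by
    intro g hg
    apply Additive.toMul.injective
    apply Units.ext
    exact (IntermediateField.mem_fixingSubgroup_iff _ _).1 hg β hβF'
  let z : L'.units.V := L'.unitsMk (Additive.ofMul (Units.mk0 β hβ0)) hfix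
  -- `p ^ a • z = x` in `F'ˣ`
  have hz : (p ^ a) • z = (Level.trUnits h).hom x := by
    apply L'.unitsCoe_injective
    show (p ^ a) • (Additive.ofMul (Units.mk0 β hβ0) : Additive (AlgebraicClosure ℚ)ˣ)
      = L.unitsCoe x
    apply Additive.toMul.injective
    apply Units.ext
    show ((Units.mk0 β hβ0) ^ (p ^ a) : (AlgebraicClosure ℚ)ˣ).1 = levelInvVal L x
    rw [Units.val_pow_eq_pow_val, Units.val_mk0, hβ, coe_toField]
  refine ⟨L', h, z, ?_⟩
  have h1 : (p ^ a) • divT L' z = (p ^ a) • divTr h d := by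
    rw [← map_nsmul, hz, ← divTr_divT, hx, map_nsmul]
  ext w
  have h2 := DFunLike.congr_fun h1 w
  rw [Finsupp.smul_apply, Finsupp.smul_apply, nsmul_eq_mul, nsmul_eq_mul] at h2
  exact mul_left_cancel₀ (Nat.cast_ne_zero.2 hn0) h2

end Fermat.Agent.S55.GAD.H57
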