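/-
S55 / G-ADAPTER, leaf GAD-DESC (helper901), part 1: tower-side descent.
For levels `L ≤ L'` with `H = Level.relGal h = Gal(L'/L)`:
* `exists_inclUnits_eq` : `(L'ˣ)^H = Lˣ`;
* `exists_inclJ_eq`     : `J_q(L')^H = J_q(L)` (every `q`);
* injectivity of `inclUnits`, `inclLoc`, `inclJ`.
Sorry-free.
-/
import Fermat.Agent.S55.Spec.Tower3
import Fermat.Agent.S55.E1.H594.LevelProj

set_option autoImplicit false
set_option linter.unusedSectionVars false

namespace Fermat.Agent.S55.GAD.H901

open Fermat.Agent.S55 Fermat.Agent.S55.Tow Fermat.Agent.S55.E1.H594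

variable {S : Finset Nat.Primes} {L L' : Level S} (h : L ≤ L')

/-! ## Units -/

theorem inclUnits_injective : Function.Injective (Level.inclUnits h) := by
  intro x y hxy
  apply L.unitsCoe_injective
  have := congrArg L'.unitsCoe hxy
  simpa only [Level.unitsCoe_inclUnits] using this

/-- `(L'ˣ)^H = Lˣ`. -/
theorem exists_inclUnits_eq (x' : L'.units.V)
    (hx : ∀ σ ∈ Level.relGal h, L'.units.ρ σ x' = x') :
    ∃ x : L.units.V, Level.inclUnits h x = x' := by
  refine ⟨L.unitsMk (L'.unitsCoe x') (fun g hg => ?_), ?_⟩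
  · have h1 := hx (QuotientGroup.mk g) ((mk_mem_relGal_iff h g).2 hg)
    have h2 := congrArg L'.unitsCoe h1
    rwa [L'.units_ρ_coe] at h2
  · apply L'.unitsCoe_injective
    rfl

/-! ## Local units and `J_q` -/

theorem inclLoc_injective (q : Nat.Primes) : Function.Injective (Level.inclLoc h q) := by
  intro x y hxy
  apply L.locCoe_injective q
  have := congrArg (L'.locCoe q) hxy
  simpa only [Level.locCoe_inclLoc] using this

theorem inclJ_injective (q : Nat.Primes) : Function.Injective (Level.inclJ h q) := by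
  intro f f' hff
  apply L.J_ext q
  intro g
  obtain ⟨g', rfl⟩ := level_proj_surjective h g
  have h1 := congrArg (fun F => L'.Jeval q F g') hff
  simp only [Level.Jeval_inclJ] at h1
  exact inclLoc_injective h q h1

variable (q : Nat.Primes) (f' : (L'.J q).V)

lemma Jeval_mul_right_of_invariant (hf : ∀ σ ∈ Level.relGal h, (L'.J q).ρ σ f' = f')
    (g' σ : L'.Gal) (hσ : σ ∈ Level.relGal h) :
    L'.Jeval q f' (g' * σ) = L'.Jeval q f' g' := by
  rw [← L'.Jeval_ρ, hf σ hσ]

lemma Jeval_eq_of_proj_eq (hf : ∀ σ ∈ Level.relGal h, (L'.J q).ρ σ f' = f')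
    (g₁ g₂ : L'.Gal) (hg : Level.proj h g₁ = Level.proj h g₂) :
    L'.Jeval q f' g₁ = L'.Jeval q f' g₂ := by
  have h1 : g₂⁻¹ * g₁ ∈ Level.relGal h := by
    unfold Level.relGal
    rw [MonoidHom.mem_ker, map_mul, map_inv, hg, inv_mul_cancel]
  have h2 := Jeval_mul_right_of_invariant h q f' hf g₂ _ h1
  rwa [mul_inv_cancel_left] at h2

lemma proj_decHom_mk_of_mem (τ : GQp q) (hτ : τ ∈ L.V q) :
    Level.proj h (L'.decHom q (QuotientGroup.mk τ)) = 1 := by
  rw [Level.decHom_mk, Level.proj_mk]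
  exact (QuotientGroup.eq_one_iff _).2 hτ

lemma locCoe_Jeval_fixed (hf : ∀ σ ∈ Level.relGal h, (L'.J q).ρ σ f' = f')
    (g' : L'.Gal) (τ : GQp q) (hτ : τ ∈ L.V q) :
    (unitsQpbar q).ρ τ (L'.locCoe q (L'.Jeval q f' g')) = L'.locCoe q (L'.Jeval q f' g') := by
  have h1 := L'.Jeval_mul q f' (QuotientGroup.mk τ) g'
  have h2 : Level.proj h (L'.decHom q (QuotientGroup.mk τ) * g') = Level.proj h g' := by
    rw [map_mul, proj_decHom_mk_of_mem h q τ hτ, one_mul]
  rw [Jeval_eq_of_proj_eq h q f' hf _ _ h2] at h1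
  have h3 := congrArg (L'.locCoe q) h1
  rw [L'.locUnits_ρ_coe] at h3
  exact h3.symm

/-- `J_q(L')^H = J_q(L)`. -/
theorem exists_inclJ_eq (hf : ∀ σ ∈ Level.relGal h, (L'.J q).ρ σ f' = f') :
    ∃ f : (L.J q).V, Level.inclJ h q f = f' := by
  classical
  let lift : L.Gal → L'.Gal := fun g => (level_proj_surjective h g).choose
  have hlift : ∀ g, Level.proj h (lift g) = g := fun g => (level_proj_surjective h g).choose_spec
  let w : L'.Gal → (L.locUnits q).V := fun g' =>
    L.locMk q (L'.locCoe q (L'.Jeval q f' g'))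
      (fun τ hτ => locCoe_Jeval_fixed h q f' hf g' τ hτ)
  have hw : ∀ g', Level.inclLoc h q (w g') = L'.Jeval q f' g' :=
    fun g' => L'.locCoe_injective q rfl
  have hw2 : ∀ g₁ g₂, Level.proj h g₁ = Level.proj h g₂ → w g₁ = w g₂ := by
    intro g₁ g₂ hg
    apply inclLoc_injective h q
    rw [hw, hw]
    exact Jeval_eq_of_proj_eq h q f' hf _ _ hg
  refine ⟨⟨fun g => w (lift g), fun d g => ?_⟩, ?_⟩
  · induction d using QuotientGroup.induction_on with
    | H τ =>
      have e1 : w (lift (L.decHom q (QuotientGroup.mk τ) * g)) =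
          w (L'.decHom q (QuotientGroup.mk τ) * lift g) := by
        refine hw2 _ _ ?_
        rw [hlift, map_mul, Level.proj_decHom, hlift]
        rfl
      show w (lift (L.decHom q (QuotientGroup.mk τ) * g)) =
        (L.locUnits q).ρ (QuotientGroup.mk τ) (w (lift g))
      rw [e1]
      apply L.locCoe_injective q
      rw [L.locUnits_ρ_coe]
      show L'.locCoe q (L'.Jeval q f' (L'.decHom q (QuotientGroup.mk τ) * lift g)) =
        (unitsQpbar q).ρ τ (L'.locCoe q (L'.Jeval q f' (lift g)))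
      rw [L'.Jeval_mul, L'.locUnits_ρ_coe]
  · apply L'.J_ext q
    intro g'
    show Level.inclLoc h q (w (lift (Level.proj h g'))) = L'.Jeval q f' g'
    rw [hw]
    exact Jeval_eq_of_proj_eq h q f' hf _ _ (hlift _)

end Fermat.Agent.S55.GAD.H901
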