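/-
S55 / G-ADAPTER, leaf GAD-DESC (helper901): Galois descent for the concrete tower datum.

For levels `L ≤ L'` of `S ≠ ∅`, with `H = Level.relGal h = Gal(L'/L)`:
* `trT_injective`    : the canonical transition map `trT h : C(L) → C(L')` is injective;
* `mem_range_trT_iff`: its image is exactly the `H`-invariants of `C(L')`.
(`C(L) = GAD.CT L = (∏_{q∈S} J_q(L) × Div^S(L)) / Lˣ`.)

Ingredients: Hilbert 90 for `L'/L`, `(L'ˣ)^H = Lˣ`, `J_q(L')^H = J_q(L)` (tower side,
`DescH901J.lean`), `Div^S(L')^H = divTr (Div^S(L))` (`e = 1` outside `S`; helper537's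
`exists_divBC_eq_of_invariant`).  Sorry-free.
-/
import Fermat.Agent.S55.GAD.DescH901J
import Fermat.Agent.S55.GAD.Defs
import Fermat.Agent.S55.G.DescH537.Spec

set_option autoImplicit false
set_option linter.unusedSectionVars false
set_option linter.style.haveILetI false

open scoped NumberField
open IsDedekindDomain

namespace Fermat.Agent.S55.GAD.H901

open Fermat.Agent.S55 Fermat.Agent.S55.Tow Fermat.Agent.S55.E1.H594 Fermat.Agent.S55.G

noncomputable section

variable {S : Finset Nat.Primes} {L L' : Level S} (h : L ≤ L')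

/-! ## 1. `Gal(L'/L)` as a Galois group in the sense of Mathlib -/

/-- The fixed field of `Level.relGal h` is the image of `L.F` (for `GAD.levelAlgebra`). -/
theorem relGal_fixed_iff (x : L'.F) :
    (∀ n : Level.relGal h, (n : L'.Gal) • x = x) ↔
      x ∈ (@algebraMap L.F L'.F _ _ (GAD.levelAlgebra h)).range := by
  rw [level_relGal_fixed_iff h x]
  constructor
  · rintro ⟨y, hy⟩
    exact ⟨y, hy⟩
  · rintro ⟨y, hy⟩
    exact ⟨y, hy⟩

/-- `Level.relGal h` is a Galois group of `L'.F / L.F`. -/
theorem isGaloisGroup_relGal :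
    @IsGaloisGroup (Level.relGal h) L.F L'.F _ _ _ (GAD.levelAlgebra h) _ :=
  letI := GAD.levelAlgebra h
  DescH537.isGaloisGroup_of_fixed L'.Gal L'.F L.F (Level.relGal h) (relGal_fixed_iff h)

/-- `L'/L` is unramified outside `S`: all ramification indices outside `S` are `1`. -/
theorem ramIdx_eq_one (w : PrimeOut S L'.F) :
    @GAD.ramIdx L.F L'.F _ _ (GAD.levelAlgebra h) w.1 = 1 :=
  letI := GAD.levelAlgebra h
  haveI := isGaloisGroup_relGal h
  DescH537.eIdx_eq_one_of_isUnramOut S L'.Gal L'.F L.F (Level.relGal h) (level_isUnramOut L') w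

/-! ## 2. Invariant divisors -/

/-- `Div^S(L')^H = divTr (Div^S(L))`. -/
theorem exists_divTr_eq (d' : PrimeOut S L'.F →₀ ℤ)
    (hd : ∀ σ ∈ Level.relGal h, divRepr S L'.Gal L'.F σ d' = d') :
    ∃ d : PrimeOut S L.F →₀ ℤ, divTr h d = d' := by
  letI := GAD.levelAlgebra h
  haveI := isGaloisGroup_relGal h
  have hunr : ∀ w : PrimeOut S L'.F, DescH537.eIdx L.F L'.F w.1 = 1 := fun w => ramIdx_eq_one h w
  obtain ⟨d, hd'⟩ := DescH537.exists_divBC_eq_of_invariant S (Level.relGal h) L.F L'.F hunr d'
    (fun g => hd g.1 g.2)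
  exact ⟨d, hd'⟩

theorem divTr_injective : Function.Injective (divTr h) :=
  @divExt_injective S L.F L'.F _ _ _ _ (GAD.levelAlgebra h)

/-! ## 3. Hilbert 90 for `L'.units` -/

/-- **Hilbert 90** for `L'/L` in the tower's language: every 1-cocycle `H → L'ˣ` is a
coboundary. -/
theorem hilbert90_units (c : Level.relGal h → L'.units.V)
    (hc : ∀ σ τ : Level.relGal h, c (σ * τ) = c σ + L'.units.ρ (σ : L'.Gal) (c τ)) :
    ∃ b : L'.units.V, ∀ σ : Level.relGal h, c σ = L'.units.ρ (σ : L'.Gal) b - b := by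
  letI := GAD.levelAlgebra h
  haveI := isGaloisGroup_relGal h
  haveI : Finite (Level.relGal h) := inferInstance
  obtain ⟨y, hy⟩ := DescH537.hilbert90 (Level.relGal h) L.F L'.F
    (fun σ => toField L' (c σ)) (fun σ τ => by
      show toField L' (c (σ * τ)) = toField L' (c σ) + lRepr L'.Gal L'.F (σ : L'.Gal) (toField L' (c τ))
      rw [hc, map_add, toField_equivariant])
  refine ⟨(levelUnitsIso L').hom.hom y, fun σ => ?_⟩
  apply toField_injective L'
  have hb : toField L' ((levelUnitsIso L').hom.hom y) = y :=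
    Rep.inv_hom_apply _ _ (levelUnitsIso L') y
  rw [map_sub, toField_equivariant, hb]
  exact hy σ

/-! ## 4. Injectivity of the diagonal and of the transition map -/

theorem embFun_injective (q : Nat.Primes) : Function.Injective (L.embFun q) := by
  intro x y hxy
  apply L.unitsCoe_injective
  have h1 := congrArg (L.locCoe q) hxy
  rw [Level.locCoe_embFun, Level.locCoe_embFun] at h1
  have h2 : Function.Injective (embQbar q) := by
    intro a b hab
    apply Additive.toMul.injective
    apply Units.ext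
    have h3 := congrArg (fun u : (unitsQpbar q).V =>
      ((Additive.toMul u : (PadicAlgCl (q : ℕ))ˣ) : PadicAlgCl (q : ℕ))) hab
    exact (padicEmbedding (q : ℕ)).toRingHom.injective h3
  exact h2 h1

theorem diagT_injective (hS : S.Nonempty) : Function.Injective (diagT L) := by
  obtain ⟨q, hq⟩ := hS
  intro x y hxy
  have h1 : (diagT L x).1 ⟨q, hq⟩ = (diagT L y).1 ⟨q, hq⟩ := by rw [hxy]
  rw [diagT_fst, diagT_fst] at h1
  have h2 := congrArg (fun f => L.Jeval q f 1) h1
  simp only [Level.Jeval_diag, map_one] at h2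
  exact embFun_injective q h2

theorem trJD_injective : Function.Injective (trJD h) := by
  intro y y' hyy
  refine Prod.ext (funext fun q => ?_) ?_
  · have h1 := congrFun (congrArg Prod.fst hyy) q
    exact inclJ_injective h q.1 h1
  · exact divTr_injective h (congrArg Prod.snd hyy)

/-! ## 5. The descent theorem -/

/-- Invariant elements of `∏ J_q(L') × Div^S(L')` come from `L`. -/
theorem exists_trJD_eq (y' : JDV L')
    (hy : ∀ σ ∈ Level.relGal h, jdRepr L' σ y' = y') : ∃ y : JDV L, trJD h y = y' := by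
  have hJ : ∀ q : S, ∃ f : (L.J q.1).V, Level.inclJ h q.1 f = y'.1 q := by
    intro q
    refine exists_inclJ_eq h q.1 (y'.1 q) (fun σ hσ => ?_)
    have h1 := congrArg Prod.fst (hy σ hσ)
    exact congrFun h1 q
  choose f hf using hJ
  obtain ⟨d, hd⟩ := exists_divTr_eq h y'.2 (fun σ hσ => congrArg Prod.snd (hy σ hσ))
  exact ⟨(f, d), Prod.ext (funext hf) hd⟩

/-- **GAD-DESC (a)**: the transition map `C(L) → C(L')` is injective. -/
theorem trT_injective (hS : S.Nonempty) : Function.Injective (trT h).hom := by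
  rw [injective_iff_map_eq_zero]
  intro c hc
  obtain ⟨y, rfl⟩ := mkC_surjective L c
  rw [trT_mkC, mkC_eq_zero_iff] at hc
  obtain ⟨x', hx'⟩ := hc
  have hinv : ∀ σ ∈ Level.relGal h, L'.units.ρ σ x' = x' := by
    intro σ hσ
    apply diagT_injective hS
    rw [diagT_equivariant, hx', ← trJD_equivariant]
    have h1 : Level.proj h σ = 1 := hσ
    rw [h1, map_one]
    rfl
  obtain ⟨x, rfl⟩ := exists_inclUnits_eq h x' hinv
  have h2 : trJD h y = trJD h (diagT L x) := by
    rw [trJD_diagT]
    exact hx'.symm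
  rw [trJD_injective h h2]
  exact mkC_diagT L x

/-- **GAD-DESC (b)**: the image of `C(L) → C(L')` is the group of `Gal(L'/L)`-invariants. -/
theorem mem_range_trT_iff (hS : S.Nonempty) (c' : (CT L').V) :
    c' ∈ Set.range (trT h).hom ↔ ∀ σ ∈ Level.relGal h, (CT L').ρ σ c' = c' := by
  constructor
  · rintro ⟨c, rfl⟩ σ hσ
    have h1 := Rep.hom_comm_apply (trT h) σ c
    have h2 : Level.proj h σ = 1 := hσ
    rw [← h1]
    show (trT h).hom ((CT L).ρ (Level.proj h σ) c) = _
    rw [h2, map_one]
    rfl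
  · intro hc
    obtain ⟨y', rfl⟩ := mkC_surjective L' c'
    have hex : ∀ σ : Level.relGal h, ∃ x : L'.units.V,
        diagT L' x = jdRepr L' (σ : L'.Gal) y' - y' := by
      intro σ
      have h1 := hc σ.1 σ.2
      rw [CT_ρ_mkC] at h1
      have h2 : mkC L' (jdRepr L' (σ : L'.Gal) y' - y') = 0 := by
        rw [map_sub, h1, sub_self]
      exact (mkC_eq_zero_iff L' _).1 h2
    choose c hcdef using hex
    have hcoc : ∀ σ τ : Level.relGal h, c (σ * τ) = c σ + L'.units.ρ (σ : L'.Gal) (c τ) := by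
      intro σ τ
      apply diagT_injective hS
      rw [map_add, diagT_equivariant, hcdef, hcdef, hcdef, Subgroup.coe_mul, map_mul, map_sub]
      show jdRepr L' (σ : L'.Gal) (jdRepr L' (τ : L'.Gal) y') - y' = _
      abel
    obtain ⟨b, hb⟩ := hilbert90_units h c hcoc
    have hinv : ∀ σ ∈ Level.relGal h, jdRepr L' σ (y' - diagT L' b) = y' - diagT L' b := by
      intro σ hσ
      have h1 := hcdef ⟨σ, hσ⟩
      have h2 := hb ⟨σ, hσ⟩
      rw [h2, map_sub, diagT_equivariant] at h1
      rw [map_sub]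
      have h3 : jdRepr L' σ y' - y' = jdRepr L' σ (diagT L' b) - diagT L' b := h1.symm
      have h4 : jdRepr L' σ y' - jdRepr L' σ (diagT L' b) = y' - diagT L' b := by
        rw [sub_eq_sub_iff_add_eq_add] at h3 ⊢
        rw [h3, add_comm]
      exact h4
    obtain ⟨y, hy⟩ := exists_trJD_eq h _ hinv
    refine ⟨mkC L y, ?_⟩
    rw [trT_mkC, hy, map_sub, mkC_diagT, sub_zero]

end

end Fermat.Agent.S55.GAD.H901
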