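import Fermat.Agent.S55.GAD.Spec

/-!
# S55 / G-ADAPTER leaf GAD-7b (helper655): transitivity of the extension of divisors

For a tower of number fields `K → L → M` the extension of divisors `divExt` (with ramification
indices, `GAD/DivExt.lean`) is transitive: `e(w|v) = e(w|u) e(u|v)`, proved with a uniformiser
at `v` and `ordAt_lMap` (no Mathlib tower lemma for `ramificationIdx'` is needed).
Consequence: `divTrTrans : GAD.DivTrTransSpec S`.
-/

set_option autoImplicit false
set_option linter.unusedSectionVars false

open scoped NumberField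
open IsDedekindDomain

namespace Fermat.Agent.S55.GAD.H655

open Fermat.Agent.S55 Fermat.Agent.S55.Tow Fermat.Agent.S55.E1.H594 Fermat.Agent.S55.G

noncomputable section

section Tower

variable (S : Finset Nat.Primes) (K L M : Type) [Field K] [NumberField K] [Field L]
  [NumberField L] [Field M] [NumberField M] [Algebra K L] [Algebra L M] [Algebra K M]
  [IsScalarTower K L M]

lemma underPrime_underPrime (w : HeightOneSpectrum (𝓞 M)) :
    GAD.underPrime K L (GAD.underPrime L M w) = GAD.underPrime K M w := by
  refine HeightOneSpectrum.ext (Ideal.ext fun x => ?_)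
  rw [GAD.mem_underPrime_iff, GAD.mem_underPrime_iff, GAD.mem_underPrime_iff]
  have h : algebraMap (𝓞 L) (𝓞 M) (algebraMap (𝓞 K) (𝓞 L) x) = algebraMap (𝓞 K) (𝓞 M) x := by
    apply Subtype.ext
    exact (IsScalarTower.algebraMap_apply K L M (x : K)).symm
  rw [h]

lemma underOut_underOut (w : PrimeOut S M) :
    GAD.underOut S K L (GAD.underOut S L M w) = GAD.underOut S K M w :=
  Subtype.ext (underPrime_underPrime K L M w.1)

lemma lMap_lMap (x : Additive Kˣ) : lMap L M (lMap K L x) = lMap K M x := by
  apply Additive.toMul.injective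
  apply Units.ext
  exact (IsScalarTower.algebraMap_apply K L M ((x.toMul : Kˣ) : K)).symm

/-- **Multiplicativity of the ramification index in towers.** -/
theorem ramIdx_tower (w : HeightOneSpectrum (𝓞 M)) :
    GAD.ramIdx K M w = GAD.ramIdx L M w * GAD.ramIdx K L (GAD.underPrime L M w) := by
  obtain ⟨ϖ, hϖ⟩ := (GAD.underPrime K M w).valuation_exists_uniformizer K
  have hϖ0 : ϖ ≠ 0 := by
    rintro rfl
    rw [map_zero] at hϖ
    exact WithZero.exp_ne_zero hϖ.symm
  let x : Additive Kˣ := Additive.ofMul (Units.mk0 ϖ hϖ0)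
  have hx : ordAt (GAD.underPrime K M w) x = 1 := by
    rw [ordAt_apply]
    change -WithZero.log ((GAD.underPrime K M w).valuation K ϖ) = 1
    rw [hϖ]
    simp
  have h1 := GAD.ordAt_lMap K M w x
  have h2 := GAD.ordAt_lMap L M w (lMap K L x)
  have h3 := GAD.ordAt_lMap K L (GAD.underPrime L M w) x
  rw [lMap_lMap, h3, underPrime_underPrime, hx, mul_one] at h2
  rw [hx, mul_one] at h1
  have h4 : (GAD.ramIdx K M w : ℤ) =
      (GAD.ramIdx L M w : ℤ) * (GAD.ramIdx K L (GAD.underPrime L M w) : ℤ) := h1.symm.trans h2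
  exact_mod_cast h4

/-- **Transitivity of the extension of divisors.** -/
theorem divExt_divExt (d : PrimeOut S K →₀ ℤ) :
    GAD.divExt S L M (GAD.divExt S K L d) = GAD.divExt S K M d := by
  ext w
  rw [GAD.divExt_apply, GAD.divExt_apply, GAD.divExt_apply, underOut_underOut, ramIdx_tower K L M]
  have : GAD.ramIdx K L (GAD.underOut S L M w).1 = GAD.ramIdx K L (GAD.underPrime L M w.1) := rfl
  rw [this]
  push_cast
  ring

end Tower

variable {S : Finset Nat.Primes}

/-- **GAD-7b** (`GAD/Spec.lean`): exact shape of `DivTrTransSpec S`. -/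
theorem divTrTrans (S : Finset Nat.Primes) : GAD.DivTrTransSpec S := by
  intro L L' L'' h h' d
  letI : Algebra L.F L'.F := GAD.levelAlgebra h
  letI : Algebra L'.F L''.F := GAD.levelAlgebra h'
  letI : Algebra L.F L''.F := GAD.levelAlgebra (h.trans h')
  haveI : IsScalarTower L.F L'.F L''.F := IsScalarTower.of_algebraMap_eq fun _ => rfl
  exact divExt_divExt S L.F L'.F L''.F d

end

end Fermat.Agent.S55.GAD.H655
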