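/-
S55 / G-ADAPTER (sub-architect helper955): ASSEMBLY.
`globalSpecMu_of` : the leaf specs of `GAD/Spec.lean` imply `Tow.GlobalSpecMu S p`
(the final target of layer G, `Spec/Datum2.lean`).  No `sorry`.
-/
import Fermat.Agent.S55.GAD.Spec

set_option autoImplicit false

open CategoryTheory

namespace Fermat.Agent.S55.GAD

open Fermat.Agent.S55 Fermat.Agent.S55.Tow Fermat.Agent.S55.E1.H594 Fermat.Agent.S55.G

noncomputable section

variable {S : Finset Nat.Primes} {p : ℕ}

lemma isLocalSum_iff (L : Level S) (c : (CT L).V) :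
    (datum S p).IsLocalSum L c ↔ ∃ x : JSV L, c = mkC L (x, 0) := by
  constructor
  · rintro ⟨x, hx⟩
    exact ⟨x, hx.trans (sum_jT L x)⟩
  · rintro ⟨x, hx⟩
    exact ⟨x, hx.trans (sum_jT L x).symm⟩

/-- gd4 from the dictionary of `S`-units. -/
theorem gd4_of (hSU : SUnitDictSpec S) (L : Level S) (x : ∀ q : S, (L.J q.1).V) :
    ∑ q : S, ((datum S p).j L q.1).hom (x q) = 0 ↔
      ∃ e : L.units.V, L.IsSUnit e ∧ ∀ q : S, x q = (L.diag q.1).hom e := by
  show ∑ q : S, (jT L q.1).hom (x q) = 0 ↔ _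
  rw [sum_jT, mkC_eq_zero_iff]
  constructor
  · rintro ⟨e, he⟩
    refine ⟨e, (hSU L e).1 (congrArg Prod.snd he), fun q => ?_⟩
    exact (congrFun (congrArg Prod.fst he) q).symm
  · rintro ⟨e, he, hx⟩
    refine ⟨e, Prod.ext (funext fun q => (hx q).symm) ((hSU L e).2 he)⟩

/-- gd5 from capitulation. -/
theorem gd5_of (hCap : CapitulationSpec S p) (L : Level S) (c : ((datum S p).C L).V) (a : ℕ)
    (hc : (datum S p).IsLocalSum L (p ^ a • c)) :
    ∃ (L' : Level S) (h : L ≤ L'), (datum S p).IsLocalSum L' (((datum S p).tr h).hom c) := by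
  obtain ⟨⟨x, d⟩, rfl⟩ := mkC_surjective L c
  obtain ⟨x', hx'⟩ := (isLocalSum_iff L _).1 hc
  have h0 : mkC L (p ^ a • (x, d) - (x', 0)) = 0 := by
    rw [map_sub, map_nsmul]
    exact sub_eq_zero.2 hx'
  obtain ⟨e, he⟩ := (mkC_eq_zero_iff L _).1 h0
  have hd : divT L e = p ^ a • d := by
    have h2 : (diagT L e).2 = (p ^ a • ((x, d) : JDV L) - ((x', 0) : JDV L)).2 :=
      congrArg Prod.snd he
    have h3 : (p ^ a • ((x, d) : JDV L) - ((x', 0) : JDV L)).2 = p ^ a • d := by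
      simp
    exact h2.trans h3
  obtain ⟨L', h, z, hz⟩ := hCap L d a e hd
  refine ⟨L', h, (isLocalSum_iff L' _).2
    ⟨fun q => (Level.trJ h q.1).hom (x q) - (L'.diag q.1).hom z, ?_⟩⟩
  show (trT h).hom (mkC L (x, d)) = _
  rw [trT_mkC]
  have h1 : (trJD h (x, d) : JDV L') =
      ((fun q => (Level.trJ h q.1).hom (x q) - (L'.diag q.1).hom z, 0) : JDV L') + diagT L' z := by
    refine Prod.ext (funext fun q => ?_) ?_
    · show (Level.trJ h q.1).hom (x q) =
        ((Level.trJ h q.1).hom (x q) - (L'.diag q.1).hom z) + (L'.diag q.1).hom z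
      abel
    · show divTr h d = 0 + divT L' z
      rw [zero_add, hz]
  rw [h1, map_add, mkC_diagT, add_zero]

/-- gd7a: `tr` is compatible with `j` and `trJ`. -/
theorem gd7a (p : ℕ) {L L' : Level S} (h : L ≤ L') (q : Nat.Primes) (hq : q ∈ S)
    (x : (L.J q).V) :
    ((datum S p).tr h).hom (((datum S p).j L q).hom x) =
      ((datum S p).j L' q).hom ((Level.trJ h q).hom x) := by
  show (trT h).hom ((jT L q).hom x) = (jT L' q).hom ((Level.trJ h q).hom x)
  rw [jT_apply_of_mem L ⟨q, hq⟩, jT_apply_of_mem L' ⟨q, hq⟩, trT_mkC]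
  congr 1
  refine Prod.ext (funext fun q' => ?_) (map_zero _)
  show (Level.trJ h q'.1).hom ((Pi.single (⟨q, hq⟩ : S) x : JSV L) q') =
    (Pi.single (⟨q, hq⟩ : S) ((Level.trJ h q).hom x) : JSV L') q'
  by_cases hqq : q' = ⟨q, hq⟩
  · subst hqq
    have h1 : (Pi.single (⟨q, hq⟩ : S) x : JSV L) ⟨q, hq⟩ = x := Pi.single_eq_same _ _
    have h2 : (Pi.single (⟨q, hq⟩ : S) ((Level.trJ h q).hom x) : JSV L') ⟨q, hq⟩ =
        (Level.trJ h q).hom x := Pi.single_eq_same _ _
    rw [h1, h2]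
  · have h1 : (Pi.single (⟨q, hq⟩ : S) x : JSV L) q' = 0 := Pi.single_eq_of_ne hqq _
    have h2 : (Pi.single (⟨q, hq⟩ : S) ((Level.trJ h q).hom x) : JSV L') q' = 0 :=
      Pi.single_eq_of_ne hqq _
    rw [h1, h2, map_zero]

lemma trJ_trans {L L' L'' : Level S} (h : L ≤ L') (h' : L' ≤ L'') (q : Nat.Primes)
    (x : (L.J q).V) :
    (Level.trJ h' q).hom ((Level.trJ h q).hom x) = (Level.trJ (h.trans h') q).hom x := by
  apply L''.J_ext q
  intro g
  induction g using QuotientGroup.induction_on with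
  | H g => rfl

/-- gd7b from the transitivity of the extension of divisors. -/
theorem gd7b_of (hTr : DivTrTransSpec S) (p : ℕ) {L L' L'' : Level S} (h : L ≤ L')
    (h' : L' ≤ L'') (c : ((datum S p).C L).V) :
    ((datum S p).tr h').hom (((datum S p).tr h).hom c) = ((datum S p).tr (h.trans h')).hom c := by
  obtain ⟨⟨x, d⟩, rfl⟩ := mkC_surjective L c
  show (trT h').hom ((trT h).hom (mkC L (x, d))) = (trT (h.trans h')).hom (mkC L (x, d))
  rw [trT_mkC, trT_mkC, trT_mkC]
  congr 1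
  exact Prod.ext (funext fun q => trJ_trans h h' q.1 (x q)) (hTr h h' d)

/-- **ASSEMBLY.**  The leaf specs imply the final target of layer G. -/
theorem globalSpecMu_of (hSU : SUnitDictSpec S) (hTr : DivTrTransSpec S)
    (hCap : CapitulationSpec S p) (hEx : ExistenceSpec S p) (hCM : ClassModuleSpec S p)
    (hJ : JInjSpec S p) (hInf : InfInjSpec S p) : GlobalSpecMu S p :=
  ⟨datum S p,
    { gd1 := fun L hL => gammaT_spec S p L (hCM L hL)
      gd3 := fun L hL q hq y hy h0 => hJ L hL q hq y hy h0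
      gd4 := fun L x => gd4_of hSU L x
      gd5 := fun L c a hc => gd5_of hCap L c a hc
      gd6 := fun L₀ hL₀ => hEx L₀ hL₀
      gd7a := fun h q hq x => gd7a p h q hq x
      gd7b := fun h h' c => gd7b_of hTr p h h' c
      gd8 := fun h hL z hz h0 => hInf h hL z hz h0 }⟩

end

end Fermat.Agent.S55.GAD
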