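/-
S55 / G-ADAPTER, leaf **GD5b** (helper604): for the concrete tower datum `GAD.datum S p`,
`C(F) / im J(F)` is torsion (it is the `S`-class group of `F`, a finite group).

* `isTorsModLocal : (datum S p).IsTorsModLocal`     (unconditional);
* `isGoodMu_of`   : the 7 leaf specs of `GAD/Spec.lean` ⇒ `(datum S p).IsGoodMu p`;
* `isGoodFin_of`, `globalSpecFin_of` : the 7 leaf specs ⇒ `Tow.GlobalSpecFin S p`
  (the FINAL target of layer G, `Spec/Datum3.lean`).

Input: finiteness of the `S`-class group in the form `G.ClsH604.ordHom_range_index_ne_zero`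
(`div(Fˣ)` has finite index in `Div^S(F)`).  No `sorry`.
-/
import Fermat.Agent.S55.GAD.Assembly
import Fermat.Agent.S55.Spec.Datum3
import Fermat.Agent.S55.G.ClsH604

set_option autoImplicit false

open CategoryTheory

namespace Fermat.Agent.S55.GAD.H604

open Fermat.Agent.S55 Fermat.Agent.S55.Tow Fermat.Agent.S55.E1.H594 Fermat.Agent.S55.G
  Fermat.Agent.S55.GAD

noncomputable section

variable (S : Finset Nat.Primes) (p : ℕ)

lemma toField_surjective (L : Level S) : Function.Surjective (toField L) := by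
  intro u
  refine ⟨(levelUnitsIso L).hom.hom u, ?_⟩
  exact Rep.inv_hom_apply _ _ (levelUnitsIso L) u

/-- Every divisor outside `S` has a nonzero multiple which is principal. -/
lemma exists_nsmul_eq_divT (L : Level S) (d : PrimeOut S L.F →₀ ℤ) :
    ∃ m : ℕ, 0 < m ∧ ∃ e : L.units.V, divT L e = m • d := by
  have hm : (ordHom S L.F).range.index ≠ 0 := ClsH604.ordHom_range_index_ne_zero S L.F
  refine ⟨(ordHom S L.F).range.index, Nat.pos_of_ne_zero hm, ?_⟩
  have hmem : (ordHom S L.F).range.index • d ∈ (ordHom S L.F).range :=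
    AddSubgroup.nsmul_index_mem _ d
  obtain ⟨u, hu⟩ := hmem
  obtain ⟨e, rfl⟩ := toField_surjective S L u
  exact ⟨e, hu⟩

/-- **GD5b** for the concrete datum: every class has a nonzero multiple in the image of
`J(F) = ∏_{q ∈ S} J_q(F)`. -/
theorem isTorsModLocal : (datum S p).IsTorsModLocal := by
  intro L c
  obtain ⟨⟨x, d⟩, rfl⟩ := mkC_surjective L c
  obtain ⟨m, hm, e, he⟩ := exists_nsmul_eq_divT S L d
  refine ⟨m, hm, (isLocalSum_iff (p := p) L _).2
    ⟨fun q => m • x q - (L.diag q.1).hom e, ?_⟩⟩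
  show m • mkC L (x, d) = _
  rw [← map_nsmul]
  have h1 : (m • ((x, d) : JDV L) : JDV L) =
      ((fun q => m • x q - (L.diag q.1).hom e, 0) : JDV L) + diagT L e := by
    refine Prod.ext (funext fun q => ?_) ?_
    · show m • x q = (m • x q - (L.diag q.1).hom e) + (L.diag q.1).hom e
      abel
    · show m • d = 0 + divT L e
      rw [zero_add, he]
  rw [h1, map_add, mkC_diagT, add_zero]

variable {S p}

/-- The leaf specs of `GAD/Spec.lean` make the concrete datum good above `μ_p`. -/
theorem isGoodMu_of (hSU : SUnitDictSpec S) (hTr : DivTrTransSpec S)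
    (hCap : CapitulationSpec S p) (hEx : ExistenceSpec S p) (hCM : ClassModuleSpec S p)
    (hJ : JInjSpec S p) (hInf : InfInjSpec S p) : (datum S p).IsGoodMu p :=
  { gd1 := fun L hL => gammaT_spec S p L (hCM L hL)
    gd3 := fun L hL q hq y hy h0 => hJ L hL q hq y hy h0
    gd4 := fun L x => gd4_of hSU L x
    gd5 := fun L c a hc => gd5_of hCap L c a hc
    gd6 := fun L₀ hL₀ => hEx L₀ hL₀
    gd7a := fun h q hq x => gd7a p h q hq x
    gd7b := fun h h' c => gd7b_of hTr p h h' c
    gd8 := fun h hL z hz h0 => hInf h hL z hz h0 }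

/-- The leaf specs of `GAD/Spec.lean` make the concrete datum good in the final sense. -/
theorem isGoodFin_of (hSU : SUnitDictSpec S) (hTr : DivTrTransSpec S)
    (hCap : CapitulationSpec S p) (hEx : ExistenceSpec S p) (hCM : ClassModuleSpec S p)
    (hJ : JInjSpec S p) (hInf : InfInjSpec S p) : (datum S p).IsGoodFin p :=
  ⟨isGoodMu_of hSU hTr hCap hEx hCM hJ hInf, isTorsModLocal S p⟩

/-- **ASSEMBLY, final form.**  The leaf specs imply `Tow.GlobalSpecFin S p`. -/
theorem globalSpecFin_of (hSU : SUnitDictSpec S) (hTr : DivTrTransSpec S)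
    (hCap : CapitulationSpec S p) (hEx : ExistenceSpec S p) (hCM : ClassModuleSpec S p)
    (hJ : JInjSpec S p) (hInf : InfInjSpec S p) : GlobalSpecFin S p :=
  ⟨datum S p, isGoodFin_of hSU hTr hCap hEx hCM hJ hInf⟩

end

end Fermat.Agent.S55.GAD.H604
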