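import Fermat.Agent.S55.GAD.Spec
import Fermat.Agent.S55.Bridge.SUnitDict

/-!
# S55 / G-ADAPTER leaf GAD-SU (helper655): the `S`-unit dictionary

`divT L e = 0 ↔ L.IsSUnit e` for the concrete tower datum of `GAD/Defs.lean`: a unit of the level
field has trivial divisor outside `S` (layer-G language: `ord_w = 0` at every prime `w` of `𝓞_F`
not above `S`) iff it is an `S`-unit in the tower's sense (unit at every valuation subring of `ℚ̄`
over a prime `ℓ ∉ S`).  This is `Bridge.isSUnit_levelUnitsIso_iff` (part B17 of the bridge)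
transported along `toField = levelUnitsIso.inv`.
-/

set_option autoImplicit false

namespace Fermat.Agent.S55.GAD.H655

open Fermat.Agent.S55 Fermat.Agent.S55.Tow Fermat.Agent.S55.E1.H594 Fermat.Agent.S55.G

variable {S : Finset Nat.Primes}

/-- `divT L e = 0` iff `toField L e` is an `S`-unit of layer G. -/
theorem divT_eq_zero_iff_mem_sUnit (L : Level S) (e : L.units.V) :
    GAD.divT L e = 0 ↔ GAD.toField L e ∈ G.sUnit S L.F := by
  rfl

/-- **GAD-SU**, pointwise form. -/
theorem divT_eq_zero_iff (L : Level S) (e : L.units.V) :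
    GAD.divT L e = 0 ↔ L.IsSUnit e := by
  rw [divT_eq_zero_iff_mem_sUnit, ← Bridge.isSUnit_levelUnitsIso_iff L (GAD.toField L e)]
  have h : (levelUnitsIso L).hom.hom (GAD.toField L e) = e :=
    Rep.hom_inv_apply _ _ (levelUnitsIso L) e
  rw [h]

/-- **GAD-SU** (`GAD/Spec.lean`): exact shape of `SUnitDictSpec S`. -/
theorem sUnitDict (S : Finset Nat.Primes) : GAD.SUnitDictSpec S :=
  fun L e => divT_eq_zero_iff L e

end Fermat.Agent.S55.GAD.H655
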