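/-
S55 / G-ADAPTER (helper955): **assembly in layer-G language.**
`globalSpecMu_of_G` : the open input `Tow.GlobalSpecMu S p` of the engine E1 from the leaves
GAD-7b, GAD-CAP (concrete datum) and GAD-EX/CM/J/INF stated for `G.CRep S L.Gal L.F`
(`GAD/Transport.lean`).  GAD-SU is closed (helper655, `GAD/SUnitDictH655.lean`).
-/
import Fermat.Agent.S55.GAD.Assembly
import Fermat.Agent.S55.GAD.Transport
import Fermat.Agent.S55.GAD.SUnitDictH655

set_option autoImplicit false

namespace Fermat.Agent.S55.GAD

open Fermat.Agent.S55 Fermat.Agent.S55.Tow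

/-- `Tow.GlobalSpecMu S p` from the six open leaves (four of them in layer-G language). -/
theorem globalSpecMu_of_G (S : Finset Nat.Primes) (p : ℕ)
    (h7b : DivTrTransSpec S) (hCap : CapitulationSpec S p)
    (hEx : ExistenceSpecG S p) (hCM : ClassModuleSpecG S p)
    (hJ : JInjSpecG S p) (hInf : InfInjSpecG S p) : Tow.GlobalSpecMu S p :=
  globalSpecMu_of (H655.sUnitDict S) (fun {_ _ _} => h7b) hCap (existenceSpec_of_G S p hEx)
    (classModuleSpec_of_G S p hCM) (jInjSpec_of_G S p hJ) (fun {_ _} => infInjSpec_of_G S p hInf)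

end Fermat.Agent.S55.GAD
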