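/-
S55 / G-ADAPTER (sub-architect helper955): **FINAL WIRING of layer G.**

`E1.GlobalInputSpec` (`E1/Inputs.lean`, the only open arithmetic input of the engine E1) from the
THREE leaves that are still open for the concrete tower datum `GAD.datum S p`:

* GAD-CM  = gd1 : `ClassModuleSpec S p`   (or `ClassModuleSpecG`, layer-G language),
* GAD-J   = gd3 : `JInjSpec S p`          (or `JInjSpecG`),
* GAD-EX1 = one Kummer step of gd6 : `H233.ExistStepSpec S p`  (or `ExistStepSpecG`).

Everything else is closed on main and plugged in here: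
GAD-SU (helper655), GAD-7b (helper655), GAD-CAP (helper57), GD5b (helper604),
GAD-DESC (helper901), GAD-INF from CM + DESC (helper953), GAD-EX from DESC + one step (helper233),
GAD-ISO + transport (helper897 J-bridge, `GAD/Iso.lean`, `GAD/Transport.lean`).
-/
import Fermat.Agent.S55.GAD.Main
import Fermat.Agent.S55.GAD.Gd5bH604
import Fermat.Agent.S55.GAD.CapH57
import Fermat.Agent.S55.GAD.DivTransH655
import Fermat.Agent.S55.GAD.DescH901
import Fermat.Agent.S55.GAD.H953.InfInj
import Fermat.Agent.S55.GAD.ExTransH233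
import Fermat.Agent.S55.E1.Inputs

set_option autoImplicit false

namespace Fermat.Agent.S55.GAD

open Fermat.Agent.S55 Fermat.Agent.S55.Tow
open scoped Fermat.Agent.S55.E1.H594

/-- **GAD-DESC**, closed (helper901): the transition maps of the concrete datum are injective
with image the invariants. -/
theorem descSpec (S : Finset Nat.Primes) (hS : S.Nonempty) : H953.DescSpec S :=
  fun h => ⟨H901.trT_injective h hS, fun c hc => (H901.mem_range_trT_iff h hS c).2 hc⟩

/-- **Layer G, reduced to three leaves** (concrete language). -/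
theorem globalSpecFin_of_three (S : Finset Nat.Primes) (p : ℕ) (hp : p.Prime)
    (hpS : (⟨p, hp⟩ : Nat.Primes) ∈ S)
    (hCM : ClassModuleSpec S p) (hJ : JInjSpec S p) (hStep : H233.ExistStepSpec S p) :
    GlobalSpecFin S p :=
  have hS : S.Nonempty := ⟨_, hpS⟩
  have hD : H953.DescSpec S := descSpec S hS
  H604.globalSpecFin_of (H655.sUnitDict S) (fun {_ _ _} => H655.divTrTrans S)
    (H57.capitulation S p hp hpS) (H233.existence_of_step (fun {_ _} => hD) hStep) hCM hJ
    (fun {_ _} => H953.infInj_of hp hCM (fun {_ _} => hD))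

/-- GAD-EX1 in layer-G language: ONE level `L₁ ≥ L₀` with
`N_{L₁/L₀} C_S(L₁) ⊆ p • C_S(L₁)^{Gal(L₁/L₀)}`. -/
def ExistStepSpecG (S : Finset Nat.Primes) (p : ℕ) : Prop :=
  ∀ L₀ : Level S, L₀.HasMu p → ∃ (L₁ : Level S) (h₁ : L₀ ≤ L₁),
    @E1.NormInP p L₁.Gal _ (Level.relGal h₁) (Fintype.ofFinite _) (G.CRep S L₁.Gal L₁.F)

theorem existStepSpec_of_G (S : Finset Nat.Primes) (p : ℕ) (h : ExistStepSpecG S p) :
    H233.ExistStepSpec S p := by
  intro L₀ hμ
  obtain ⟨L₁, h₁, hN⟩ := h L₀ hμ
  refine ⟨L₁, h₁, ?_⟩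
  let _ : Fintype (Level.relGal h₁) := Fintype.ofFinite _
  exact normInP_of_iso p (Level.relGal h₁) (isoC L₁) hN

/-- **Layer G, reduced to three leaves** (layer-G language: statements about
`G.CRep S L.Gal L.F`). -/
theorem globalSpecFin_of_three_G (S : Finset Nat.Primes) (p : ℕ) (hp : p.Prime)
    (hpS : (⟨p, hp⟩ : Nat.Primes) ∈ S)
    (hCM : ClassModuleSpecG S p) (hJ : JInjSpecG S p) (hStep : ExistStepSpecG S p) :
    GlobalSpecFin S p :=
  globalSpecFin_of_three S p hp hpS (classModuleSpec_of_G S p hCM) (jInjSpec_of_G S p hJ)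
    (existStepSpec_of_G S p hStep)

/-- **The global input of the engine E1 from the three open leaves.** -/
theorem globalInputSpec_of
    (hCM : ∀ (p : ℕ) [Fact p.Prime], p ≠ 2 → ∀ S : Finset Nat.Primes, ExtCitation.pPrime p ∈ S →
      ClassModuleSpec S p)
    (hJ : ∀ (p : ℕ) [Fact p.Prime], p ≠ 2 → ∀ S : Finset Nat.Primes, ExtCitation.pPrime p ∈ S →
      JInjSpec S p)
    (hStep : ∀ (p : ℕ) [Fact p.Prime], p ≠ 2 → ∀ S : Finset Nat.Primes,
      ExtCitation.pPrime p ∈ S → H233.ExistStepSpec S p) :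
    E1.GlobalInputSpec :=
  fun p _ hp2 S hpS =>
    globalSpecFin_of_three S p Fact.out hpS (hCM p hp2 S hpS) (hJ p hp2 S hpS)
      (hStep p hp2 S hpS)

/-- The same in layer-G language. -/
theorem globalInputSpec_of_G
    (hCM : ∀ (p : ℕ) [Fact p.Prime], p ≠ 2 → ∀ S : Finset Nat.Primes, ExtCitation.pPrime p ∈ S →
      ClassModuleSpecG S p)
    (hJ : ∀ (p : ℕ) [Fact p.Prime], p ≠ 2 → ∀ S : Finset Nat.Primes, ExtCitation.pPrime p ∈ S →
      JInjSpecG S p)
    (hStep : ∀ (p : ℕ) [Fact p.Prime], p ≠ 2 → ∀ S : Finset Nat.Primes,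
      ExtCitation.pPrime p ∈ S → ExistStepSpecG S p) :
    E1.GlobalInputSpec :=
  fun p _ hp2 S hpS =>
    globalSpecFin_of_three_G S p Fact.out hpS (hCM p hp2 S hpS) (hJ p hp2 S hpS)
      (hStep p hp2 S hpS)

end Fermat.Agent.S55.GAD
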