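import Fermat.Agent.S55.GAD.IsoH897
import Fermat.Agent.S55.GAD.Spec
import Fermat.Agent.S55.G.Rec.Tow.Spec
import Fermat.Agent.S55.T.SumH635

/-!
# S55 / G-ADAPTER, leaf GAD-TR (helper897): transport of the REC2-TOW targets to the tower datum

The block REC2-TOW (helper417, `G/Rec/Tow/Spec.lean`) states its targets on the `S`-idèle class
module of layer G, `lvlC L = G.CRep S L.Gal L.F`.  The tower datum of the G-ADAPTER
(`GAD/Defs.lean`) uses `CT L`.  This file transports along the comparison isomorphism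
`cIso L : G.CRep S L.Gal L.F ≅ CT L` (`GAD/IsoH897.lean`):

* `isClassModuleAt_of_iso` : class modules at `p` are invariant under isomorphism (generic);
* `classModule_of_gd1 : TOW.Gd1Spec p → GAD.ClassModuleSpec S p`;
* `jInj_of_gd3 : TOW.Gd3Spec p → GAD.JInjSpec S p`.
-/

set_option autoImplicit false
set_option linter.style.haveILetI false
set_option linter.unusedSectionVars false

open CategoryTheory groupCohomology
open scoped TensorProduct

namespace Fermat.Agent.S55.GAD.H897

open Fermat.Agent.S55 Fermat.Agent.S55.Tow Fermat.Agent.S55.E1.H594 Fermat.Agent.S55.G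
open Fermat.Agent.S55.GAD Fermat.Agent.S55.G.LocH897

noncomputable section

/-! ### Generic: naturality of restriction, class modules and isomorphisms -/

section Generic

variable {Γ : Type} [Group Γ]

set_option backward.isDefEq.respectTransparency false in
/-- Restriction is natural in the coefficients. -/
theorem coeffMap_resMap {A B : Rep.{0} ℤ Γ} (f : A ⟶ B) (H : Subgroup Γ) (n : ℕ) :
    T.coeffMap f n ≫ T.resMap B H n =
      T.resMap A H n ≫ T.coeffMap ((Rep.resFunctor H.subtype).map f) n :=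
  (resNatTrans (k := ℤ) H.subtype n).naturality f

theorem coeffMap_resMap_apply {A B : Rep.{0} ℤ Γ} (f : A ⟶ B) (H : Subgroup Γ) (n : ℕ)
    (x : groupCohomology A n) :
    (T.resMap B H n).hom ((T.coeffMap f n).hom x) =
      (T.coeffMap ((Rep.resFunctor H.subtype).map f) n).hom ((T.resMap A H n).hom x) :=
  congrArg (fun φ => φ.hom x) (coeffMap_resMap f H n)

/-- The isomorphism `Hⁿ(H, C) ≅ Hⁿ(H, C')` induced by `Φ : C ≅ C'`. -/
def subCohIso {C C' : Rep.{0} ℤ Γ} (Φ : C ≅ C') (H : Subgroup Γ) (n : ℕ) :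
    groupCohomology (T.resSub C H) n ≅ groupCohomology (T.resSub C' H) n :=
  (groupCohomology.functor ℤ H n).mapIso ((Rep.resFunctor H.subtype).mapIso Φ)

lemma subCohIso_hom {C C' : Rep.{0} ℤ Γ} (Φ : C ≅ C') (H : Subgroup Γ) (n : ℕ) :
    (subCohIso Φ H n).hom = T.coeffMap ((Rep.resFunctor H.subtype).map Φ.hom) n := rfl

variable [Finite Γ]

/-- Class modules at `p` are invariant under isomorphism. -/
theorem isClassModuleAt_of_iso {C C' : Rep.{0} ℤ Γ} (Φ : C ≅ C') (p : ℕ)
    (γ : groupCohomology C 2) (h : E1.IsClassModuleAt p C γ) :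
    E1.IsClassModuleAt p C' ((T.coeffMap Φ.hom 2).hom γ) := by
  intro H hH
  obtain ⟨h1, h2, h3⟩ := h H hH
  refine ⟨Limits.IsZero.of_iso h1 (subCohIso Φ H 1).symm, ?_, fun x => ?_⟩
  · rw [← h2]
    exact Nat.card_congr (subCohIso Φ H 2).symm.toLinearEquiv.toEquiv
  · obtain ⟨n, hn⟩ := h3 ((subCohIso Φ H 2).inv.hom x)
    refine ⟨n, ?_⟩
    have hx : x = (subCohIso Φ H 2).hom.hom ((subCohIso Φ H 2).inv.hom x) := by
      have := congrArg (fun φ => φ.hom x) (subCohIso Φ H 2).inv_hom_id
      exact this.symm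
    rw [hx, hn, map_nsmul, subCohIso_hom, ← coeffMap_resMap_apply]

end Generic

/-! ### GD1: the class module -/

section CM

variable (S : Finset Nat.Primes) {p : ℕ}

/-- **GAD-CM from REC2-TOW.**  `Gd1Spec` (fundamental class at `p` on `C_S(F)`) gives the
class-module leaf of the G-ADAPTER. -/
theorem classModule_of_gd1 (hp : p.Prime) (hp2 : p ≠ 2) (hpS : (⟨p, hp⟩ : Nat.Primes) ∈ S)
    (h : G.Rec.TOW.Gd1Spec p) : ClassModuleSpec S p := by
  intro L hL
  obtain ⟨γ, hγ⟩ := h S hp hp2 hpS L hL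
  exact ⟨_, isClassModuleAt_of_iso (cIso L) p γ hγ⟩

end CM

/-! ### GD3: local–global injectivity -/

section J

variable {S : Finset Nat.Primes} (L : Level S) (q : S)

/-- The components at `q' ≠ q` of an element of the `q`-component of `J_S(F)` are trivial. -/
lemma evQ_jInvLin_ne {q' : S} (h : q' ≠ q) (x : (L.J q.1).V) (g : L.Gal) :
    evQ L q' (asRingAut L.Gal S L.F g (((jInvLin L q x).toMul : (AS S L.F)ˣ) : AS S L.F)) = 1 := by
  rw [← oval_jTowFun, ← Jeval_jTowLin, jTowLin_jInvLin_ne L q h x]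
  rfl

lemma asRingAut_one_tmul (g : L.Gal) (y : QS S) :
    asRingAut L.Gal S L.F g ((1 : L.F) ⊗ₜ[ℚ] y) = (1 : L.F) ⊗ₜ[ℚ] y := by
  rw [asRingAut_apply, asAut_tmul, smul_one]

open PL0H713 in
/-- The `q`-component of `J_S(F)` dies in `J_{S∖{q}}(F)`: ring level. -/
lemma asRes_jInvLin (x : (L.J q.1).V) :
    asRes (Finset.erase_subset q.1 S) L.F (((jInvLin L q x).toMul : (AS S L.F)ˣ) : AS S L.F)
      = 1 := by
  set h := Finset.erase_subset q.1 S with hh
  set u : AS S L.F := (((jInvLin L q x).toMul : (AS S L.F)ˣ) : AS S L.F) with hu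
  haveI := LocH897.isArtinianRing_AS (S.erase q.1) L.F
  haveI := isReduced_AS (S.erase q.1) L.F
  haveI := LocH897.isArtinianRing_AS S L.F
  rw [← sub_eq_zero]
  apply eq_zero_of_forall_mem_maximal
  intro 𝔫 h𝔫
  haveI : 𝔫.IsPrime := h𝔫.isPrime
  have h𝔪 : (𝔫.comap (asRes h L.F)).IsMaximal := IsArtinianRing.isMaximal_of_isPrime _
  obtain ⟨q', g, hq'⟩ := evQ_cover L _ h𝔪
  have hne : q' ≠ q := by
    rintro rfl
    have h0 : ((1 : L.F) ⊗ₜ[ℚ] single S q' 1 : AS S L.F) ∈ 𝔫.comap (asRes h L.F) := by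
      rw [Ideal.mem_comap, asRes_tmul]
      have : QS.res h (single S q' 1) = 0 := by
        apply QS_ext
        intro r
        rw [QS.res_apply, map_zero, Pi.zero_apply]
        apply single_apply_ne
        intro hr
        have := congrArg Subtype.val hr
        exact (Finset.mem_erase.1 r.2).1 this
      rw [this, TensorProduct.tmul_zero]
      exact 𝔫.zero_mem
    rw [hq', asRingAut_one_tmul, evQ_one_tmul_single, map_one] at h0
    exact one_ne_zero h0
  have h1 : u - 1 ∈ 𝔫.comap (asRes h L.F) := by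
    rw [hq', map_sub, map_sub, map_one, map_one, evQ_jInvLin_ne L q hne x g, sub_self]
  rw [Ideal.mem_comap, map_sub, map_one] at h1
  exact h1

/-- The `q`-component of `J_S(F)` dies in `J_{S∖{q}}(F)`. -/
lemma jRes_jInvLin (x : (L.J q.1).V) :
    jRes (Finset.erase_subset q.1 S) L.F (jInvLin L q x) = 0 := by
  apply Additive.toMul.injective
  apply Units.ext
  exact asRes_jInvLin L q x

/-- The inclusion of the `q`-component followed by the projection to `J_{S∖{q}}` is zero. -/
theorem jTowInv_comp_jRes :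
    jTowInv L q ≫ G.Rec.TOW.jResRepHom L.Gal L.F (Finset.erase_subset q.1 S) = 0 := by
  ext x
  exact jRes_jInvLin L q x

/-- `Φ ∘ j ∘ (inclusion of the q-component) = j_q` : the structure map `jT` of the tower datum
is the composite of the inclusion of the `q`-component of `J_S(F)`, the map `J_S → C_S` of
layer G and the comparison isomorphism. -/
theorem jTowInv_comp_lvlj :
    jTowInv L q ≫ jToCRepHom S L.Gal L.F ≫ (cIso L).hom = jT L q.1 := by
  classical
  ext x
  show (cIso L).hom.hom ((jToCRepHom S L.Gal L.F).hom (jInvLin L q x)) = (jT L q.1).hom x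
  rw [cIso_jToC, jT_apply_of_mem]
  congr 1
  refine Prod.ext (funext fun q' => ?_) rfl
  show (jTow L q').hom ((jTowInv L q).hom x) = Pi.single (M := fun q : S => (L.J q.1).V) q x q'
  by_cases h : q' = q
  · subst h
    rw [Pi.single_eq_same]
    exact jTow_jTowInv_same L q' x
  · rw [Pi.single_eq_of_ne h]
    exact jTow_jTowInv_ne L q h x

variable (S) in
/-- **GAD-J from REC2-TOW.**  `Gd3Spec` (injectivity of `j_*` on `p`-primary classes of
`H²(Gal(F/ℚ), J_S(F))` concentrated at one prime) gives the leaf `JInjSpec` of the G-ADAPTER. -/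
theorem jInj_of_gd3 {p : ℕ} (h : G.Rec.TOW.Gd3Spec p) : JInjSpec S p := by
  intro L _ q hq y hpy hjy
  set q' : S := ⟨q, hq⟩ with hq'
  set y' : groupCohomology (JRep L.Gal S L.F) 2 := (T.coeffMap (jTowInv L q') 2).hom y with hy'
  have h1 : E1.IsPPrimary p y' := ⟨1, by rw [pow_one, hy', ← map_nsmul, hpy, map_zero]⟩
  have h2 : G.Rec.TOW.IsAt S L.Gal L.F q y' := by
    show (T.coeffMap (G.Rec.TOW.jResRepHom L.Gal L.F (Finset.erase_subset q S)) 2).hom
      ((T.coeffMap (jTowInv L q') 2).hom y) = 0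
    rw [T.H635.coeffMap_comp_apply]
    have := jTowInv_comp_jRes L q'
    rw [this, T.H635.coeffMap_zero_apply]
  have h3 : (T.coeffMap (jToCRepHom S L.Gal L.F) 2).hom y' = 0 := by
    have h4 : (T.coeffMap (cIso L).hom 2).hom
        ((T.coeffMap (jToCRepHom S L.Gal L.F) 2).hom y') = 0 := by
      rw [hy', T.H635.coeffMap_comp_apply, T.H635.coeffMap_comp_apply, jTowInv_comp_lvlj]
      exact hjy
    have h5 := congrArg (fun φ => φ.hom ((T.coeffMap (jToCRepHom S L.Gal L.F) 2).hom y'))
      (cohIsoTop L 2).hom_inv_id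
    have h6 : (cohIsoTop L 2).inv.hom ((T.coeffMap (cIso L).hom 2).hom
        ((T.coeffMap (jToCRepHom S L.Gal L.F) 2).hom y')) =
        (T.coeffMap (jToCRepHom S L.Gal L.F) 2).hom y' := h5
    rw [← h6, h4, map_zero]
  have h7 : y' = 0 := h S L q hq y' h1 h2 h3
  have h8 : y = (T.coeffMap (jTow L q') 2).hom y' := by
    rw [hy', T.H635.coeffMap_comp_apply, jTowInv_comp_jTow, T.H635.coeffMap_id_apply]
  rw [h8, h7, map_zero]

end J

end

end Fermat.Agent.S55.GAD.H897
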