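/-
S55 / G-ADAPTER (sub-architect helper955): **LAYER G, CLOSED FORM.**

`globalInputSpec_of_finRec` : the only open arithmetic input of the engine E1,
`E1.GlobalInputSpec` (`E1/Inputs.lean`), follows from ONE remaining leaf of layer G:

    `∀ odd primes p, G.Rec.TOW.FinRecSpec p`       (= `Nonempty (SemiLocalInv p)`,
      the finite-level semilocal invariants with reciprocity; block REC2-TOW:FR).

Plugged in from main (all sorry-free):
* gd1 / gd3 on `C_S(F)`: `TOW.H417.gd1`, `TOW.H417.gd3` (helper417 + TOW leaf owners),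
  with G-UP `G.AllH604.pClassUpper`, descent `TOW.H934.desc`, independence of `S`
  `G.SIndH601.sIndep`, auxiliary level `TOW.H978.ram`;
* the universal class module `G.PClassModuleSpec`: `G.CM.pClassModule_of_leaves` (helper893) with
  leaves H893 (GCL), H514 (SUBCM), H954 (ORD), H587 (DESCI), H139 (SINDT);
* gd6: `GAD.H121.existenceSpec_of_classModule` (helper121);
* transports to the concrete datum: `GAD.H897.classModule_of_gd1`, `GAD.H897.jInj_of_gd3`;
* gd8: `GAD.H953.infInj_of` + GAD-DESC `GAD.H901` (via `GAD.descSpec`);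
* gd4, gd5, GD5b, gd7: `GAD.H655.sUnitDict`, `GAD.H57.capitulation`, `GAD.H604.globalSpecFin_of`,
  `GAD.H655.divTrTrans`.
-/
import Fermat.Agent.S55.GAD.Final
import Fermat.Agent.S55.GAD.TransH897
import Fermat.Agent.S55.GAD.ExistH121
import Fermat.Agent.S55.G.Rec.Tow.H417.Closed
import Fermat.Agent.S55.G.Rec.Tow.H934.DescTow
import Fermat.Agent.S55.G.Rec.Tow.H978.Ram
import Fermat.Agent.S55.G.SIndH601.Closed
import Fermat.Agent.S55.G.AllH604
import Fermat.Agent.S55.G.CM.Assembly
import Fermat.Agent.S55.G.CM.H893.Closure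
import Fermat.Agent.S55.G.CM.H514.SubCM
import Fermat.Agent.S55.G.CM.H954.Ord
import Fermat.Agent.S55.G.CM.H587.DescIncl
import Fermat.Agent.S55.G.CM.H139.SIndTop

set_option autoImplicit false

namespace Fermat.Agent.S55.GAD

open Fermat.Agent.S55 Fermat.Agent.S55.Tow

/-- The hypothesis: finite-level reciprocity for every odd prime. -/
def FinRecAllSpec : Prop := ∀ p : ℕ, p.Prime → p ≠ 2 → G.Rec.TOW.FinRecSpec p

/-- gd1 on every Tower level, for every `p` (vacuous unless `p` is an odd prime). -/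
theorem gd1_of_finRec (hFR : FinRecAllSpec) (p : ℕ) : G.Rec.TOW.Gd1Spec p := by
  intro S hp hp2 hpS
  obtain ⟨I⟩ := hFR p hp hp2
  exact G.Rec.TOW.H417.gd1 hp I G.AllH604.pClassUpper G.Rec.TOW.H934.desc G.SIndH601.sIndep
    (G.Rec.TOW.H978.ram p) S hp hp2 hpS

/-- gd3 on every Tower level, for every odd prime `p`. -/
theorem gd3_of_finRec (hFR : FinRecAllSpec) (p : ℕ) (hp : p.Prime) (hp2 : p ≠ 2) :
    G.Rec.TOW.Gd3Spec p := by
  obtain ⟨I⟩ := hFR p hp hp2
  exact G.Rec.TOW.H417.gd3 hp I

/-- The universal class-module property for `p`-groups (layer G, block CM). -/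
theorem pClassModule_of_finRec (hFR : FinRecAllSpec) : G.PClassModuleSpec :=
  G.CM.pClassModule_of_leaves G.AllH604.pClassUpper (gd1_of_finRec hFR)
    G.CM.H893.closureLevel G.CM.H514.subClassModuleSpec G.CM.H954.quotOrder
    (G.CM.H587.descIncl_of G.AllH604.descent) (G.CM.H139.sindTop_of G.SIndH601.sIndep)

/-- **Layer G for one `(S, p)`**: the good tower datum (final form) from finite-level
reciprocity. -/
theorem globalSpecFin_of_finRec (hFR : FinRecAllSpec) (S : Finset Nat.Primes) (p : ℕ)
    [hp : Fact p.Prime] (hp2 : p ≠ 2) (hpS : (⟨p, hp.out⟩ : Nat.Primes) ∈ S) :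
    GlobalSpecFin S p :=
  have hCM : ClassModuleSpec S p :=
    H897.classModule_of_gd1 S hp.out hp2 hpS (gd1_of_finRec hFR p)
  H604.globalSpecFin_of (H655.sUnitDict S) (fun {_ _ _} => H655.divTrTrans S)
    (H57.capitulation S p hp.out hpS)
    (H121.existenceSpec_of_classModule S p hp2 hpS (pClassModule_of_finRec hFR)) hCM
    (H897.jInj_of_gd3 S (gd3_of_finRec hFR p hp.out hp2))
    (fun {_ _} => H953.infInj_of hp.out hCM (fun {_ _} => descSpec S ⟨_, hpS⟩))

/-- **LAYER G, CLOSED FORM**: the global input of the engine E1 from finite-level reciprocity. -/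
theorem globalInputSpec_of_finRec (hFR : FinRecAllSpec) : E1.GlobalInputSpec :=
  fun p _ hp2 S hpS => globalSpecFin_of_finRec hFR S p hp2 hpS

end Fermat.Agent.S55.GAD
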