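import Fermat.Agent.S55.GAD.Spec
import Fermat.Agent.S54.ValRing

/-!
# S55 / G-ADAPTER leaf GAD-SU : the dictionary of `S`-units (helper175)

`sUnitDict : GAD.SUnitDictSpec S` — for `x ∈ Fˣ` (`F` a level of the tower):
the divisor of `x` outside `S` vanishes (layer-G language: `ord_w x = 0` for all primes `w` of
`𝓞_F` not above `S`) iff `x` is an `S`-unit in the tower's sense (a unit of every valuation
subring of `ℚ̄` over a prime `ℓ ∉ S`).

General lemmas (any number field `K` inside any field `Ω`):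
* `valuation_eq_one_iff_mem_and_inv_mem` : if the prime `w` of `𝓞_K` is the contraction of the
  maximal ideal of the valuation subring `A` of `Ω`, then `w(x) = 1 ↔ x, x⁻¹ ∈ A`;
* `exists_valuationSubring_over` : every prime `w` of `𝓞_K` is such a contraction.
-/

set_option autoImplicit false
set_option linter.unusedSectionVars false

open scoped NumberField
open IsDedekindDomain

namespace Fermat.Agent.S55.GAD.H175

section General

variable {K : Type*} [Field K] [NumberField K] {Ω : Type*} [Field Ω] [Algebra K Ω]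

/-- The integers of `K` lie in every valuation subring of `Ω`. -/
theorem algebraMap_int_mem (A : ValuationSubring Ω) (b : 𝓞 K) :
    algebraMap K Ω (b : K) ∈ A := by
  have hb : IsIntegral ℤ (b : K) := NumberField.RingOfIntegers.isIntegral_coe b
  exact Fermat.Agent.S54.isIntegral_mem_valuationSubring A (hb.map (algebraMap K Ω).toIntAlgHom)

/-- Non-units of a valuation subring absorb multiplication by elements of the subring. -/
theorem nonunits_mul_mem (A : ValuationSubring Ω) {a b : Ω} (ha : a ∈ A.nonunits)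
    (hb : b ∈ A) : a * b ∈ A.nonunits := by
  rw [ValuationSubring.mem_nonunits_iff] at ha ⊢
  have hb' : A.valuation b ≤ 1 := (A.valuation_le_one_iff b).2 hb
  rw [map_mul]
  calc A.valuation a * A.valuation b ≤ A.valuation a * 1 := mul_le_mul_right hb' _
    _ = A.valuation a := mul_one _
    _ < 1 := ha

variable (A : ValuationSubring Ω) (w : HeightOneSpectrum (𝓞 K))

/-- Elements of `K` which are `w`-integral lie in `A`, if `w` is the prime below `A`. -/
theorem mem_of_valuation_le_one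
    (hw : ∀ b : 𝓞 K, b ∈ w.asIdeal ↔ algebraMap K Ω (b : K) ∈ A.nonunits) (y : K)
    (hy : w.valuation K y ≤ 1) : algebraMap K Ω y ∈ A := by
  obtain ⟨n, d, hnd⟩ := w.exists_primeCompl_mul_eq_of_integer y hy
  have hd : algebraMap K Ω ((d : 𝓞 K) : K) ∉ A.nonunits := fun h => d.2 ((hw d).2 h)
  have hdinv : (algebraMap K Ω ((d : 𝓞 K) : K))⁻¹ ∈ A := by
    by_contra h
    exact hd (A.mem_nonunits_iff_or.mpr (Or.inr h))
  have hd0 : algebraMap K Ω ((d : 𝓞 K) : K) ≠ 0 := fun h => hd (h ▸ A.nonunits.zero_mem)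
  have hnd' : algebraMap K Ω y * algebraMap K Ω ((d : 𝓞 K) : K) = algebraMap K Ω (n : K) := by
    rw [← map_mul]
    exact congrArg (algebraMap K Ω) hnd
  have : algebraMap K Ω y = algebraMap K Ω (n : K) * (algebraMap K Ω ((d : 𝓞 K) : K))⁻¹ := by
    rw [← hnd']
    field_simp
  rw [this]
  exact A.mul_mem _ _ (algebraMap_int_mem A n) hdinv

/-- Elements of `K` of positive `w`-valuation are non-units of `A`. -/
theorem mem_nonunits_of_valuation_lt_one
    (hw : ∀ b : 𝓞 K, b ∈ w.asIdeal ↔ algebraMap K Ω (b : K) ∈ A.nonunits) (y : K)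
    (hy : w.valuation K y < 1) : algebraMap K Ω y ∈ A.nonunits := by
  obtain ⟨n, d, hnd⟩ := w.exists_primeCompl_mul_eq_of_integer y hy.le
  have hd : algebraMap K Ω ((d : 𝓞 K) : K) ∉ A.nonunits := fun h => d.2 ((hw d).2 h)
  have hdinv : (algebraMap K Ω ((d : 𝓞 K) : K))⁻¹ ∈ A := by
    by_contra h
    exact hd (A.mem_nonunits_iff_or.mpr (Or.inr h))
  have hd0 : algebraMap K Ω ((d : 𝓞 K) : K) ≠ 0 := fun h => hd (h ▸ A.nonunits.zero_mem)
  have hvd : w.valuation K (algebraMap (𝓞 K) K (d : 𝓞 K)) = 1 :=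
    (HeightOneSpectrum.valuation_eq_one_iff_notMem w).2 d.2
  have hvn : w.valuation K (algebraMap (𝓞 K) K n) < 1 := by
    rw [← hnd, map_mul, hvd, mul_one]
    exact hy
  have hn : n ∈ w.asIdeal := (w.valuation_lt_one_iff_mem n).1 hvn
  have hnA : algebraMap K Ω (n : K) ∈ A.nonunits := (hw n).1 hn
  have hnd' : algebraMap K Ω y * algebraMap K Ω ((d : 𝓞 K) : K) = algebraMap K Ω (n : K) := by
    rw [← map_mul]
    exact congrArg (algebraMap K Ω) hnd
  have : algebraMap K Ω y = algebraMap K Ω (n : K) * (algebraMap K Ω ((d : 𝓞 K) : K))⁻¹ := by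
    rw [← hnd']
    field_simp
  rw [this]
  exact nonunits_mul_mem A hnA hdinv

/-- **Unit criterion.**  If `w` is the prime of `𝓞_K` below the valuation subring `A` of `Ω`, then
`x ∈ Kˣ` is a `w`-unit iff it is a unit of `A`. -/
theorem valuation_eq_one_iff_mem_and_inv_mem
    (hw : ∀ b : 𝓞 K, b ∈ w.asIdeal ↔ algebraMap K Ω (b : K) ∈ A.nonunits) {x : K}
    (hx : x ≠ 0) :
    w.valuation K x = 1 ↔ algebraMap K Ω x ∈ A ∧ (algebraMap K Ω x)⁻¹ ∈ A := by
  constructor
  · intro h
    refine ⟨mem_of_valuation_le_one A w hw x h.le, ?_⟩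
    rw [← map_inv₀]
    refine mem_of_valuation_le_one A w hw x⁻¹ ?_
    rw [map_inv₀, h, inv_one]
  · rintro ⟨h1, h2⟩
    have hx' : algebraMap K Ω x ≠ 0 := by
      rwa [Ne, map_eq_zero]
    have hv0 : w.valuation K x ≠ 0 := by
      rwa [Ne, map_eq_zero]
    rcases lt_trichotomy (w.valuation K x) 1 with hlt | heq | hgt
    · exfalso
      have := mem_nonunits_of_valuation_lt_one A w hw x hlt
      rw [A.mem_nonunits_iff_or] at this
      rcases this with h | h
      · exact hx' h
      · exact h h2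
    · exact heq
    · exfalso
      have hlt : w.valuation K x⁻¹ < 1 := by
        rw [map_inv₀]
        exact inv_lt_one_of_one_lt₀ hgt
      have := mem_nonunits_of_valuation_lt_one A w hw x⁻¹ hlt
      rw [map_inv₀, A.mem_nonunits_iff_or, inv_inv] at this
      rcases this with h | h
      · exact hx' (inv_eq_zero.1 h)
      · exact h h1

/-- Every prime of `𝓞_K` is the contraction of the maximal ideal of a valuation subring of
`Ω`. -/
theorem exists_valuationSubring_over (Ω : Type*) [Field Ω] [Algebra K Ω]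
    (w : HeightOneSpectrum (𝓞 K)) :
    ∃ A : ValuationSubring Ω,
      ∀ b : 𝓞 K, b ∈ w.asIdeal ↔ algebraMap K Ω (b : K) ∈ A.nonunits := by
  let f : 𝓞 K →+* Ω := (algebraMap K Ω).comp (algebraMap (𝓞 K) K)
  have hf : Function.Injective f :=
    (algebraMap K Ω).injective.comp NumberField.RingOfIntegers.coe_injective
  let A₀ : Subring Ω := f.range
  let I : Ideal A₀ := w.asIdeal.map f.rangeRestrict
  have hsurj : Function.Surjective f.rangeRestrict := f.rangeRestrict_surjective
  have hmem : ∀ b : 𝓞 K, f.rangeRestrict b ∈ I → b ∈ w.asIdeal := by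
    intro b hb
    obtain ⟨c, hc, hcb⟩ := (Ideal.mem_map_iff_of_surjective _ hsurj).1 hb
    have : c = b := hf (congrArg Subtype.val hcb)
    exact this ▸ hc
  have hI : I ≠ ⊤ := by
    intro h
    have h1 : f.rangeRestrict 1 ∈ I := by rw [h]; trivial
    exact w.isPrime.ne_top ((Ideal.eq_top_iff_one _).2 (hmem 1 h1))
  obtain ⟨A, hA₀, hA⟩ := Ideal.image_subset_nonunits_valuationSubring I hI
  refine ⟨A, fun b => ⟨fun hb => ?_, fun hb => ?_⟩⟩
  · exact hA ⟨f.rangeRestrict b, Ideal.mem_map_of_mem _ hb, rfl⟩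
  · -- the contraction of the maximal ideal is a proper ideal containing the maximal ideal `w`
    by_contra hbw
    have hmax : w.asIdeal.IsMaximal := w.isMaximal
    obtain ⟨r, a, ha, hac⟩ := hmax.exists_inv hbw
    have hfb : f b ∈ A.nonunits := hb
    have hfa : f a ∈ A.nonunits := hA ⟨f.rangeRestrict a, Ideal.mem_map_of_mem _ ha, rfl⟩
    have hfr : f r ∈ A := algebraMap_int_mem A r
    have h2 : f (r * b + a) ∈ A.nonunits := by
      rw [map_add, map_mul, mul_comm]
      exact A.nonunits.add_mem (nonunits_mul_mem A hfb hfr) hfa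
    rw [hac, map_one, ValuationSubring.mem_nonunits_iff, map_one] at h2
    exact lt_irrefl _ h2

/-- The ring homomorphism `𝓞_K → A`. -/
noncomputable def toValSubring (A : ValuationSubring Ω) : 𝓞 K →+* A :=
  ((algebraMap K Ω).comp (algebraMap (𝓞 K) K)).codRestrict A.toSubring
    (fun b => algebraMap_int_mem A b)

/-- The prime of `𝓞_K` below a valuation subring of `Ω`. -/
noncomputable def primeUnder (A : ValuationSubring Ω) : Ideal (𝓞 K) :=
  (IsLocalRing.maximalIdeal A).comap (toValSubring (K := K) A)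

instance primeUnder_isPrime (A : ValuationSubring Ω) : (primeUnder (K := K) A).IsPrime := by
  unfold primeUnder
  infer_instance

theorem mem_primeUnder {A : ValuationSubring Ω} {b : 𝓞 K} :
    b ∈ primeUnder (K := K) A ↔ algebraMap K Ω (b : K) ∈ A.nonunits := by
  rw [ValuationSubring.mem_nonunits_iff_exists_mem_maximalIdeal]
  constructor
  · intro h
    exact ⟨algebraMap_int_mem A b, h⟩
  · rintro ⟨_, h⟩
    exact h

/-- The place of `K` below a valuation subring of `Ω` over a prime number. -/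
noncomputable def placeUnder (A : ValuationSubring Ω) (ℓ : ℕ) (hℓ : ℓ.Prime)
    (hA : A.LiesOverPrime ℓ) : HeightOneSpectrum (𝓞 K) where
  asIdeal := primeUnder A
  isPrime := inferInstance
  ne_bot := by
    intro h
    have h1 : ((ℓ : ℕ) : 𝓞 K) ∈ primeUnder (K := K) A := by
      rw [mem_primeUnder]
      have : algebraMap K Ω (((ℓ : ℕ) : 𝓞 K) : K) = (ℓ : Ω) := by
        rw [show (((ℓ : ℕ) : 𝓞 K) : K) = (ℓ : K) from map_natCast (algebraMap (𝓞 K) K) ℓ,
          map_natCast]
      rw [this]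
      exact hA
    rw [h, Ideal.mem_bot] at h1
    exact hℓ.ne_zero (Nat.cast_eq_zero.1 h1)

theorem mem_placeUnder {A : ValuationSubring Ω} {ℓ : ℕ} {hℓ : ℓ.Prime}
    {hA : A.LiesOverPrime ℓ} {b : 𝓞 K} :
    b ∈ (placeUnder (K := K) A ℓ hℓ hA).asIdeal ↔ algebraMap K Ω (b : K) ∈ A.nonunits :=
  mem_primeUnder

/-- A rational prime in the prime below `A` is the residue characteristic of `A`. -/
theorem eq_of_natCast_mem (A : ValuationSubring Ω) (w : HeightOneSpectrum (𝓞 K))
    (hw : ∀ b : 𝓞 K, b ∈ w.asIdeal ↔ algebraMap K Ω (b : K) ∈ A.nonunits)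
    {ℓ q : ℕ} (hℓ : ℓ.Prime) (hq : q.Prime) (hA : A.LiesOverPrime ℓ)
    (hqw : (q : 𝓞 K) ∈ w.asIdeal) : q = ℓ := by
  have h1 : algebraMap K Ω (((q : ℕ) : 𝓞 K) : K) ∈ A.nonunits := (hw _).1 hqw
  have h2 : algebraMap K Ω (((q : ℕ) : 𝓞 K) : K) = ((q : ℤ) : Ω) := by
    rw [show (((q : ℕ) : 𝓞 K) : K) = (q : K) from map_natCast (algebraMap (𝓞 K) K) q,
      map_natCast, Int.cast_natCast]
  rw [h2] at h1
  have h3 := Fermat.Agent.S54.dvd_of_intCast_mem_nonunits A ℓ hℓ hA (q : ℤ) h1
  have h4 : ℓ ∣ q := by exact_mod_cast h3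
  exact ((Nat.prime_dvd_prime_iff_eq hℓ hq).1 h4).symm

end General

section Tower

open Fermat.Agent.S55 Fermat.Agent.S55.Tow Fermat.Agent.S55.E1.H594 Fermat.Agent.S55.G

variable {S : Finset Nat.Primes} (L : Level S)

/-- The element of `ℚ̄` underlying `toField L e`. -/
theorem algebraMap_toField (e : L.units.V) :
    algebraMap L.F Qbar ((((toField L e).toMul : (L.F)ˣ) : L.F)) = ((L.val e : Qbarˣ) : Qbar) :=
  coe_toField L e

/-- `divT L e = 0` iff `e` is a unit at all primes of `𝓞_F` not above `S`. -/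
theorem divT_eq_zero_iff (e : L.units.V) :
    divT L e = 0 ↔ ∀ w : PrimeOut S L.F,
      w.1.valuation L.F ((((toField L e).toMul : (L.F)ˣ) : L.F)) = 1 := by
  constructor
  · intro h w
    rw [← ordAt_eq_zero_iff]
    have := DFunLike.congr_fun h w
    exact this
  · intro h
    refine Finsupp.ext fun w => ?_
    show ordAt w.1 (toField L e) = 0
    rw [ordAt_eq_zero_iff]
    exact h w

/-- **GAD-SU.**  The dictionary of `S`-units. -/
theorem sUnitDict (S : Finset Nat.Primes) : GAD.SUnitDictSpec S := by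
  intro L e
  have hx0 : ((((toField L e).toMul : (L.F)ˣ) : L.F)) ≠ 0 := Units.ne_zero _
  rw [divT_eq_zero_iff]
  constructor
  · intro h ℓ hℓ A hA
    let w : HeightOneSpectrum (𝓞 L.F) := placeUnder (K := L.F) A ℓ ℓ.2 hA
    have hw : ∀ b : 𝓞 L.F, b ∈ w.asIdeal ↔ algebraMap L.F Qbar (b : L.F) ∈ A.nonunits :=
      fun b => mem_placeUnder
    have hout : ¬ IsAbove S L.F w := by
      rintro ⟨q, hqS, hq⟩
      have := eq_of_natCast_mem A w hw ℓ.2 q.2 hA hq
      exact hℓ ((Subtype.ext this : q = ℓ) ▸ hqS)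
    have h1 := (valuation_eq_one_iff_mem_and_inv_mem A w hw hx0).1 (h ⟨w, hout⟩)
    rw [algebraMap_toField] at h1
    refine ⟨h1.1, ?_⟩
    have : (((L.val e)⁻¹ : Qbarˣ) : Qbar) = ((L.val e : Qbarˣ) : Qbar)⁻¹ := Units.val_inv_eq_inv_val _
    rw [this]
    exact h1.2
  · intro h w
    obtain ⟨A, hw⟩ := exists_valuationSubring_over (K := L.F) Qbar w.1
    obtain ⟨ℓ, hℓ⟩ := exists_prime_natCast_mem w.1
    have hA : A.LiesOverPrime (ℓ : ℕ) := by
      have h1 := (hw _).1 hℓ
      have h2 : algebraMap L.F Qbar ((((ℓ : ℕ) : 𝓞 L.F)) : L.F) = ((ℓ : ℕ) : Qbar) := by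
        rw [show ((((ℓ : ℕ) : 𝓞 L.F)) : L.F) = ((ℓ : ℕ) : L.F) from
          map_natCast (algebraMap (𝓞 L.F) L.F) ℓ, map_natCast]
      rw [h2] at h1
      exact h1
    have hℓS : ℓ ∉ S := fun hS => w.2 ⟨ℓ, hS, hℓ⟩
    obtain ⟨h1, h2⟩ := h ℓ hℓS A hA
    rw [valuation_eq_one_iff_mem_and_inv_mem A w.1 hw hx0, algebraMap_toField]
    refine ⟨h1, ?_⟩
    have : (((L.val e)⁻¹ : Qbarˣ) : Qbar) = ((L.val e : Qbarˣ) : Qbar)⁻¹ := Units.val_inv_eq_inv_val _
    rw [← this]
    exact h2

end Tower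

end Fermat.Agent.S55.GAD.H175
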