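/-
S55 / G-ADAPTER (sub-architect helper955): **LAYER G, UNCONDITIONAL.**

`globalInputSpec : E1.GlobalInputSpec` — the global arithmetic input of the engine E1 (a good
tower datum in the final sense `Tow.GlobalSpecFin S p` for all odd `p ∈ S`), with NO hypothesis.

= `GAD.globalInputSpec_of_finRec` (`GAD/Closed.lean`) applied to the finite-level reciprocity
`finRecAll`, assembled here from the landed FR pieces (block REC2-TOW:FR, architect helper353):
* `FR.H724.finRec_of_fields` (recip + resIndex closed by helper724; FR-CONJ helper414, FR-COUNT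
  helper73, FR-OUT helper64/724),
* `injAt`   : `FR.H894.injAt_of` (helper894),
* `locClass`: `FR.H481.locClass_of` (helper481) with FR-D `FR.H233.primePlace`, FR-B
  `FR.H897.orbitReps`, FR-C `FR.H715.locExist`, FR-A `FR.H894.locInj`,
* reciprocity `G.Rec.reciprocityFull` (helper1, helper473 HP), local invariants
  `G.Rec.Loc.localInvSystem` (helper477 + LOC leaf owners), Shapiro `G.AllH604.shapiroJ`.
-/
import Fermat.Agent.S55.GAD.Closed
import Fermat.Agent.S55.G.Rec.Tow.FR.AssemblyH724
import Fermat.Agent.S55.G.Rec.Tow.FR.InjAtH894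
import Fermat.Agent.S55.G.Rec.Tow.FR.AsmLocH481
import Fermat.Agent.S55.G.Rec.Tow.FR.OrbitRepsH897
import Fermat.Agent.S55.G.Rec.Tow.FR.LocInjH894
import Fermat.Agent.S55.G.Rec.Tow.FR.LocExistH715
import Fermat.Agent.S55.G.Rec.Tow.FR.PrimePlaceH233
import Fermat.Agent.S55.G.Rec.ReciprocityFull
import Fermat.Agent.S55.G.Rec.Loc.Final

set_option autoImplicit false

namespace Fermat.Agent.S55.GAD

open Fermat.Agent.S55 Fermat.Agent.S55.Tow Fermat.Agent.S55.G.Rec Fermat.Agent.S55.G.Rec.TOW

/-- **Finite-level reciprocity** (`FinRecSpec p` for every odd prime `p`), closed. -/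
theorem finRecAll : FinRecAllSpec := by
  intro p hp hp2
  have : Fact p.Prime := ⟨hp⟩
  exact FR.H724.finRec_of_fields Loc.localInvSystem p (reciprocityFull Loc.localInvSystem p hp2)
    (fun M r y _ hat h0 => FR.H894.injAt_of Loc.localInvSystem G.AllH604.shapiroJ M r y hat h0)
    (fun M r hr H Z hZH hZ hfix =>
      FR.H481.locClass_of Loc.localInvSystem p (fun {_} => FR.H233.primePlace)
        (fun {_} => FR.H897.orbitReps) FR.H715.locExist (fun {_} => FR.H894.locInj)
        G.AllH604.shapiroJ M r hr H Z hZH hZ hfix)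

/-- **LAYER G, UNCONDITIONAL**: the global input of the engine E1. -/
theorem globalInputSpec : E1.GlobalInputSpec := globalInputSpec_of_finRec finRecAll

/-- The good tower datum (final form) for one `(S, p)`, unconditional. -/
theorem globalSpecFin (S : Finset Nat.Primes) (p : ℕ) [hp : Fact p.Prime] (hp2 : p ≠ 2)
    (hpS : (⟨p, hp.out⟩ : Nat.Primes) ∈ S) : GlobalSpecFin S p :=
  globalSpecFin_of_finRec finRecAll S p hp2 hpS

/-- The universal class-module property for `p`-groups (layer G), unconditional. -/
theorem pClassModule : G.PClassModuleSpec := pClassModule_of_finRec finRecAll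

end Fermat.Agent.S55.GAD
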