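import Fermat.Agent.S55.GAD.ExistH121
import Fermat.Agent.S55.GAD.Final

/-!
# S55 / G-ADAPTER, leaf GAD-EX1 (one Kummer step of gd6), in the shapes consumed by `GAD/Final.lean`

Author: helper121.  `p` an odd prime, `p ∈ S`.

* `existStepSpecG_of_core : Exist121.ExistCoreSpec → GAD.ExistStepSpecG S p`;
* `existStepSpecG_of_classModule : G.PClassModuleSpec → GAD.ExistStepSpecG S p`;
* `existStepSpec_of_classModule : G.PClassModuleSpec → GAD.H233.ExistStepSpec S p`;
* `existStep_all_of_classModule`, `existStepG_all_of_classModule` : the quantified forms taken by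
  `GAD.globalInputSpec_of` / `GAD.globalInputSpec_of_G`.

The level `L₁` is the Kummer level `Exist121.kummerTow p hpS L₀ = L₀(V_S(L₀)^{1/p})`.
-/

set_option autoImplicit false

noncomputable section

namespace Fermat.Agent.S55.GAD.H121

open Fermat.Agent.S55 Fermat.Agent.S55.Tow Fermat.Agent.S55.G

variable (S : Finset Nat.Primes) (p : ℕ) [hp : Fact p.Prime]

omit hp in
/-- One Kummer step from the full gd6 (take `L = L₁`). -/
theorem existStepSpecG_of_existenceSpecG (h : GAD.ExistenceSpecG S p) : GAD.ExistStepSpecG S p := by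
  intro L₀ hμ
  obtain ⟨L₁, h₀₁, hL⟩ := h L₀ hμ
  exact ⟨L₁, h₀₁, hL L₁ h₀₁ le_rfl⟩

/-- GAD-EX1 (layer-G language) from the finite-level existence theorem. -/
theorem existStepSpecG_of_core (hp2 : p ≠ 2) (hpS : (⟨p, hp.out⟩ : Nat.Primes) ∈ S)
    (hCore : Exist121.ExistCoreSpec) : GAD.ExistStepSpecG S p :=
  existStepSpecG_of_existenceSpecG S p (existenceSpecG_of_core S p hp2 hpS hCore)

/-- GAD-EX1 (layer-G language), modulo the class-module input of layer G. -/
theorem existStepSpecG_of_classModule (hp2 : p ≠ 2) (hpS : (⟨p, hp.out⟩ : Nat.Primes) ∈ S)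
    (hCM : PClassModuleSpec) : GAD.ExistStepSpecG S p :=
  existStepSpecG_of_core S p hp2 hpS (Exist121.existCore_of_classModule hCM)

/-- GAD-EX1 (concrete datum), modulo the class-module input of layer G. -/
theorem existStepSpec_of_classModule (hp2 : p ≠ 2) (hpS : (⟨p, hp.out⟩ : Nat.Primes) ∈ S)
    (hCM : PClassModuleSpec) : GAD.H233.ExistStepSpec S p :=
  GAD.existStepSpec_of_G S p (existStepSpecG_of_classModule S p hp2 hpS hCM)

/-- The quantified form taken by `GAD.globalInputSpec_of_G`. -/
theorem existStepG_all_of_classModule (hCM : PClassModuleSpec) :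
    ∀ (p : ℕ) [Fact p.Prime], p ≠ 2 → ∀ S : Finset Nat.Primes,
      ExtCitation.pPrime p ∈ S → GAD.ExistStepSpecG S p :=
  fun p _ hp2 S hpS => existStepSpecG_of_classModule S p hp2 hpS hCM

/-- The quantified form taken by `GAD.globalInputSpec_of`. -/
theorem existStep_all_of_classModule (hCM : PClassModuleSpec) :
    ∀ (p : ℕ) [Fact p.Prime], p ≠ 2 → ∀ S : Finset Nat.Primes,
      ExtCitation.pPrime p ∈ S → GAD.H233.ExistStepSpec S p :=
  fun p _ hp2 S hpS => existStepSpec_of_classModule S p hp2 hpS hCM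

end Fermat.Agent.S55.GAD.H121
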