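/-
S55 / G-ADAPTER leaf GAD-ISO (helper594): comparison of the class module of layer G with the
class module of the concrete tower datum (coord/S55-E1-GAD.md §3).

For a tower level `L : Tow.Level S`:
* `psi L : Additive (G.AS S L.F)ˣ ≃ₗ[ℤ] GAD.JSV L`  (= TENS, `E1/H594/TensS.lean`), equivariant,
  `psi_unitsDiag : psi (unitsDiag y) q = (L.diag q) (levelUnitsIso y)`;
* `psiD L : G.JD S L.F ≃ₗ[ℤ] GAD.JDV L`, `psiD_diagHom`, `map_principal`;
* **`crepIso L : G.CRep S L.Gal L.F ≅ GAD.CT L`** in `Rep ℤ L.Gal`, with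
  `crepIso_hom_mk : Φ [y] = mkC (psiD y)`, `crepIso_hom_jToC : Φ (j u) = mkC (psi u, 0)
  = ∑ q, jT q (psi u q)`, and `jT_eq : jT L q = tensIncl L q ≫ jToCRepHom ≫ Φ` (`q ∈ S`).
No `sorry`.
-/
import Fermat.Agent.S55.GAD.Defs
import Fermat.Agent.S55.E1.H594.TensS

set_option autoImplicit false
set_option linter.unusedSectionVars false
set_option linter.style.haveILetI false

open CategoryTheory

namespace Fermat.Agent.S55.GAD.H594

open Fermat.Agent.S55 Fermat.Agent.S55.Tow Fermat.Agent.S55.E1.H594 Fermat.Agent.S55.G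
open Fermat.Agent.S55.GAD

noncomputable section

variable {S : Finset Nat.Primes} (L : Level S)

/-- `Ψ_L : J_S(F) = (F ⊗ ℚ_S)ˣ ≃ ∏_{q ∈ S} J_q(F)` (TENS) as a `ℤ`-linear equivalence. -/
def psi : Additive (AS S L.F)ˣ ≃ₗ[ℤ] JSV L := (tensEquiv L).toIntLinearEquiv

theorem psi_apply (u : Additive (AS S L.F)ˣ) (q : S) : psi L u q = tensEquiv L u q := rfl

theorem psi_equivariant (g : L.Gal) (u : Additive (AS S L.F)ˣ) :
    psi L (jRepr L.Gal S L.F g u) = jsRepr L g (psi L u) :=
  funext fun q => tensEquiv_equivariant L g u q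

/-- The value of the tower's diagonal map, in `ℚ̄_q`. -/
theorem locVal_diag (x : L.units.V) (q : Nat.Primes) (g : L.Gal) :
    E1.H594.locVal L q (((L.diag q).hom x).1 g) =
      padicEmbedding (q : ℕ) (levelInvVal L (L.units.ρ g x)) := rfl

theorem levelInvVal_ρ_hom (y : Additive (L.F)ˣ) (g : L.Gal) :
    levelInvVal L (L.units.ρ g ((levelUnitsIso L).hom.hom y)) =
      ((g • ((y.toMul : (L.F)ˣ) : L.F) : L.F) : Qbar) := by
  have h1 := Rep.hom_comm_apply (levelUnitsIso L).hom g y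
  rw [← h1]
  exact coe_levelUnitsIso_hom_apply L _

/-- `Ψ_L` is compatible with the diagonal embeddings of `Fˣ`. -/
theorem psi_unitsDiag (y : Additive (L.F)ˣ) (q : S) :
    psi L (unitsDiag S L.F y) q = (L.diag q.1).hom ((levelUnitsIso L).hom.hom y) := by
  apply E1.H594.J_ext
  intro g
  rw [psi_apply, tensEquiv_unitsDiag, locVal_diag, levelInvVal_ρ_hom]

/-- `Ψ_L × id : J_S(F) × Div^S(F) ≃ ∏ J_q(F) × Div^S(F)`. -/
def psiD : JD S L.F ≃ₗ[ℤ] JDV L :=
  LinearEquiv.prodCongr (psi L) (LinearEquiv.refl ℤ (PrimeOut S L.F →₀ ℤ))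

theorem psiD_apply (y : JD S L.F) : psiD L y = (psi L y.1, y.2) := rfl

theorem psiD_equivariant (g : L.Gal) (y : JD S L.F) :
    psiD L (G.jdRepr S L.Gal L.F g y) = GAD.jdRepr L g (psiD L y) :=
  Prod.ext (psi_equivariant L g y.1) rfl

theorem toField_hom (y : Additive (L.F)ˣ) : toField L ((levelUnitsIso L).hom.hom y) = y :=
  Rep.inv_hom_apply _ _ (levelUnitsIso L) y

theorem hom_toField (x : L.units.V) : (levelUnitsIso L).hom.hom (toField L x) = x :=
  Rep.hom_inv_apply _ _ (levelUnitsIso L) x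

/-- `Ψ_L × id` maps the diagonal of layer G to the diagonal of the tower datum. -/
theorem psiD_diagHom (y : Additive (L.F)ˣ) :
    psiD L (diagHom S L.F y) = diagT L ((levelUnitsIso L).hom.hom y) := by
  refine Prod.ext (funext fun q => ?_) ?_
  · exact psi_unitsDiag L y q
  · change ordHom S L.F y = ordHom S L.F (toField L ((levelUnitsIso L).hom.hom y))
    rw [toField_hom]

theorem psiD_diagHom_toField (x : L.units.V) :
    psiD L (diagHom S L.F (toField L x)) = diagT L x := by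
  rw [psiD_diagHom, hom_toField]

/-- `Ψ_L × id` maps the principal idèles onto the principal elements of the tower datum. -/
theorem map_principal :
    (principal S L.F).map (psiD L : JD S L.F →ₗ[ℤ] JDV L) = princ L := by
  apply le_antisymm
  · rintro _ ⟨_, ⟨y, rfl⟩, rfl⟩
    exact ⟨(levelUnitsIso L).hom.hom y, (psiD_diagHom L y).symm⟩
  · rintro _ ⟨x, rfl⟩
    exact ⟨diagHom S L.F (toField L x), ⟨toField L x, rfl⟩, psiD_diagHom_toField L x⟩

/-- The underlying linear equivalence of `Φ_L`. -/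
def isoLin : CS S L.F ≃ₗ[ℤ] (CT L).V :=
  Submodule.Quotient.equiv (principal S L.F) (princ L) (psiD L) (map_principal L)

theorem isoLin_mk (y : JD S L.F) :
    isoLin L ((principal S L.F).mkQ y) = mkC L (psiD L y) := rfl

theorem isoLin_equivariant (g : L.Gal) (c : CS S L.F) :
    isoLin L (cRepr S L.Gal L.F g c) = (CT L).ρ g (isoLin L c) := by
  obtain ⟨y, rfl⟩ := Submodule.mkQ_surjective (principal S L.F) c
  change isoLin L ((principal S L.F).mkQ (G.jdRepr S L.Gal L.F g y)) = _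
  rw [isoLin_mk, isoLin_mk, psiD_equivariant]
  rfl

/-- `Φ_L` as an equivalence of representations. -/
def isoEquiv : (cRepr S L.Gal L.F).Equiv (CT L).ρ :=
  Representation.Equiv.mk (isoLin L) (fun g => LinearMap.ext fun c => isoLin_equivariant L g c)

/-- **GAD-ISO**: `Φ_L : C_S(F) ≅ C(L)`, the class module of layer G is the class module of the
concrete tower datum. -/
def crepIso : CRep S L.Gal L.F ≅ CT L := Rep.mkIso (isoEquiv L)

theorem crepIso_hom_apply (c : CS S L.F) : (crepIso L).hom.hom c = isoLin L c := rfl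

theorem crepIso_hom_mk (y : JD S L.F) :
    (crepIso L).hom.hom ((principal S L.F).mkQ y) = mkC L (psiD L y) := rfl

theorem crepIso_hom_quot (y : JD S L.F) :
    (crepIso L).hom.hom ((quotRepHom S L.Gal L.F).hom y) = mkC L (psiD L y) := rfl

/-- `Φ ∘ (J_S → C_S) = mkC ∘ (Ψ, 0)`. -/
theorem crepIso_hom_jToC (u : Additive (AS S L.F)ˣ) :
    (crepIso L).hom.hom ((jToCRepHom S L.Gal L.F).hom u) = mkC L (psi L u, 0) := rfl

/-- `Φ ∘ (J_S → C_S) = ∑_q j_q ∘ Ψ_q`. -/
theorem crepIso_hom_jToC_eq_sum (u : Additive (AS S L.F)ˣ) :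
    (crepIso L).hom.hom ((jToCRepHom S L.Gal L.F).hom u) =
      ∑ q : S, (jT L q.1).hom (psi L u q) := by
  rw [crepIso_hom_jToC, sum_jT]

/-- `j_q = Φ ∘ (J_S → C_S) ∘ incl_q` for `q ∈ S`, elementwise. -/
theorem jT_apply_eq (q : S) (f : (L.J q.1).V) :
    (jT L q.1).hom f =
      (crepIso L).hom.hom ((jToCRepHom S L.Gal L.F).hom ((tensIncl L q).hom f)) := by
  classical
  rw [crepIso_hom_jToC, jT_apply_of_mem]
  have h : psi L ((tensIncl L q).hom f) = Pi.single q f := tensEquiv_tensInclFun L q f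
  rw [h]

/-- `j_q = incl_q ≫ (J_S → C_S) ≫ Φ` for `q ∈ S`, in `Rep ℤ L.Gal`. -/
theorem jT_eq (q : S) :
    jT L q.1 = tensIncl L q ≫ jToCRepHom S L.Gal L.F ≫ (crepIso L).hom := by
  apply Rep.hom_ext
  apply Representation.IntertwiningMap.ext
  exact LinearMap.ext fun f => jT_apply_eq L q f

end

end Fermat.Agent.S55.GAD.H594
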