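/-
S55 / G-ADAPTER, leaf GAD-TR (helper594): the targets of the block REC2-TOW
(`G/Rec/Tow/Spec.lean`: `Gd1Spec`, `Gd3Spec`) imply the leaf specs GAD-CM and GAD-J of the
concrete tower datum (`GAD/Spec.lean`), along the comparison isomorphism
`crepIso L : G.CRep S L.Gal L.F ≅ GAD.CT L` (`GAD/IsoH594.lean`).

* `asPiEquivF S F : F ⊗ ℚ_S ≃+* ∏_{q ∈ S} ℚ_q ⊗ F` (any field `F`), `asPiEquivF_asRes`;
* `jRes_tensInclFun` : the `q`-component `J_q(F) → J_S(F)` dies in `J_{S ∖ {q}}(F)`;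
* `isAt_tensIncl` : classes coming from `H²(J_q(F))` are concentrated at `q` (`TOW.IsAt`);
* **`classModule_of_gd1 : TOW.Gd1Spec p → GAD.ClassModuleSpec S p`**  (`p` odd prime, `p ∈ S`);
* **`jInj_of_gd3 : TOW.Gd3Spec p → GAD.JInjSpec S p`**.
Complete proofs.
-/
import Fermat.Agent.S55.GAD.IsoH594
import Fermat.Agent.S55.GAD.Spec
import Fermat.Agent.S55.G.Rec.Tow.Spec

set_option autoImplicit false
set_option linter.unusedSectionVars false
set_option linter.style.haveILetI false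

open CategoryTheory

namespace Fermat.Agent.S55.GAD.H594

open Fermat.Agent.S55 Fermat.Agent.S55.Tow Fermat.Agent.S55.E1.H594 Fermat.Agent.S55.G
open Fermat.Agent.S55.GAD
open scoped TensorProduct

noncomputable section

/-! ### 1. Components of `S`-adèles, for any field -/

section Generic

variable (S : Finset Nat.Primes) (F : Type) [Field F] [CharZero F]

/-- The ring isomorphism `F ⊗[ℚ] ℚ_S ≃ ∏_{q ∈ S} ℚ_q ⊗[ℚ] F`, for any field `F`. -/
def asPiEquivF : G.AS S F ≃+* (∀ q : S, G.Qq q.1 ⊗[ℚ] F) := by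
  classical
  exact ((Algebra.TensorProduct.congr (AlgEquiv.refl : F ≃ₐ[ℚ] F) (G.QS.toPi S)).trans
    ((Algebra.TensorProduct.piRight ℚ ℚ F (fun q : S => G.Qq q.1)).trans
      (AlgEquiv.piCongrRight
        (fun q : S => Algebra.TensorProduct.comm ℚ F (G.Qq q.1))))).toRingEquiv

theorem asPiEquivF_tmul (x : F) (y : G.QS S) (q : S) :
    asPiEquivF S F (x ⊗ₜ[ℚ] y) q = (G.QS.toPi S y q) ⊗ₜ[ℚ] x := rfl

variable {S} in
/-- The components of the projection `𝔸_S(F) → 𝔸_{S'}(F)`, `S' ⊆ S`. -/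
theorem asPiEquivF_asRes {S' : Finset Nat.Primes} (h : S' ⊆ S) (a : G.AS S F) (q : S') :
    asPiEquivF S' F (G.asRes h F a) q = asPiEquivF S F a ⟨q.1, h q.2⟩ := by
  induction a using TensorProduct.induction_on with
  | zero => rw [map_zero, map_zero, map_zero]; rfl
  | add a b ha hb =>
    rw [map_add, map_add, map_add, Pi.add_apply, Pi.add_apply, ha, hb]
  | tmul x y =>
    rw [G.asRes_tmul, asPiEquivF_tmul, asPiEquivF_tmul]
    rfl

end Generic

variable {S : Finset Nat.Primes} (L : Level S)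

theorem asPiEquivF_eq : asPiEquivF S L.F = asPiEquiv L := rfl

/-- If the `q`-component (in the tower module `J_q(F)`) of an `S`-idèle is trivial, so is its
component in `(ℚ_q ⊗ F)ˣ`. -/
theorem asPiEquiv_eq_one_of_tensEquiv (u : Additive (AS S L.F)ˣ) (q : S)
    (h : tensEquiv L u q = 0) :
    asPiEquiv L ((u.toMul : (AS S L.F)ˣ) : AS S L.F) q = 1 := by
  have h1 : tensLocEquiv L q.1
      (Additive.ofMul (MulEquiv.piUnits (M := fun q : S => G.Qq q.1 ⊗[ℚ] L.F)
        (Units.mapEquiv (asPiEquiv L).toMulEquiv u.toMul) q)) = 0 := h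
  have h2 := (AddEquiv.map_eq_zero_iff (tensLocEquiv L q.1)).1 h1
  have h3 : MulEquiv.piUnits (M := fun q : S => G.Qq q.1 ⊗[ℚ] L.F)
        (Units.mapEquiv (asPiEquiv L).toMulEquiv u.toMul) q = 1 := h2
  exact congrArg Units.val h3

/-- The `q`-component `J_q(F) → J_S(F)` dies in `J_{S ∖ {q}}(F)`. -/
theorem jRes_tensInclFun (q : S) (f : (L.J q.1).V) :
    G.jRes (Finset.erase_subset q.1 S) L.F (tensInclFun L q f) = 0 := by
  apply Additive.toMul.injective
  apply Units.ext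
  change G.asRes (Finset.erase_subset q.1 S) L.F
    (((tensInclFun L q f).toMul : (AS S L.F)ˣ) : AS S L.F) = 1
  apply (asPiEquivF (S.erase q.1) L.F).injective
  rw [map_one]
  funext q'
  rw [asPiEquivF_asRes]
  have hne : (⟨q'.1, Finset.erase_subset q.1 S q'.2⟩ : S) ≠ q := fun hq =>
    (Finset.mem_erase.1 q'.2).1 (congrArg Subtype.val hq)
  exact asPiEquiv_eq_one_of_tensEquiv L _ _ (tensEquiv_tensInclFun_ne L hne f)

/-- The same in `Rep ℤ L.Gal`. -/
theorem tensIncl_comp_jRes (q : S) :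
    tensIncl L q ≫ G.Rec.TOW.jResRepHom L.Gal L.F (Finset.erase_subset q.1 S) = 0 := by
  apply Rep.hom_ext
  apply Representation.IntertwiningMap.ext
  exact LinearMap.ext fun f => jRes_tensInclFun L q f

theorem tensIncl_comp_tensProj (q : S) : tensIncl L q ≫ tensProj L q = 𝟙 (L.J q.1) := by
  apply Rep.hom_ext
  apply Representation.IntertwiningMap.ext
  exact LinearMap.ext fun f => tensProj_tensIncl_same L q f

/-! ### 2. Functoriality of `H²` -/

section Coh

variable {Γ : Type} [Group Γ]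

theorem h2_comp {A B C : Rep.{0} ℤ Γ} (f : A ⟶ B) (g : B ⟶ C) (x : groupCohomology A 2) :
    (T.coeffMap (f ≫ g) 2).hom x = (T.coeffMap g 2).hom ((T.coeffMap f 2).hom x) := by
  have h : T.coeffMap (f ≫ g) 2 = T.coeffMap f 2 ≫ T.coeffMap g 2 :=
    groupCohomology.map_id_comp f g 2
  rw [h]
  rfl

theorem h2_id (A : Rep.{0} ℤ Γ) (x : groupCohomology A 2) : (T.coeffMap (𝟙 A) 2).hom x = x := by
  have h : T.coeffMap (𝟙 A) 2 = 𝟙 _ := groupCohomology.map_id (B := A) (n := 2)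
  rw [h]
  rfl

theorem h2_zero (A B : Rep.{0} ℤ Γ) (x : groupCohomology A 2) :
    (T.coeffMap (0 : A ⟶ B) 2).hom x = 0 := by
  change ((groupCohomology.functor ℤ Γ 2).map (0 : A ⟶ B)).hom x = 0
  rw [CategoryTheory.Functor.map_zero]
  rfl

theorem h2_iso_injective {C C' : Rep.{0} ℤ Γ} (e : C ≅ C') :
    Function.Injective (T.coeffMap e.hom 2).hom := by
  intro x y hxy
  have h := congrArg (T.coeffMap e.inv 2).hom hxy
  rwa [← h2_comp, ← h2_comp, Iso.hom_inv_id, h2_id, h2_id] at h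

end Coh

/-- Classes coming from `H²(Gal, J_q(F))` are concentrated at `q`. -/
theorem isAt_tensIncl (q : S) (y : groupCohomology (L.J q.1) 2) :
    G.Rec.TOW.IsAt S L.Gal L.F q.1 ((T.coeffMap (tensIncl L q) 2).hom y) := by
  change (T.coeffMap (G.Rec.TOW.jResRepHom L.Gal L.F (Finset.erase_subset q.1 S)) 2).hom
    ((T.coeffMap (tensIncl L q) 2).hom y) = 0
  rw [← h2_comp, tensIncl_comp_jRes, h2_zero]

/-! ### 3. The transports -/

section Iso

variable {Γ : Type} [Group Γ]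

/-- Restriction to a subgroup commutes with change of coefficients. -/
theorem resMap_coeffMap_apply594 {C C' : Rep.{0} ℤ Γ} (f : C ⟶ C') (H : Subgroup Γ) (n : ℕ)
    (x : groupCohomology C n) :
    (T.resMap C' H n).hom ((T.coeffMap f n).hom x) =
      (T.coeffMap ((Rep.resFunctor H.subtype).map f) n).hom ((T.resMap C H n).hom x) := by
  have h : T.coeffMap f n ≫ T.resMap C' H n =
      T.resMap C H n ≫ T.coeffMap ((Rep.resFunctor H.subtype).map f) n := by
    rw [← groupCohomology.map_comp, ← groupCohomology.map_comp]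
    exact groupCohomology.map_congr rfl rfl n
  exact congrArg (fun φ => φ.hom x) h

/-- The isomorphism on the cohomology of a subgroup induced by an isomorphism of modules. -/
def subCohIso594 {C C' : Rep.{0} ℤ Γ} (e : C ≅ C') (H : Subgroup Γ) (n : ℕ) :
    groupCohomology (T.resSub C H) n ≅ groupCohomology (T.resSub C' H) n :=
  (groupCohomology.functor ℤ H n).mapIso ((Rep.resFunctor H.subtype).mapIso e)

/-- Class modules at `p` are transported along isomorphisms. -/
theorem isClassModuleAt_iso594 [Finite Γ] (p : ℕ) {C C' : Rep.{0} ℤ Γ} (e : C ≅ C')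
    (γ : groupCohomology C 2) (hγ : E1.IsClassModuleAt p C γ) :
    E1.IsClassModuleAt p C' ((T.coeffMap e.hom 2).hom γ) := by
  intro H hH
  obtain ⟨h1, h2, h3⟩ := hγ H hH
  refine ⟨Limits.IsZero.of_iso h1 (subCohIso594 e H 1).symm, ?_, ?_⟩
  · rw [← h2]
    exact Nat.card_congr (subCohIso594 e H 2).symm.toLinearEquiv.toEquiv
  · intro x'
    obtain ⟨n, hn⟩ := h3 ((subCohIso594 e H 2).inv.hom x')
    refine ⟨n, ?_⟩
    have hx : x' = (subCohIso594 e H 2).hom.hom ((subCohIso594 e H 2).inv.hom x') := by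
      rw [← ModuleCat.comp_apply, Iso.inv_hom_id]
      rfl
    rw [hx, hn, map_nsmul, resMap_coeffMap_apply594]
    rfl

end Iso

variable (S) (p : ℕ)

/-- **GAD-CM from GD1-TOW.** -/
theorem classModule_of_gd1 (hp : p.Prime) (hp2 : p ≠ 2) (hpS : (⟨p, hp⟩ : Nat.Primes) ∈ S)
    (h : G.Rec.TOW.Gd1Spec p) : GAD.ClassModuleSpec S p := by
  intro L hμ
  obtain ⟨γ, hγ⟩ := h S hp hp2 hpS L hμ
  exact ⟨_, isClassModuleAt_iso594 p (crepIso L) γ hγ⟩

/-- **GAD-J from GD3-TOW.** -/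
theorem jInj_of_gd3 (h : G.Rec.TOW.Gd3Spec p) : GAD.JInjSpec S p := by
  intro L _ q hq y hy hy0
  have h1 : E1.IsPPrimary p ((T.coeffMap (tensIncl L ⟨q, hq⟩) 2).hom y) :=
    ⟨1, by rw [pow_one, ← map_nsmul, hy, map_zero]⟩
  have h2 := isAt_tensIncl L ⟨q, hq⟩ y
  have h3 : (T.coeffMap (G.Rec.TOW.lvlj L) 2).hom
      ((T.coeffMap (tensIncl L ⟨q, hq⟩) 2).hom y) = 0 := by
    apply h2_iso_injective (crepIso L)
    rw [map_zero, ← h2_comp, ← h2_comp]
    have h4 : jT L q = tensIncl L ⟨q, hq⟩ ≫ G.Rec.TOW.lvlj L ≫ (crepIso L).hom :=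
      jT_eq L ⟨q, hq⟩
    rw [← h4]
    exact hy0
  have h5 := h S L q hq _ h1 h2 h3
  have h6 : y = (T.coeffMap (tensProj L ⟨q, hq⟩) 2).hom
      ((T.coeffMap (tensIncl L ⟨q, hq⟩) 2).hom y) := by
    rw [← h2_comp, tensIncl_comp_tensProj, h2_id]
  rw [h6, h5, map_zero]

end

end Fermat.Agent.S55.GAD.H594
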