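/-
S55 / G-ADAPTER — leaf GAD-TORS = GD5b for the concrete datum `GAD.datum S p` (helper55).
`C(L)/im J(L) = Div^S(L)/div(Lˣ)` is torsion: finiteness of the class group, in the form
`G.ClassGroupFiniteSpec` (closed on main: `G.AllH604.classGroupFinite`).  NO sorry.

* `torsModLocal : (datum S p).IsTorsModLocal`                      (unconditional)
* `isGoodMu_of`, `isGoodFin_of` : the leaf specs of `GAD/Spec.lean` imply `(datum S p).IsGoodFin p`
* `globalSpecFin_of : (7 leaf specs) → Tow.GlobalSpecFin S p`      (FINAL target of layer G)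
-/
import Fermat.Agent.S55.GAD.Assembly
import Fermat.Agent.S55.G.AllH604
import Fermat.Agent.S55.Spec.Datum3

set_option autoImplicit false

open CategoryTheory

namespace Fermat.Agent.S55.GAD.H55

open Fermat.Agent.S55 Fermat.Agent.S55.Tow Fermat.Agent.S55.E1.H594 Fermat.Agent.S55.G
  Fermat.Agent.S55.GAD

noncomputable section

/-- Every divisor outside `S` has a nonzero multiple which is the divisor of an element
(layer-G form; from the finiteness of `C_S(L)/im J_S(L)`). -/
theorem exists_ordHom_eq_nsmul (S : Finset Nat.Primes) (L : Type) [Field L] [NumberField L]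
    (d : PrimeOut S L →₀ ℤ) :
    ∃ m : ℕ, 0 < m ∧ ∃ x : Additive Lˣ, ordHom S L x = m • d := by
  have hfin := (G.AllH604.classGroupFinite S L).1
  set H : AddSubgroup (CS S L) := (jImage S L).toAddSubgroup with hH
  refine ⟨H.index, Nat.pos_of_ne_zero hfin, ?_⟩
  have hmem : H.index • ((principal S L).mkQ ((0, d) : JD S L)) ∈ H :=
    AddSubgroup.nsmul_index_mem H _
  obtain ⟨a, ha⟩ := hmem
  -- `mkQ (a, 0) = index • mkQ (0, d)`
  have h1 : (principal S L).mkQ (((a, 0) : JD S L) - H.index • ((0, d) : JD S L)) = 0 := by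
    rw [map_sub, map_nsmul]
    exact sub_eq_zero.2 ha
  obtain ⟨x, hx⟩ := (Submodule.Quotient.mk_eq_zero (principal S L)).1 h1
  refine ⟨-x, ?_⟩
  have h2 : (diagHom S L x).2 = (((a, 0) : JD S L) - H.index • ((0, d) : JD S L)).2 :=
    congrArg Prod.snd hx
  have h3 : (((a, 0) : JD S L) - H.index • ((0, d) : JD S L)).2 = -(H.index • d) := by
    simp
  rw [map_neg]
  have h4 : ordHom S L x = -(H.index • d) := h2.trans h3
  rw [h4, neg_neg]

variable {S : Finset Nat.Primes}

/-- `toField` is surjective. -/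
lemma toField_surjective (L : Level S) : Function.Surjective (toField L) := by
  intro y
  refine ⟨(levelUnitsIso L).hom.hom y, ?_⟩
  exact Rep.inv_hom_apply _ _ (levelUnitsIso L) y

/-- Tower form: every divisor outside `S` has a nonzero multiple of the form `div x`. -/
theorem exists_divT_eq_nsmul (L : Level S) (d : PrimeOut S L.F →₀ ℤ) :
    ∃ m : ℕ, 0 < m ∧ ∃ x : L.units.V, divT L x = m • d := by
  haveI : NumberField L.F := level_numberField L
  obtain ⟨m, hm, y, hy⟩ := exists_ordHom_eq_nsmul S L.F d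
  obtain ⟨x, rfl⟩ := toField_surjective L y
  exact ⟨m, hm, x, hy⟩

/-- **GAD-TORS = GD5b** for the concrete datum: `C(L)/im J(L)` is torsion. -/
theorem torsModLocal (p : ℕ) : (datum S p).IsTorsModLocal := by
  intro L c
  obtain ⟨⟨j, d⟩, rfl⟩ := mkC_surjective L c
  obtain ⟨m, hm, x, hx⟩ := exists_divT_eq_nsmul L d
  refine ⟨m, hm, (isLocalSum_iff L _).2 ⟨fun q => m • j q - (L.diag q.1).hom x, ?_⟩⟩
  have h1 : (m • ((j, d) : JDV L)) =
      ((fun q => m • j q - (L.diag q.1).hom x, 0) : JDV L) + diagT L x := by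
    refine Prod.ext (funext fun q => ?_) ?_
    · show m • j q = (m • j q - (L.diag q.1).hom x) + (L.diag q.1).hom x
      abel
    · show m • d = 0 + divT L x
      rw [zero_add, hx]
  show m • mkC L (j, d) = mkC L _
  rw [← map_nsmul, h1, map_add, mkC_diagT, add_zero]

variable {p : ℕ}

/-- The leaf specs imply that the concrete datum is good above `μ_p`. -/
theorem isGoodMu_of (hSU : SUnitDictSpec S) (hTr : DivTrTransSpec S)
    (hCap : CapitulationSpec S p) (hEx : ExistenceSpec S p) (hCM : ClassModuleSpec S p)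
    (hJ : JInjSpec S p) (hInf : InfInjSpec S p) : (datum S p).IsGoodMu p :=
  { gd1 := fun L hL => gammaT_spec S p L (hCM L hL)
    gd3 := fun L hL q hq y hy h0 => hJ L hL q hq y hy h0
    gd4 := fun L x => gd4_of hSU L x
    gd5 := fun L c a hc => gd5_of hCap L c a hc
    gd6 := fun L₀ hL₀ => hEx L₀ hL₀
    gd7a := fun h q hq x => gd7a p h q hq x
    gd7b := fun h h' c => gd7b_of hTr p h h' c
    gd8 := fun h hL z hz h0 => hInf h hL z hz h0 }

/-- The leaf specs imply that the concrete datum is good (final form). -/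
theorem isGoodFin_of (hSU : SUnitDictSpec S) (hTr : DivTrTransSpec S)
    (hCap : CapitulationSpec S p) (hEx : ExistenceSpec S p) (hCM : ClassModuleSpec S p)
    (hJ : JInjSpec S p) (hInf : InfInjSpec S p) : (datum S p).IsGoodFin p :=
  ⟨isGoodMu_of hSU hTr hCap hEx hCM hJ hInf, torsModLocal p⟩

/-- **ASSEMBLY, final form.**  The leaf specs of `GAD/Spec.lean` imply `Tow.GlobalSpecFin S p`. -/
theorem globalSpecFin_of (hSU : SUnitDictSpec S) (hTr : DivTrTransSpec S)
    (hCap : CapitulationSpec S p) (hEx : ExistenceSpec S p) (hCM : ClassModuleSpec S p)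
    (hJ : JInjSpec S p) (hInf : InfInjSpec S p) : GlobalSpecFin S p :=
  ⟨datum S p, isGoodFin_of hSU hTr hCap hEx hCM hJ hInf⟩

end

end Fermat.Agent.S55.GAD.H55
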