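import Fermat.Agent.S55.T.InfResTorsH244

/-!
# S55 / G-ADAPTER, leaf GAD-INF (gd8), abstract core  (helper661)

Pure group cohomology (Mathlib + the `p`-local inflation–restriction core of helper244),
generic in the coefficient ring `k` (consumers use `k = ℤ`; this avoids the `Module ℤ` diamond).

Setting: a surjective homomorphism `π : G' →* G` with kernel `H`, `A : Rep ℤ G`,
`A' : Rep ℤ G'`, and a morphism `ι : res_π A ⟶ A'` which is injective with image the
`H`-invariants of `A'` (Galois descent `A = A'^H`).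

* `nsmul_eq_zero_of_map_eq_zero` : if `m` kills `H¹(H, A')` (cocycle form `HOneKilledBy`) then
  `m` kills the kernel of the inflation `H²(G, A) → H²(G', A')`, `z ↦ map π ι 2 z`.
* `isZero_H1_of_map_subtype` : transport of `H¹ = 0` from the subgroup `P.map H.subtype ≤ G'` to
  the subgroup `P ≤ H`.
* `hOneKilledBy_of_pSubgroups` : if `H¹(Q, A') = 0` for all `p`-subgroups `Q ≤ G'` then some `m`
  prime to `p` kills `H¹(H, A')`.
* `eq_zero_of_map_eq_zero_of_pSubgroups` : **inflation is injective on `p`-torsion** as soon as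
  `H¹(Q, A') = 0` for all `p`-subgroups `Q ≤ G'`.
-/

set_option autoImplicit false
set_option linter.unusedSectionVars false
set_option linter.style.haveILetI false

open CategoryTheory groupCohomology

namespace Fermat.Agent.S55.GAD.H661

open Fermat.Agent.S55 Fermat.Agent.S55.H954 Fermat.Agent.S55.T.H244

section Core

variable {k G G' : Type} [CommRing k] [Group G] [Group G']

set_option backward.defeqAttrib.useBackward true in
set_option backward.isDefEq.respectTransparency false in
/-- **Inflation along a descent datum, up to `m`.**  If `ι : res_π A ⟶ A'` identifies `A` with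
the invariants of `A'` under `ker π`, `π` is surjective, and `m` kills `H¹(ker π, A')`, then
`m` kills the kernel of `map π ι 2 : H²(G, A) → H²(G', A')`. -/
theorem nsmul_eq_zero_of_map_eq_zero (π : G' →* G) (hπ : Function.Surjective π)
    (A : Rep.{0} k G) (A' : Rep.{0} k G') (ι : Rep.res π A ⟶ A')
    (hinj : Function.Injective ι.hom)
    (hinv : ∀ a' : A'.V, (∀ s ∈ π.ker, A'.ρ s a' = a') → ∃ a : A.V, ι.hom a = a')
    {m : ℕ} (hH1 : HOneKilledBy m A'.ρ π.ker)
    (z : groupCohomology A 2) (hz : (groupCohomology.map π ι 2).hom z = 0) : m • z = 0 := by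
  induction z using H2_induction_on with | @h x =>
  have hx : H2π A' (mapCocycles₂ π ι x) = 0 := by
    rw [← H2π_comp_map_apply π]; exact hz
  obtain ⟨(c : G' → A'), hc⟩ := (H2π_eq_zero_iff _).1 hx
  -- equivariance of `ι`
  have hι : ∀ (g : G') (a : A.V), ι.hom (A.ρ (π g) a) = A'.ρ g (ι.hom a) :=
    fun g a => Rep.hom_comm_apply ι g a
  set f' : G' × G' → A' := fun q => ι.hom (x (π q.1, π q.2)) with hf'
  have hc' : f' = dOne A'.ρ c := by
    funext ⟨g, j⟩
    have := congr_fun hc (g, j)
    rw [d₁₂_hom_apply] at this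
    rw [dOne_apply, this]
    rfl
  have hker : ∀ s ∈ π.ker, ∀ g : G', π (g * s) = π g := by
    intro s hs g
    rw [map_mul, MonoidHom.mem_ker.1 hs, mul_one]
  obtain ⟨c', hd, hright, hval⟩ := exists_invariant_cochain_of_inf_coboundary_nsmul A'.ρ π.ker
    hH1 (f' := f')
    (fun s hs g j => by simp only [hf', hker s hs])
    (fun s hs g j => by simp only [hf', hker s hs])
    (fun s hs g j => by
      simp only [hf']
      rw [← hι, MonoidHom.mem_ker.1 hs, map_one]
      rfl) c hc'
  -- descend `c'` to `G`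
  have hc'π : ∀ g₁ g₂ : G', π g₁ = π g₂ → c' g₁ = c' g₂ := by
    intro g₁ g₂ h
    have hs : g₁⁻¹ * g₂ ∈ π.ker := by
      rw [MonoidHom.mem_ker, map_mul, map_inv, h, inv_mul_cancel]
    have e1 : g₂ = g₁ * (g₁⁻¹ * g₂) := by group
    rw [e1, hright _ hs]
  have hex : ∀ g : G, ∃ a : A.V, ι.hom a = c' (Function.surjInv hπ g) :=
    fun g => hinv _ (fun s hs => hval s hs _)
  choose c₀ hc₀ using hex
  have hc₀' : ∀ g : G', ι.hom (c₀ (π g)) = c' g := by
    intro g
    rw [hc₀]
    exact hc'π _ _ (Function.surjInv_eq hπ (π g))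
  rw [← map_nsmul, H2π_eq_zero_iff]
  refine ⟨c₀, ?_⟩
  funext ⟨g, j⟩
  obtain ⟨g', rfl⟩ := hπ g
  obtain ⟨j', rfl⟩ := hπ j
  apply hinj
  rw [d₁₂_hom_apply]
  have h1 := congr_fun hd (g', j')
  rw [dOne_apply] at h1
  have h2 : ι.hom (A.ρ (π g') (c₀ (π j')) - c₀ (π g' * π j') + c₀ (π g')) =
      A'.ρ g' (c' j') - c' (g' * j') + c' g' := by
    rw [map_add, map_sub, hι, hc₀', ← map_mul, hc₀', hc₀']
  rw [h2, ← h1]
  simp only [hf', Pi.smul_apply]
  rw [← map_nsmul]
  rfl

end Core

section Transport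

variable {k G : Type} [CommRing k] [Group G]

/-- Transport of `H¹ = 0` from the subgroup `P.map H.subtype ≤ G` to the subgroup `P ≤ H`. -/
theorem eq_zero_of_isZero_map_subtype (A : Rep.{0} k G) (H : Subgroup G) (P : Subgroup H)
    (h0 : Limits.IsZero (groupCohomology (T.resSub A (P.map H.subtype)) 1))
    (z : groupCohomology (T.resSub (T.resSub A H) P) 1) : z = 0 := by
  have hsub : Subsingleton (groupCohomology (T.resSub A (P.map H.subtype)) 1) :=
    (ModuleCat.isZero_iff_subsingleton).1 h0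
  induction z using H1_induction_on with | @h x =>
  rw [H1π_eq_zero_iff]
  have hx := (mem_cocycles₁_iff (A := T.resSub (T.resSub A H) P) (x : P → A.V)).1 x.2
  -- the cocycle on `Q = P.map H.subtype`
  have hmemH : ∀ q : P.map H.subtype, (q : G) ∈ H := by
    rintro ⟨_, t, -, rfl⟩
    exact t.2
  have hmemP : ∀ q : P.map H.subtype, (⟨(q : G), hmemH q⟩ : H) ∈ P := by
    rintro ⟨_, t, ht, rfl⟩
    exact ht
  set toP : P.map H.subtype → P := fun q => ⟨⟨(q : G), hmemH q⟩, hmemP q⟩ with htoP
  have hmemQ : ∀ t : P, ((t : H) : G) ∈ P.map H.subtype := fun t => ⟨t.1, t.2, rfl⟩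
  have htoP' : ∀ t : P, toP ⟨((t : H) : G), hmemQ t⟩ = t := fun t => rfl
  have hy : (fun q : P.map H.subtype => (x : P → A.V) (toP q)) ∈
      cocycles₁ (T.resSub A (P.map H.subtype)) := by
    rw [mem_cocycles₁_iff]
    intro q r
    exact hx (toP q) (toP r)
  have h1 : H1π (T.resSub A (P.map H.subtype)) ⟨_, hy⟩ = 0 := Subsingleton.elim _ _
  rw [H1π_eq_zero_iff] at h1
  obtain ⟨a, ha⟩ := h1
  refine ⟨a, ?_⟩
  funext t
  have := congr_fun ha ⟨((t : H) : G), hmemQ t⟩
  rw [d₀₁_hom_apply] at this ⊢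
  exact this

/-- If `H¹(Q, A) = 0` for all `p`-subgroups `Q ≤ G` and `H ≤ G` is a finite normal subgroup,
then some `m` prime to `p` kills `H¹(H, A)` (cocycle form). -/
theorem hOneKilledBy_of_pSubgroups {p : ℕ} (hp : p.Prime) (A : Rep.{0} k G)
    (H : Subgroup G) [H.Normal] [Finite H]
    (hA : ∀ Q : Subgroup G, IsPGroup p Q → Limits.IsZero (groupCohomology (T.resSub A Q) 1)) :
    ∃ m : ℕ, p.Coprime m ∧ HOneKilledBy m A.ρ H := by
  haveI : Fact p.Prime := ⟨hp⟩
  obtain ⟨P⟩ : Nonempty (Sylow p H) := inferInstance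
  have hPp : IsPGroup p (P : Subgroup H) := P.isPGroup'
  have hQp : IsPGroup p ((P : Subgroup H).map H.subtype) := hPp.map H.subtype
  refine ⟨(P : Subgroup H).index, ?_, ?_⟩
  · exact (Nat.Prime.coprime_iff_not_dvd hp).2 P.not_dvd_index
  · exact hOneKilledBy_of_H1 (fun x =>
      hOne_nsmul_eq_zero_of_subgroup A H (P : Subgroup H)
        (eq_zero_of_isZero_map_subtype A H (P : Subgroup H) (hA _ hQp)) x)

end Transport

section Main

variable {k G G' : Type} [CommRing k] [Group G] [Group G']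

/-- **Inflation is injective on `p`-torsion** (abstract form of GD8).  `π : G' →* G` surjective
with finite kernel, `ι : res_π A ⟶ A'` identifying `A` with the `ker π`-invariants of `A'`, and
`H¹(Q, A') = 0` for all `p`-subgroups `Q ≤ G'`.  Then `map π ι 2 : H²(G, A) → H²(G', A')` is
injective on elements killed by a power of `p`. -/
theorem eq_zero_of_map_eq_zero_of_pSubgroups {p : ℕ} (hp : p.Prime)
    (π : G' →* G) (hπ : Function.Surjective π) [Finite π.ker]
    (A : Rep.{0} k G) (A' : Rep.{0} k G') (ι : Rep.res π A ⟶ A')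
    (hinj : Function.Injective ι.hom)
    (hinv : ∀ a' : A'.V, (∀ s ∈ π.ker, A'.ρ s a' = a') → ∃ a : A.V, ι.hom a = a')
    (hA' : ∀ Q : Subgroup G', IsPGroup p Q →
      Limits.IsZero (groupCohomology (T.resSub A' Q) 1))
    (z : groupCohomology A 2) (k : ℕ) (hpz : p ^ k • z = 0)
    (hz : (groupCohomology.map π ι 2).hom z = 0) : z = 0 := by
  obtain ⟨m, hm, hH1⟩ := hOneKilledBy_of_pSubgroups hp A' π.ker hA'
  have h1 : m • z = 0 := nsmul_eq_zero_of_map_eq_zero π hπ A A' ι hinj hinv hH1 z hz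
  exact eq_zero_of_coprime_nsmul (Nat.Coprime.pow_left k hm) hpz h1

end Main

end Fermat.Agent.S55.GAD.H661
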