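/-
S55 / G-ADAPTER, leaf GAD-EX (gd6), TRANSITIVITY STEP (helper233).

ABSTRACT PART.  `π : G' →* G` surjective with finite kernel, `A : Rep ℤ G'`, `B : Rep ℤ G`,
`f : Rep.res π B ⟶ A` whose image contains the `ker π`-invariants of `A`, `H₁ ≤ G`,
`H = π⁻¹(H₁)`.  If `N_{H₁}(B) ⊆ p • B^{H₁}` then `N_H(A) ⊆ p • A^H`
(`N_H = f ∘ N_{H₁} ∘ f⁻¹ ∘ N_{ker π}`).  No hypothesis on the groups (not necessarily `p`-groups),
`f` need not be injective.

TOWER PART.  `existence_of_step`: the existence theorem mod `p` for the concrete tower datum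
(`GAD.ExistenceSpec S p`, i.e. gd6) follows from Galois descent for the canonical transition maps
(`GAD.H953.DescSpec S`) and ONE good step `L₀ ≤ L₁` above every level `L₀ ⊇ μ_p`.
-/
import Fermat.Agent.S55.GAD.H953.InfInj

set_option autoImplicit false
set_option linter.unusedSectionVars false
set_option linter.style.haveILetI false

open CategoryTheory

namespace Fermat.Agent.S55.GAD.H233

open Fermat.Agent.S55 Fermat.Agent.S55.Tow

noncomputable section

section Abstract

variable {G' G : Type} [Group G'] [Group G]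

/-- A section of a surjective homomorphism, and the induced bijection
`π⁻¹(H₁) ≃ H₁ × ker π`. -/
def fiberEquiv (π : G' →* G) (hπ : Function.Surjective π) (H₁ : Subgroup G) :
    (H₁.comap π : Subgroup G') ≃ H₁ × π.ker where
  toFun g := (⟨π g.1, g.2⟩,
    ⟨(Function.surjInv hπ (π g.1))⁻¹ * g.1, by
      rw [MonoidHom.mem_ker, map_mul, map_inv, Function.surjInv_eq hπ, inv_mul_cancel]⟩)
  invFun x := ⟨Function.surjInv hπ x.1.1 * x.2.1, by
    rw [Subgroup.mem_comap, map_mul, Function.surjInv_eq hπ, (MonoidHom.mem_ker).1 x.2.2, mul_one]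
    exact x.1.2⟩
  left_inv g := by
    apply Subtype.ext
    simp
  right_inv x := by
    obtain ⟨⟨h, hh⟩, ⟨n, hn⟩⟩ := x
    have hn' : π n = 1 := (MonoidHom.mem_ker).1 hn
    apply Prod.ext
    · apply Subtype.ext
      simp [Function.surjInv_eq hπ, hn']
    · apply Subtype.ext
      simp [Function.surjInv_eq hπ, hn']

lemma fiberEquiv_symm_coe (π : G' →* G) (hπ : Function.Surjective π) (H₁ : Subgroup G)
    (x : H₁ × π.ker) :
    (((fiberEquiv π hπ H₁).symm x : (H₁.comap π : Subgroup G')) : G') =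
      Function.surjInv hπ x.1.1 * x.2.1 := rfl

/-- **Abstract transitivity of the norm condition.** -/
theorem normInP_of_step (π : G' →* G) (hπ : Function.Surjective π)
    (A : Rep.{0} ℤ G') (B : Rep.{0} ℤ G) (f : Rep.res π B ⟶ A)
    (hrange : ∀ a : A.V, (∀ n ∈ π.ker, A.ρ n a = a) → a ∈ Set.range f.hom)
    [Finite π.ker] (p : ℕ) (H₁ : Subgroup G) [Fintype H₁] (H : Subgroup G') [Fintype H]
    (hH : H = H₁.comap π) (h₁ : E1.NormInP p H₁ B) : E1.NormInP p H A := by
  classical
  subst hH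
  letI : Fintype π.ker := Fintype.ofFinite _
  intro c
  -- the partial norm over `ker π`
  set c' : A.V := ∑ n : π.ker, A.ρ (n : G') c with hc'
  have hc'inv : ∀ n ∈ π.ker, A.ρ n c' = c' := by
    intro n hn
    rw [hc', map_sum]
    refine Fintype.sum_equiv (Equiv.mulLeft (⟨n, hn⟩ : π.ker)) _ _ (fun m => ?_)
    show A.ρ n (A.ρ (m : G') c) = A.ρ ((⟨n, hn⟩ * m : π.ker) : G') c
    rw [Subgroup.coe_mul, map_mul]
    rfl
  obtain ⟨b, hb⟩ := hrange c' hc'inv
  obtain ⟨b₀, hb₀inv, hb₀⟩ := h₁ b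
  have hcomm : ∀ (g : G') (x : B.V), f.hom (B.ρ (π g) x) = A.ρ g (f.hom x) :=
    fun g x => Rep.hom_comm_apply f g x
  refine ⟨f.hom b₀, ?_, ?_⟩
  · intro g hg
    rw [← hcomm g b₀, hb₀inv (π g) hg]
  · have hsum : ∑ g : (H₁.comap π : Subgroup G'), A.ρ (g : G') c =
        ∑ x : H₁ × π.ker, A.ρ (Function.surjInv hπ x.1.1 * x.2.1) c := by
      refine Fintype.sum_equiv (fiberEquiv π hπ H₁) _ _ (fun g => ?_)
      have := fiberEquiv_symm_coe π hπ H₁ (fiberEquiv π hπ H₁ g)
      rw [Equiv.symm_apply_apply] at this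
      rw [← this]
    rw [hsum, Fintype.sum_prod_type]
    have hinner : ∀ h : H₁, ∑ n : π.ker, A.ρ (Function.surjInv hπ h.1 * n.1) c =
        f.hom (B.ρ (h : G) b) := by
      intro h
      have e1 : ∀ n : π.ker, A.ρ (Function.surjInv hπ h.1 * n.1) c =
          A.ρ (Function.surjInv hπ h.1) (A.ρ (n : G') c) := by
        intro n
        rw [map_mul]
        rfl
      rw [Finset.sum_congr rfl (fun n _ => e1 n), ← map_sum, ← hc', ← hb,
        ← hcomm (Function.surjInv hπ h.1) b, Function.surjInv_eq hπ]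
    rw [Finset.sum_congr rfl (fun h _ => hinner h), ← map_sum, hb₀, map_nsmul]

end Abstract

section Tower

variable {S : Finset Nat.Primes} {p : ℕ}

lemma proj_comp {L₀ L₁ L : Level S} (h₁ : L₀ ≤ L₁) (h' : L₁ ≤ L) (g : L.Gal) :
    Level.proj h₁ (Level.proj h' g) = Level.proj (h₁.trans h') g := by
  induction g using QuotientGroup.induction_on with
  | H g => rfl

lemma relGal_eq_comap {L₀ L₁ L : Level S} (h₁ : L₀ ≤ L₁) (h' : L₁ ≤ L) :
    Level.relGal (h₁.trans h') = (Level.relGal h₁).comap (Level.proj h') := by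
  ext g
  show Level.proj (h₁.trans h') g = 1 ↔ Level.proj h₁ (Level.proj h' g) = 1
  rw [proj_comp]

lemma proj_surjective {L₁ L : Level S} (h' : L₁ ≤ L) : Function.Surjective (Level.proj h') := by
  intro g
  induction g using QuotientGroup.induction_on with
  | H g => exact ⟨QuotientGroup.mk g, rfl⟩

/-- One-step form of the existence theorem mod `p` for the concrete tower datum: above every
level `L₀ ⊇ μ_p` there is ONE level `L₁` with `N_{L₁/L₀} C(L₁) ⊆ p • C(L₁)^{Gal(L₁/L₀)}`. -/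
def ExistStepSpec (S : Finset Nat.Primes) (p : ℕ) : Prop :=
  ∀ L₀ : Level S, L₀.HasMu p → ∃ (L₁ : Level S) (h₁ : L₀ ≤ L₁),
    @E1.NormInP p L₁.Gal _ (Level.relGal h₁) (Fintype.ofFinite _) (CT L₁)

/-- **GAD-EX from descent and one step.** -/
theorem existence_of_step (hD : H953.DescSpec S) (hStep : ExistStepSpec S p) :
    ExistenceSpec S p := by
  intro L₀ hL₀
  obtain ⟨L₁, h₁, hN⟩ := hStep L₀ hL₀
  refine ⟨L₁, h₁, fun L h h' => ?_⟩
  haveI : Finite (Level.proj h').ker := inferInstance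
  exact @normInP_of_step L.Gal L₁.Gal _ _ (Level.proj h') (proj_surjective h') (CT L) (CT L₁)
    (trT h') (hD h').2 _ p (Level.relGal h₁) (Fintype.ofFinite _) (Level.relGal h)
    (Fintype.ofFinite _) (relGal_eq_comap h₁ h') hN

end Tower

end

end Fermat.Agent.S55.GAD.H233
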