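import Fermat.Agent.S55.GAD.ExistH121
import Fermat.Agent.S55.G.CM.Closed

/-!
# S55 / G-ADAPTER, leaf GAD-EX (gd6), closed modulo the fundamental class on Tower levels

Author: helper121.  With helper893's block G-CM (`G.CM.pClassModule_of_gd1`), the existence
theorem mod `p` (gd6) only needs `TOW.Gd1Spec` (block REC2-TOW):

* `existenceSpecG_of_gd1 : (∀ p, TOW.Gd1Spec p) → GAD.ExistenceSpecG S p`  (layer-G language, the
  component of `E1.OpenGlobalSpec`);
* `existenceSpec_of_gd1 : (∀ p, TOW.Gd1Spec p) → GAD.ExistenceSpec S p`  (concrete datum).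
-/

set_option autoImplicit false

noncomputable section

namespace Fermat.Agent.S55.GAD.H121

open Fermat.Agent.S55 Fermat.Agent.S55.Tow Fermat.Agent.S55.G Fermat.Agent.S55.G.Rec

variable (S : Finset Nat.Primes) (p : ℕ) [hp : Fact p.Prime]

/-- gd6 in layer-G language, modulo the fundamental class on Tower levels. -/
theorem existenceSpecG_of_gd1 (hp2 : p ≠ 2) (hpS : (⟨p, hp.out⟩ : Nat.Primes) ∈ S)
    (hGd1 : ∀ p : ℕ, TOW.Gd1Spec p) : GAD.ExistenceSpecG S p :=
  existenceSpecG_of_classModule S p hp2 hpS (CM.pClassModule_of_gd1 hGd1)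

/-- gd6 for the concrete tower datum, modulo the fundamental class on Tower levels. -/
theorem existenceSpec_of_gd1 (hp2 : p ≠ 2) (hpS : (⟨p, hp.out⟩ : Nat.Primes) ∈ S)
    (hGd1 : ∀ p : ℕ, TOW.Gd1Spec p) : GAD.ExistenceSpec S p :=
  existenceSpec_of_classModule S p hp2 hpS (CM.pClassModule_of_gd1 hGd1)

end Fermat.Agent.S55.GAD.H121
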