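import Fermat.Agent.S55.GAD.Spec
import Fermat.Agent.S55.GAD.InfCoreH661

/-!
# S55 / G-ADAPTER, leaf GAD-INF = gd8 for the concrete datum  (helper661)

`infInj_of : p.Prime → ClassModuleSpec S p → DescStatement661 S → InfInjSpec S p`

i.e. inflation `H²(Gal(L/ℚ), C(L)) → H²(Gal(L'/ℚ), C(L'))` is injective on `p`-torsion
(`L ⊇ μ_p`) as soon as

* (GAD-CM) `C(L')` is a class module at `p` (only `H¹(Q, C(L')) = 0` for the `p`-subgroups
  `Q ≤ Gal(L'/ℚ)` is used), and
* (GAD-DESC) the canonical transition map `trT h : C(L) → C(L')` is injective with image the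
  `Gal(L'/L)`-invariants of `C(L')`.

No reciprocity is needed.  The proof is the `p`-local inflation–restriction sequence
(`GAD/InfCoreH661.lean`, on top of helper244's cochain-level core): if `P` is a Sylow
`p`-subgroup of `H = Gal(L'/L)`, then `[H : P]` kills `H¹(H, C(L'))`, hence it kills the kernel of
inflation; being prime to `p`, it acts invertibly on `p`-torsion.
-/

set_option autoImplicit false
set_option linter.unusedSectionVars false
set_option linter.style.haveILetI false

open CategoryTheory

namespace Fermat.Agent.S55.GAD.H661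

open Fermat.Agent.S55 Fermat.Agent.S55.Tow Fermat.Agent.S55.GAD

noncomputable section

variable (S : Finset Nat.Primes) (p : ℕ)

/-- **GAD-DESC** (hypothesis form): the canonical transition map `trT h : C(L) → C(L')` is
injective and its image is the set of `Gal(L'/L)`-invariants of `C(L')`. -/
def DescStatement661 : Prop :=
  ∀ {L L' : Level S} (h : L ≤ L'),
    Function.Injective (trT h).hom ∧
    ∀ c' : (CT L').V, (∀ g ∈ Level.relGal h, (CT L').ρ g c' = c') →
      ∃ c : (CT L).V, (trT h).hom c = c'

variable {S p}

lemma proj_surjective {L L' : Level S} (h : L ≤ L') : Function.Surjective (Level.proj h) := by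
  intro x
  induction x using QuotientGroup.induction_on with
  | H g => exact ⟨QuotientGroup.mk g, rfl⟩

/-- **gd8 from the vanishing of `H¹` on `p`-subgroups of the upper level and descent**
(pointwise form: one pair of levels `L ≤ L'`; `p ^ k`-torsion). -/
theorem eq_zero_of_inf_eq_zero (hp : p.Prime) {L L' : Level S} (h : L ≤ L')
    (hinj : Function.Injective (trT h).hom)
    (hinv : ∀ c' : (CT L').V, (∀ g ∈ Level.relGal h, (CT L').ρ g c' = c') →
      ∃ c : (CT L).V, (trT h).hom c = c')
    (hH1 : ∀ Q : Subgroup L'.Gal, IsPGroup p Q →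
      Limits.IsZero (groupCohomology (T.resSub (CT L') Q) 1))
    (z : groupCohomology (CT L) 2) (k : ℕ) (hz : p ^ k • z = 0)
    (h0 : (groupCohomology.map (Level.proj h) (trT h) 2).hom z = 0) : z = 0 := by
  haveI : Finite (Level.proj h).ker := inferInstance
  exact eq_zero_of_map_eq_zero_of_pSubgroups hp (Level.proj h) (proj_surjective h)
    (CT L) (CT L') (trT h) hinj hinv hH1 z k hz h0

/-- **GAD-INF = gd8** for the concrete datum, from GAD-CM and GAD-DESC. -/
theorem infInj_of (hp : p.Prime) (hCM : ClassModuleSpec S p) (hDesc : DescStatement661 S) :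
    InfInjSpec S p := by
  intro L L' h hMu z hz h0
  obtain ⟨γ', hγ'⟩ := hCM L' (hMu.mono h)
  obtain ⟨hinj, hinv⟩ := hDesc h
  exact eq_zero_of_inf_eq_zero hp h hinj hinv (fun Q hQ => (hγ' Q hQ).1) z 1
    (by rwa [pow_one]) h0

end

end Fermat.Agent.S55.GAD.H661
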