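import Fermat.Agent.S55.GAD.Defs
import Fermat.Agent.S55.G.LocH897.TowJCompat

/-!
# S55 / G-ADAPTER, leaf GAD-ISO (helper897): `G.CRep S L.Gal L.F ≅ GAD.CT L`

The comparison isomorphism between the `S`-idèle class group of layer G (tensor model
`(J_S(F) × Div^S(F)) / Fˣ`, `J_S(F) = (F ⊗ ℚ_S)ˣ`) and the class module of the concrete tower
datum (`CT L = (∏_{q ∈ S} J_q(L) × Div^S(F)) / L.units`), induced by the J-bridge
`Ψ_L = (jTow L q)_q` (`G/LocH897/TowJ.lean`).

* `psiJD L : G.JD S L.F ≃ₗ[ℤ] GAD.JDV L`  (`Ψ_L × id`), equivariant, maps principal elements to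
  principal elements;
* `cIso L : G.CRep S L.Gal L.F ≅ GAD.CT L`;
* `cIso_jToC` : `Φ ∘ jToCRepHom = mkC ∘ (Ψ, 0)`;  `cIso_quot` : `Φ (class of y) = mkC (psiJD y)`.
-/

set_option autoImplicit false
set_option linter.style.haveILetI false
set_option linter.unusedSectionVars false

open CategoryTheory

namespace Fermat.Agent.S55.GAD.H897

open Fermat.Agent.S55 Fermat.Agent.S55.Tow Fermat.Agent.S55.E1.H594 Fermat.Agent.S55.G
open Fermat.Agent.S55.GAD Fermat.Agent.S55.G.LocH897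

noncomputable section

variable {S : Finset Nat.Primes} (L : Level S)

/-- `Ψ_L × id : J_S(F) × Div^S(F) ≃ ∏_q J_q(L) × Div^S(F)`. -/
def psiJD : JD S L.F ≃ₗ[ℤ] JDV L :=
  LinearEquiv.prodCongr (jEquiv L) (LinearEquiv.refl ℤ (PrimeOut S L.F →₀ ℤ))

lemma psiJD_fst (y : JD S L.F) (q : S) : (psiJD L y).1 q = (jTow L q).hom y.1 := rfl

lemma psiJD_snd (y : JD S L.F) : (psiJD L y).2 = y.2 := rfl

lemma psiJD_equivariant (g : L.Gal) (y : JD S L.F) :
    psiJD L (G.jdRepr S L.Gal L.F g y) = GAD.jdRepr L g (psiJD L y) := by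
  refine Prod.ext (funext fun q => ?_) rfl
  exact Rep.hom_comm_apply (jTow L q) g y.1

lemma toField_levelUnitsIso (u : Additive (L.F)ˣ) :
    toField L ((levelUnitsIso L).hom.hom u) = u :=
  Rep.inv_hom_apply _ _ (levelUnitsIso L) u

lemma psiJD_diagHom (u : Additive (L.F)ˣ) :
    psiJD L (diagHom S L.F u) = diagT L ((levelUnitsIso L).hom.hom u) := by
  refine Prod.ext (funext fun q => ?_) ?_
  · exact jTow_unitsDiag L q u
  · show ordHom S L.F u = ordHom S L.F (toField L ((levelUnitsIso L).hom.hom u))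
    rw [toField_levelUnitsIso]

lemma levelUnitsIso_toField (x : L.units.V) :
    (levelUnitsIso L).hom.hom (toField L x) = x :=
  Rep.hom_inv_apply _ _ (levelUnitsIso L) x

/-- `Ψ_L × id` maps the principal idèles onto the principal elements of the tower datum. -/
lemma map_principal : (principal S L.F).map (psiJD L).toLinearMap = princ L := by
  apply le_antisymm
  · rintro _ ⟨_, ⟨u, rfl⟩, rfl⟩
    exact ⟨(levelUnitsIso L).hom.hom u, (psiJD_diagHom L u).symm⟩
  · rintro _ ⟨x, rfl⟩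
    refine ⟨diagHom S L.F (toField L x), ⟨toField L x, rfl⟩, ?_⟩
    show psiJD L (diagHom S L.F (toField L x)) = diagT L x
    rw [psiJD_diagHom, levelUnitsIso_toField]

/-- The comparison `C_S(F) ≃ C(L)` as a linear equivalence. -/
def cLinEquiv : CS S L.F ≃ₗ[ℤ] (JDV L ⧸ princ L) :=
  Submodule.Quotient.equiv (principal S L.F) (princ L) (psiJD L) (map_principal L)

lemma cLinEquiv_mk (y : JD S L.F) :
    cLinEquiv L ((principal S L.F).mkQ y) = (princ L).mkQ (psiJD L y) := rfl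

/-- The comparison as an equivalence of representations. -/
def cEquiv : (cRepr S L.Gal L.F).Equiv ((GAD.jdRepr L).quotient (princ L) (princ_stable L)) :=
  Representation.Equiv.mk (cLinEquiv L) (fun g => LinearMap.ext fun c => by
    obtain ⟨y, rfl⟩ := Submodule.mkQ_surjective (principal S L.F) c
    exact congrArg (princ L).mkQ (psiJD_equivariant L g y))

/-- **GAD-ISO.**  The comparison isomorphism `Φ_L : G.CRep S L.Gal L.F ≅ GAD.CT L`. -/
def cIso : CRep S L.Gal L.F ≅ CT L := Rep.mkIso (cEquiv L)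

/-- `Φ (class of y) = class of (Ψ × id) y`. -/
theorem cIso_quot (y : JD S L.F) :
    (cIso L).hom.hom ((quotRepHom S L.Gal L.F).hom y) = mkC L (psiJD L y) := rfl

/-- `Φ ∘ jToCRepHom = mkC ∘ (Ψ, 0)`. -/
theorem cIso_jToC (b : Additive (AS S L.F)ˣ) :
    (cIso L).hom.hom ((jToCRepHom S L.Gal L.F).hom b) =
      mkC L (fun q => (jTow L q).hom b, 0) := rfl

/-! ### Transport of cohomology -/

/-- The comparison isomorphism restricted to a subgroup. -/
def cIsoRes (H : Subgroup L.Gal) :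
    Rep.res H.subtype (CRep S L.Gal L.F) ≅ Rep.res H.subtype (CT L) :=
  (Rep.resFunctor H.subtype).mapIso (cIso L)

/-- `Hⁿ(H, C_S(F)) ≅ Hⁿ(H, C(L))` for every subgroup `H ≤ Gal(F/ℚ)`. -/
def cohIso (H : Subgroup L.Gal) (n : ℕ) :
    groupCohomology (Rep.res H.subtype (CRep S L.Gal L.F)) n ≅
      groupCohomology (Rep.res H.subtype (CT L)) n :=
  (groupCohomology.functor ℤ H n).mapIso (cIsoRes L H)

lemma cohIso_hom (H : Subgroup L.Gal) (n : ℕ) :
    (cohIso L H n).hom = groupCohomology.map (MonoidHom.id H) (cIsoRes L H).hom n := rfl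

/-- `Hⁿ(Gal(F/ℚ), C_S(F)) ≅ Hⁿ(Gal(F/ℚ), C(L))`. -/
def cohIsoTop (n : ℕ) :
    groupCohomology (CRep S L.Gal L.F) n ≅ groupCohomology (CT L) n :=
  (groupCohomology.functor ℤ L.Gal n).mapIso (cIso L)

lemma cohIsoTop_hom (n : ℕ) :
    (cohIsoTop L n).hom = groupCohomology.map (MonoidHom.id L.Gal) (cIso L).hom n := rfl

/-! ### Compatibility with the transition maps -/

section Trans

variable {L} {L' : Level S} (h : L ≤ L')

/-- The base change `J_S(F) × Div^S(F) → J_S(F') × Div^S(F')` of layer G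
(`jMap × divExt`) for levels `L ≤ L'`. -/
def trG : JD S L.F →+ JD S L'.F :=
  (@jMap S L.F L'.F _ _ _ _ (GAD.levelAlgebra h)).prodMap (divTr h)

lemma trG_fst (y : JD S L.F) :
    (trG h y).1 = @jMap S L.F L'.F _ _ _ _ (GAD.levelAlgebra h) y.1 := rfl

lemma trG_snd (y : JD S L.F) : (trG h y).2 = divTr h y.2 := rfl

/-- The J-bridge intertwines `jMap` (w.r.t. `GAD.levelAlgebra`) and `Level.trJ`. -/
lemma jTow_jMap' (q : S) (b : Additive (AS S L.F)ˣ) :
    (jTow L' q).hom (@jMap S L.F L'.F _ _ _ _ (GAD.levelAlgebra h) b) =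
      (Level.trJ h q.1).hom ((jTow L q).hom b) :=
  jTow_jMap h q b

/-- `(Ψ_{L'} × id) ∘ tr_G = trJD ∘ (Ψ_L × id)`. -/
lemma psiJD_trG (y : JD S L.F) : psiJD L' (trG h y) = trJD h (psiJD L y) :=
  Prod.ext (funext fun q => jTow_jMap' h q y.1) rfl

/-- **`Φ_{L'} ∘ tr_G = trT ∘ Φ_L`** on classes. -/
theorem trT_cIso (y : JD S L.F) :
    (trT h).hom ((cIso L).hom.hom ((quotRepHom S L.Gal L.F).hom y)) =
      (cIso L').hom.hom ((quotRepHom S L'.Gal L'.F).hom (trG h y)) := by
  rw [cIso_quot, cIso_quot, trT_mkC, psiJD_trG]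

end Trans

end

end Fermat.Agent.S55.GAD.H897
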