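/-
S55 / G-ADAPTER leaf GAD-ISO (helper594), part 2: compatibility with the transition maps
(coord/S55-E1-GAD.md §3).  For levels `L ≤ L'`:

* `jTr h : J_S(L.F) → J_S(L'.F)` (= `G.jMap` for `GAD.levelAlgebra h`),
  `psi_jTr : Ψ_{L'} (jTr u) q = trJ (Ψ_L u q)`;
* `trG h : C_S(L.F) → C_S(L'.F)`, induced by `jTr × divTr`;
* `crepIso_trG : Φ_{L'} (trG c) = trT (Φ_L c)`.
No `sorry`.
-/
import Fermat.Agent.S55.GAD.IsoH594

set_option autoImplicit false
set_option linter.unusedSectionVars false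
set_option linter.style.haveILetI false

open CategoryTheory

namespace Fermat.Agent.S55.GAD.H594

open Fermat.Agent.S55 Fermat.Agent.S55.Tow Fermat.Agent.S55.E1.H594 Fermat.Agent.S55.G
open Fermat.Agent.S55.GAD
open scoped TensorProduct

noncomputable section

variable {S : Finset Nat.Primes} {L L' : Level S} (h : L ≤ L')

/-- The base change map `L.F ⊗ ℚ_S → L'.F ⊗ ℚ_S`. -/
def asTr : AS S L.F →ₐ[ℚ] AS S L'.F := @asMap S L.F L'.F _ _ _ _ (GAD.levelAlgebra h)

theorem asTr_tmul (x : L.F) (y : QS S) :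
    asTr h (x ⊗ₜ[ℚ] y) = (@algebraMap L.F L'.F _ _ (GAD.levelAlgebra h) x) ⊗ₜ[ℚ] y :=
  @asMap_tmul S L.F L'.F _ _ _ _ (GAD.levelAlgebra h) x y

/-- The base change map `J_S(L.F) → J_S(L'.F)`. -/
def jTr : Additive (AS S L.F)ˣ →+ Additive (AS S L'.F)ˣ :=
  @jMap S L.F L'.F _ _ _ _ (GAD.levelAlgebra h)

theorem coe_jTr (u : Additive (AS S L.F)ˣ) :
    (((jTr h u).toMul : (AS S L'.F)ˣ) : AS S L'.F) =
      asTr h ((u.toMul : (AS S L.F)ˣ) : AS S L.F) := rfl

/-- Evaluation is compatible with base change. -/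
theorem tensEvS_asTr (q : S) (g' : L'.Gal) (a : AS S L.F) :
    tensEvS L' q g' (asTr h a) = tensEvS L q (Level.proj h g') a := by
  induction a using TensorProduct.induction_on with
  | zero => rw [map_zero, map_zero, map_zero]
  | add a b ha hb => rw [map_add, map_add, map_add, ha, hb]
  | tmul x y =>
    rw [asTr_tmul, tensEvS_tmul, tensEvS_tmul, ← GAD.levelAlgebra_smul h g' x,
      GAD.levelAlgebra_apply]

theorem locVal_trJ (q : Nat.Primes) (f : (L.J q).V) (g' : L'.Gal) :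
    E1.H594.locVal L' q (((Level.trJ h q).hom f).1 g') =
      E1.H594.locVal L q (f.1 (Level.proj h g')) := rfl

/-- **`Ψ` is compatible with the transition maps**: `Ψ_{L'} ∘ jTr = (trJ)_q ∘ Ψ_L`. -/
theorem psi_jTr (u : Additive (AS S L.F)ˣ) (q : S) :
    psi L' (jTr h u) q = (Level.trJ h q.1).hom (psi L u q) := by
  apply E1.H594.J_ext
  intro g'
  rw [locVal_trJ, psi_apply, psi_apply, locVal_tensEquiv, locVal_tensEquiv, coe_jTr,
    tensEvS_asTr]

/-- `jTr × divTr` on `J_S × Div^S`. -/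
def jdTr : JD S L.F →+ JD S L'.F := (jTr h).prodMap (divTr h)

theorem jdTr_apply (y : JD S L.F) : jdTr h y = (jTr h y.1, divTr h y.2) := rfl

theorem psiD_jdTr (y : JD S L.F) : psiD L' (jdTr h y) = trJD h (psiD L y) :=
  Prod.ext (funext fun q => psi_jTr h y.1 q) rfl

theorem jdTr_diagHom (x : Additive (L.F)ˣ) :
    jdTr h (diagHom S L.F x) =
      diagHom S L'.F (@lMap L.F L'.F _ _ (GAD.levelAlgebra h) x) :=
  Prod.ext (@jMap_unitsDiag S L.F L'.F _ _ _ _ (GAD.levelAlgebra h) x)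
    (@divExt_ordHom S L.F L'.F _ _ _ _ (GAD.levelAlgebra h) x)

/-- The transition map `C_S(L.F) → C_S(L'.F)` of layer G, induced by `jMap × divExt`. -/
def trG : CS S L.F →ₗ[ℤ] CS S L'.F :=
  (principal S L.F).mapQ (principal S L'.F) (jdTr h).toIntLinearMap (by
    rintro _ ⟨x, rfl⟩
    exact ⟨@lMap L.F L'.F _ _ (GAD.levelAlgebra h) x, (jdTr_diagHom h x).symm⟩)

theorem trG_mk (y : JD S L.F) :
    trG h ((principal S L.F).mkQ y) = (principal S L'.F).mkQ (jdTr h y) := rfl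

/-- **`Φ` is compatible with the transition maps**: `Φ_{L'} ∘ tr_G = trT ∘ Φ_L`. -/
theorem crepIso_trG (c : CS S L.F) :
    (crepIso L').hom.hom (trG h c) = (trT h).hom ((crepIso L).hom.hom c) := by
  obtain ⟨y, rfl⟩ := Submodule.mkQ_surjective (principal S L.F) c
  rw [trG_mk, crepIso_hom_mk, crepIso_hom_mk, trT_mkC, psiD_jdTr]

end

end Fermat.Agent.S55.GAD.H594
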