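/-
S55 / G-ADAPTER (sub-architect helper955), leaf GAD-SU — helper597.

`sUnitDict : SUnitDictSpec S` (exact shape of `GAD/Spec.lean`), UNCONDITIONAL:
`divT L e = 0 ↔ L.IsSUnit e`.  Adapter from helper655's dictionary B17
(`Bridge/SUnitDict.lean`, `isSUnit_levelUnitsIso_iff`).
-/
import Fermat.Agent.S55.GAD.Spec
import Fermat.Agent.S55.Bridge.SUnitDict

set_option autoImplicit false

open CategoryTheory

namespace Fermat.Agent.S55.GAD.H597

open Fermat.Agent.S55 Fermat.Agent.S55.Tow Fermat.Agent.S55.E1.H594 Fermat.Agent.S55.G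
  Fermat.Agent.S55.GAD

/-- **GAD-SU.** -/
theorem sUnitDict (S : Finset Nat.Primes) : SUnitDictSpec S := by
  intro L e
  have h1 : (levelUnitsIso L).hom.hom (toField L e) = e :=
    Rep.hom_inv_apply _ _ (levelUnitsIso L) e
  have h2 := Bridge.isSUnit_levelUnitsIso_iff L (toField L e)
  rw [h1] at h2
  rw [h2]
  rfl

end Fermat.Agent.S55.GAD.H597
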