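import Fermat.Agent.S55.GAD.Assembly
import Fermat.Agent.S55.Spec.Datum3
import Fermat.Agent.S55.G.ClsH604

/-!
# S55 / G-ADAPTER leaf GAD-TORS = GD5b (helper655)

For the concrete tower datum `GAD.datum S p` (`GAD/Defs.lean`) the quotient `C(L) / im J(L)` is the
`S`-class group of `L.F`, hence torsion: `(GAD.datum S p).IsTorsModLocal` (`Spec/Datum3.lean`,
amendment v3 of helper55).  Input: finiteness of the class group in the form
`G.ClsH604.ordHom_range_index_ne_zero` (helper604).

Also: the assembly `globalSpecFin_of` of the FINAL target `Tow.GlobalSpecFin S p` of layer G from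
the seven leaf specs of `GAD/Spec.lean`.
-/

set_option autoImplicit false

open CategoryTheory

namespace Fermat.Agent.S55.GAD.H655

open Fermat.Agent.S55 Fermat.Agent.S55.Tow Fermat.Agent.S55.E1.H594 Fermat.Agent.S55.G

noncomputable section

variable {S : Finset Nat.Primes}

/-- `toField` is surjective (it is the inverse of helper594's `levelUnitsIso`). -/
theorem toField_surjective (L : Level S) : Function.Surjective (GAD.toField L) := by
  intro u
  exact ⟨(levelUnitsIso L).hom.hom u, Rep.hom_inv_apply _ _ (levelUnitsIso L).symm u⟩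

/-- **Finiteness of the `S`-class group, tower form**: every divisor outside `S` of a level field
has a nonzero multiple which is principal. -/
theorem exists_nsmul_eq_divT (L : Level S) (d : PrimeOut S L.F →₀ ℤ) :
    ∃ m : ℕ, 0 < m ∧ ∃ e : L.units.V, GAD.divT L e = m • d := by
  refine ⟨(ordHom S L.F).range.index,
    Nat.pos_of_ne_zero (G.ClsH604.ordHom_range_index_ne_zero S L.F), ?_⟩
  obtain ⟨u, hu⟩ : (ordHom S L.F).range.index • d ∈ (ordHom S L.F).range :=
    AddSubgroup.nsmul_index_mem _ d
  obtain ⟨e, rfl⟩ := toField_surjective L u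
  exact ⟨e, hu⟩

/-- **GAD-TORS = GD5b** for the concrete datum: every class has a nonzero multiple in the image
of `J(L) = ∏_{q ∈ S} J_q(L)`. -/
theorem isTorsModLocal (S : Finset Nat.Primes) (p : ℕ) : (GAD.datum S p).IsTorsModLocal := by
  intro L c
  obtain ⟨⟨x, d⟩, rfl⟩ := GAD.mkC_surjective L c
  obtain ⟨m, hm, e, he⟩ := exists_nsmul_eq_divT L d
  refine ⟨m, hm, (GAD.isLocalSum_iff L _).2 ⟨fun q => m • x q - (L.diag q.1).hom e, ?_⟩⟩
  have h1 : (m • ((x, d) : GAD.JDV L) : GAD.JDV L) =
      ((fun q => m • x q - (L.diag q.1).hom e, 0) : GAD.JDV L) + GAD.diagT L e := by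
    refine Prod.ext (funext fun q => ?_) ?_
    · show m • x q = (m • x q - (L.diag q.1).hom e) + (L.diag q.1).hom e
      abel
    · show m • d = 0 + GAD.divT L e
      rw [zero_add, he]
  show m • GAD.mkC L (x, d) = _
  rw [← map_nsmul, h1, map_add, GAD.mkC_diagT, add_zero]

/-- **ASSEMBLY, final form.**  The seven leaf specs of `GAD/Spec.lean` imply the final target
`Tow.GlobalSpecFin S p` of layer G (`Spec/Datum3.lean`). -/
theorem globalSpecFin_of {p : ℕ} (hSU : GAD.SUnitDictSpec S) (hTr : GAD.DivTrTransSpec S)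
    (hCap : GAD.CapitulationSpec S p) (hEx : GAD.ExistenceSpec S p)
    (hCM : GAD.ClassModuleSpec S p) (hJ : GAD.JInjSpec S p) (hInf : GAD.InfInjSpec S p) :
    Tow.GlobalSpecFin S p :=
  ⟨GAD.datum S p,
    { good :=
        { gd1 := fun L hL => GAD.gammaT_spec S p L (hCM L hL)
          gd3 := fun L hL q hq y hy h0 => hJ L hL q hq y hy h0
          gd4 := fun L x => GAD.gd4_of hSU L x
          gd5 := fun L c a hc => GAD.gd5_of hCap L c a hc
          gd6 := fun L₀ hL₀ => hEx L₀ hL₀
          gd7a := fun h q hq x => GAD.gd7a p h q hq x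
          gd7b := fun h h' c => GAD.gd7b_of hTr p h h' c
          gd8 := fun h hL z hz h0 => hInf h hL z hz h0 }
      gd5b := isTorsModLocal S p }⟩

end

end Fermat.Agent.S55.GAD.H655
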