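/-
S55 / layer G / REC2-TOW, leaf TR-J (subtask 643, helper601):

    jInj_of_gd3 : TOW.Gd3Spec p → GAD.JInjSpec S p

Transport of GD3 (local–global injectivity on `H²`, layer-G language) to the concrete tower datum.
`j_q = incl_q ≫ (J_S → C_S) ≫ Φ` (`GAD.H594.jT_eq`); `incl_q` has the retraction `tensProj`, and
the image of `incl_q` is concentrated at `q`:

    KEY LEMMA  `tensIncl_comp_jRes : tensIncl L q ≫ jResRepHom (S.erase q ⊆ S) = 0`.
-/
import Fermat.Agent.S55.GAD.IsoH594
import Fermat.Agent.S55.GAD.Spec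
import Fermat.Agent.S55.G.Rec.Tow.Spec
import Fermat.Agent.S55.G.SIndH601.Surj
import Fermat.Agent.S55.T.SumH635

set_option autoImplicit false
set_option linter.unusedSectionVars false
set_option linter.style.haveILetI false

open CategoryTheory
open scoped TensorProduct

namespace Fermat.Agent.S55.GAD.H601

open Fermat.Agent.S55 Fermat.Agent.S55.Tow Fermat.Agent.S55.E1.H594 Fermat.Agent.S55.G
open Fermat.Agent.S55.GAD

noncomputable section

/-! ## Generic functoriality -/

section Generic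

variable {Γ : Type} [Group Γ]

lemma coeffMap_comp_apply601 {A B C : Rep.{0} ℤ Γ} (f : A ⟶ B) (g : B ⟶ C) (n : ℕ)
    (x : groupCohomology A n) :
    (T.coeffMap (f ≫ g) n).hom x = (T.coeffMap g n).hom ((T.coeffMap f n).hom x) := by
  have h : T.coeffMap (f ≫ g) n = T.coeffMap f n ≫ T.coeffMap g n :=
    groupCohomology.map_id_comp f g n
  rw [h]
  rfl

lemma coeffMap_id_apply601 (A : Rep.{0} ℤ Γ) (n : ℕ) (x : groupCohomology A n) :
    (T.coeffMap (𝟙 A) n).hom x = x := by
  have h : T.coeffMap (𝟙 A) n = 𝟙 _ := groupCohomology.map_id n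
  rw [h]
  rfl

/-- Change of coefficients along a split monomorphism is injective. -/
lemma coeffMap_injective_of_retraction {A B : Rep.{0} ℤ Γ} (i : A ⟶ B) (r : B ⟶ A)
    (h : i ≫ r = 𝟙 A) (n : ℕ) : Function.Injective (T.coeffMap i n).hom := by
  intro x y hxy
  have h1 := congrArg (T.coeffMap r n).hom hxy
  rw [← coeffMap_comp_apply601, ← coeffMap_comp_apply601, h, coeffMap_id_apply601,
    coeffMap_id_apply601] at h1
  exact h1

/-- Change of coefficients along an isomorphism is injective. -/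
lemma coeffMap_iso_injective601 {C C' : Rep.{0} ℤ Γ} (e : C ≅ C') (n : ℕ) :
    Function.Injective (T.coeffMap e.hom n).hom :=
  coeffMap_injective_of_retraction e.hom e.inv e.hom_inv_id n

end Generic

/-! ## The key lemma -/

variable {S : Finset Nat.Primes} (L : Level S)

/-- The components away from `q` of `incl_q f` are trivial. -/
lemma asPiEquiv_tensInclFun_ne {q q' : S} (hq : q' ≠ q) (f : (L.J q.1).V) :
    asPiEquiv L ((((tensInclFun L q f).toMul : (AS S L.F)ˣ)) : AS S L.F) q' = 1 := by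
  have h1 : tensLocEquiv L q'.1 (Additive.ofMul
      (MulEquiv.piUnits (M := fun q : S => ℚ_[(q.1 : ℕ)] ⊗[ℚ] L.F)
        (Units.mapEquiv (asPiEquiv L).toMulEquiv (tensInclFun L q f).toMul) q')) = 0 :=
    tensEquiv_tensInclFun_ne L hq f
  have h2 := (tensLocEquiv L q'.1).injective (h1.trans (map_zero _).symm)
  have h3 := congrArg (fun z : Additive (ℚ_[(q'.1 : ℕ)] ⊗[ℚ] L.F)ˣ =>
    ((z.toMul : (ℚ_[(q'.1 : ℕ)] ⊗[ℚ] L.F)ˣ) : ℚ_[(q'.1 : ℕ)] ⊗[ℚ] L.F)) h2
  exact h3

/-- `incl_q f` has trivial image in `J_{S ∖ {q}}`. -/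
theorem jRes_tensInclFun (q : S) (f : (L.J q.1).V) :
    jRes (Finset.erase_subset q.1 S) L.F (tensInclFun L q f) = 0 := by
  set u : (AS S L.F)ˣ := (tensInclFun L q f).toMul with hu
  have hS := Finset.erase_subset q.1 S
  -- `u e = e` for the idempotent `e` of `S ∖ {q}`
  have h1 : (u : AS S L.F) * SIndH601.eS L.F (S.erase q.1) S = SIndH601.eS L.F (S.erase q.1) S := by
    apply (asPiEquiv L).injective
    funext q'
    rw [map_mul, Pi.mul_apply]
    have he : asPiEquiv L (SIndH601.eS L.F (S.erase q.1) S) q' =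
        (QS.toPi S (SIndH601.indS (S.erase q.1) S) q') ⊗ₜ[ℚ] (1 : L.F) := rfl
    rw [he]
    by_cases hq' : q'.1 ∈ S.erase q.1
    · have hne : q' ≠ q := fun h => (Finset.mem_erase.1 hq').1 (congrArg Subtype.val h)
      rw [SIndH601.toPi_indS_of_mem q' hq', asPiEquiv_tensInclFun_ne L hne f, one_mul]
    · rw [SIndH601.toPi_indS_of_notMem q' hq', TensorProduct.zero_tmul, mul_zero]
  have h2 : asRes hS L.F (u : AS S L.F) = 1 := by
    have h3 := SIndH601.mul_eS hS L.F (u : AS S L.F)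
    rw [h1, SIndH601.eS_eq_sec_one hS L.F] at h3
    have h4 := congrArg (asRes hS L.F) h3
    rw [SIndH601.asRes_sec hS L.F, SIndH601.asRes_sec hS L.F] at h4
    exact h4.symm
  apply Additive.toMul.injective
  apply Units.ext
  exact h2

/-- **KEY LEMMA**: `incl_q ≫ (J_S → J_{S ∖ {q}}) = 0`. -/
theorem tensIncl_comp_jRes (q : S) :
    tensIncl L q ≫ Rec.TOW.jResRepHom L.Gal L.F (Finset.erase_subset q.1 S) = 0 := by
  apply Rep.hom_ext
  apply Representation.IntertwiningMap.ext
  exact LinearMap.ext fun f => jRes_tensInclFun L q f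

/-- `incl_q ≫ proj_q = 𝟙`. -/
theorem tensIncl_comp_tensProj (q : S) : tensIncl L q ≫ tensProj L q = 𝟙 (L.J q.1) := by
  apply Rep.hom_ext
  apply Representation.IntertwiningMap.ext
  exact LinearMap.ext fun f => tensProj_tensIncl_same L q f

/-! ## The transport -/

/-- **REC2-TOW:TR-J.**  GD3 in layer-G language implies `GAD.JInjSpec` for the concrete tower
datum. -/
theorem jInj_of_gd3 (S : Finset Nat.Primes) (p : ℕ) (h : Rec.TOW.Gd3Spec p) :
    JInjSpec S p := by
  intro L _ q hq y hy hy0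
  -- the image `Y` of `y` in `H²(Gal, J_S(F))`
  have hYp : E1.IsPPrimary p ((T.coeffMap (tensIncl L ⟨q, hq⟩) 2).hom y) :=
    ⟨1, by rw [pow_one, ← map_nsmul, hy, map_zero]⟩
  have hYat : Rec.TOW.IsAt S L.Gal L.F q ((T.coeffMap (tensIncl L ⟨q, hq⟩) 2).hom y) := by
    change (T.coeffMap (Rec.TOW.jResRepHom L.Gal L.F (Finset.erase_subset q S)) 2).hom
      ((T.coeffMap (tensIncl L ⟨q, hq⟩) 2).hom y) = 0
    rw [← coeffMap_comp_apply601, tensIncl_comp_jRes L ⟨q, hq⟩]
    exact T.H635.coeffMap_zero_apply 2 y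
  have hYj : (T.coeffMap (jToCRepHom S L.Gal L.F) 2).hom
      ((T.coeffMap (tensIncl L ⟨q, hq⟩) 2).hom y) = 0 := by
    apply coeffMap_iso_injective601 (H594.crepIso L) 2
    rw [map_zero, ← coeffMap_comp_apply601, ← coeffMap_comp_apply601,
      ← H594.jT_eq L ⟨q, hq⟩]
    exact hy0
  have hY0 := h S L q hq _ hYp hYat hYj
  exact coeffMap_injective_of_retraction _ _ (tensIncl_comp_tensProj L ⟨q, hq⟩) 2
    (hY0.trans (map_zero _).symm)

end

end Fermat.Agent.S55.GAD.H601
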